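import Fermat.Agent.MCurve.SpecialDifferential.Wrap
import Fermat.Agent.MCurve.GenField
import Fermat.Agent.MCurve.Theta
import Fermat.Agent.MCurve.RootBridge

/-!
The level field over a field `K` as `K(j)(η)`, `η = j (q ^ m)`, with the modular equation over
`ℤ_(p) [j]`.
-/

set_option autoImplicit false
set_option maxHeartbeats 1000000
set_option linter.style.haveILetI false

noncomputable section

namespace Fermat.Agent.MCurve.SpecialDifferential

open Polynomial ModularCurve CongruenceSubgroup IntermediateField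

/-- A field generated by elements of `K(t)(η)` is `K(t)(η)`. -/
theorem adjoin_simple_eq_top_of_gen {K L : Type*} [Field K] [Field L] [Algebra K L] {F : Type*}
    [Field F] [Algebra K F] (ι : F →ₐ[K] L) {S : Set L}
    (hF : ι.fieldRange = IntermediateField.adjoin K S) (t η : F)
    (hgen : ∀ x ∈ S, ∃ (D : K[X]) (Q : K[X][X]), Polynomial.aeval t D ≠ 0 ∧
      ι (Polynomial.aeval t D) * x = ι (Q.eval₂ (Polynomial.aeval t).toRingHom η)) :
    IntermediateField.adjoin K⟮t⟯ ({η} : Set F) = ⊤ := by
  set E := IntermediateField.adjoin K⟮t⟯ ({η} : Set F)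
  have haeval : ∀ a : K[X], Polynomial.aeval t a ∈ E := fun a => by
    have h : Polynomial.aeval t a ∈ K⟮t⟯ := algebra_adjoin_le_adjoin K {t}
      (by rw [Algebra.adjoin_singleton_eq_range_aeval]; exact ⟨a, rfl⟩)
    exact E.algebraMap_mem ⟨Polynomial.aeval t a, h⟩
  have hev : ∀ Q : K[X][X], Q.eval₂ (Polynomial.aeval t).toRingHom η ∈ E := fun Q => by
    rw [eval₂_eq_sum_range]
    have hη : η ∈ E := IntermediateField.mem_adjoin_simple_self K⟮t⟯ η
    exact sum_mem fun i _ => mul_mem (haeval (Q.coeff i)) (pow_mem hη i)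
  refine eq_top_iff.mpr fun y _ => ?_
  have h1 : ι.fieldRange ≤ (E.restrictScalars K).map ι := by
    conv_lhs => rw [hF]
    refine adjoin_le_iff.mpr fun x hx => ?_
    obtain ⟨D, Q, hD, hDQ⟩ := hgen x hx
    refine ⟨(Polynomial.aeval t D)⁻¹ * Q.eval₂ (Polynomial.aeval t).toRingHom η,
      E.mul_mem (E.inv_mem (haeval D)) (hev Q), ?_⟩
    show ι _ = x
    rw [map_mul, map_inv₀, ← hDQ, inv_mul_cancel_left₀]
    exact (map_ne_zero ι).mpr hD
  obtain ⟨z, hz, hzy⟩ := h1 ⟨y, rfl⟩
  exact (ι.injective hzy : z = y) ▸ hz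

section Eval

variable (R : Type*) [CommRing R] (m : ℕ) [NeZero m]

/-- `R[X] → R((q))`, evaluation at `j`. -/
def ev1 : R[X] →+* LaurentSeries R := eval₂RingHom HahnSeries.C (jqModC R)

/-- `j (q ^ m)`. -/
def etaL : LaurentSeries R := qExpand R m (jqModC R)

/-- Evaluation at `(j, η)`. -/
def ev2 : R[X][X] →+* LaurentSeries R := eval₂RingHom (ev1 R) (etaL R m)

variable {R} {S : Type*} [CommRing S]

theorem coeffMap_C (f : R →+* S) (a : R) : coeffMap f (HahnSeries.C a) = HahnSeries.C (f a) :=
  coeffMap_single f 0 a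

theorem coeffMap_ev1 (f : R →+* S) (a : R[X]) : coeffMap f (ev1 R a) = ev1 S (a.map f) := by
  rw [ev1, ev1, coe_eval₂RingHom, coe_eval₂RingHom, hom_eval₂, eval₂_map, MCurve.coeffMap_jqModC]
  congr 1
  exact RingHom.ext (coeffMap_C f)

theorem coeffMap_etaL (f : R →+* S) : coeffMap f (etaL R m) = etaL S m := by
  rw [etaL, etaL, qExpand_coeffMap, MCurve.coeffMap_jqModC]

theorem coeffMap_ev2 (f : R →+* S) (Q : R[X][X]) :
    coeffMap f (ev2 R m Q) = ev2 S m (Q.map (mapRingHom f)) := by
  rw [ev2, ev2, coe_eval₂RingHom, coe_eval₂RingHom, hom_eval₂, eval₂_map, coeffMap_etaL]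
  congr 1
  exact RingHom.ext fun a => coeffMap_ev1 f a

theorem ev2_C (a : R[X]) : ev2 R m (C a) = ev1 R a := eval₂_C _ _

theorem ev2_X : ev2 R m X = etaL R m := eval₂_X _ _

theorem ev2_eq_sum {d : ℕ} {Q : R[X][X]} (hQ : Q.natDegree < d) :
    ev2 R m Q = ∑ b : Fin d, ev1 R (Q.coeff b) * etaL R m ^ (b : ℕ) := by
  rw [ev2, coe_eval₂RingHom, eval₂_eq_sum_range' _ hQ,
    Fin.sum_univ_eq_sum_range (fun b => ev1 R (Q.coeff b) * etaL R m ^ b)]

end Eval

section FieldK

variable {K : Type*} [Field K] {m : ℕ} [NeZero m]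

theorem ev1_eq_jHom (a : K[X]) : ev1 K a = jHom K a := rfl

theorem ev1_eq_evJq : ev1 K = (evJq K).toRingHom :=
  RingHom.ext fun a => (evJq_eq_jHom K a).symm

theorem index_pos : 0 < (Gamma0 m).index :=
  Nat.pos_of_ne_zero Subgroup.FiniteIndex.index_ne_zero

theorem eq_zero_of_ev2 (hind : RedIndependent K m) {Q : K[X][X]}
    (hQ : Q.natDegree < (Gamma0 m).index) (h0 : ev2 K m Q = 0) : Q = 0 := by
  rw [ev2_eq_sum m hQ] at h0
  have h1 := hind (fun b => Q.coeff b) (by
    rw [← h0]
    exact Finset.sum_congr rfl fun b _ => rfl)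
  ext1 i
  by_cases hi : i < (Gamma0 m).index
  · exact congrFun h1 ⟨i, hi⟩
  · rw [coeff_eq_zero_of_natDegree_lt (hQ.trans_le (not_lt.mp hi)), coeff_zero]

theorem index_le_natDegree (hind : RedIndependent K m) {Q : K[X][X]} (hQ : Q ≠ 0)
    (h0 : ev2 K m Q = 0) : (Gamma0 m).index ≤ Q.natDegree := by
  by_contra h
  exact hQ (eq_zero_of_ev2 hind (not_le.mp h) h0)

variable (m) in
theorem redIndependent_qbar : RedIndependent (AlgebraicClosure ℚ) m := by
  let q := GalRep.qbarToC
  let e := RingEquiv.ofBijective q.rangeRestrict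
    ⟨fun a b h => q.injective (congrArg Subtype.val h), q.rangeRestrict_surjective⟩
  refine redIndependent_of m (A := q.range) e.symm.toRingHom e.symm.surjective ⟨fun ζ hζ => ?_, ?_⟩
    (Nat.cast_ne_zero.mpr (NeZero.ne m))
  · obtain ⟨z, hz⟩ := GalRep.exists_qbarToC_eq
      (IsAlgebraic.of_pow (NeZero.pos m) (by rw [hζ]; exact isAlgebraic_one))
    exact ⟨z, hz⟩
  · exact ⟨((m : AlgebraicClosure ℚ))⁻¹, by rw [map_inv₀, map_natCast]⟩

end FieldK

section ModEquation

variable (p m : ℕ) [Fact p.Prime] [NeZero m]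

set_option quotPrecheck false in
local notation "A" => ↥(GaloisRep.ratLocalizedAt p)

/-- `ℤ_(p) → ℚ̄`. -/
def toQbar : A →+* AlgebraicClosure ℚ :=
  (algebraMap ℚ (AlgebraicClosure ℚ)).comp (GaloisRep.ratLocalizedAt p).subtype

theorem toQbar_injective : Function.Injective (toQbar p) :=
  (algebraMap ℚ (AlgebraicClosure ℚ)).injective.comp Subtype.val_injective

theorem index_le_natDegree_A {Q : A[X][X]} (hQ : Q ≠ 0) (h0 : ev2 A m Q = 0) :
    (Gamma0 m).index ≤ Q.natDegree := by
  have hinj : Function.Injective (mapRingHom (toQbar p)) := map_injective _ (toQbar_injective p)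
  have h := index_le_natDegree (redIndependent_qbar m) (Q := Q.map (mapRingHom (toQbar p)))
    ((Polynomial.map_ne_zero_iff hinj).mpr hQ) (by rw [← coeffMap_ev2, h0, map_zero])
  rwa [natDegree_map_eq_of_injective hinj] at h

theorem coeffMap_ev1_int (a : ℤ[X]) :
    coeffMap (GaloisRep.ratLocalizedAt p).subtype (ev1 A (mapRingHom (Int.castRingHom A) a)) =
      evalAtJ a := by
  rw [coe_mapRingHom]
  rw [← coeffMap_subtype_oJ p a]
  congr 1
  show _ = Polynomial.eval₂ _ _ _
  rw [ev1, coe_eval₂RingHom, eval₂_map]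
  congr 1

/-- The modular equation over `ℤ_(p) [j]`. -/
theorem exists_modEquation (hpm : ¬ p ∣ m) :
    ∃ P : A[X][X], P.Monic ∧ P.natDegree = (Gamma0 m).index ∧ ev2 A m P = 0 := by
  classical
  letI : Algebra A[X] (LaurentSeries A) := (ev1 A).toAlgebra
  have hinj1 : Function.Injective (ev1 A) := by
    intro a b h
    refine Polynomial.map_injective (GaloisRep.ratLocalizedAt p).subtype Subtype.val_injective
      (jHom_injective (k := ℚ) ?_)
    rw [← ev1_eq_jHom, ← ev1_eq_jHom, ← coeffMap_ev1, ← coeffMap_ev1, h]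
  haveI : FaithfulSMul A[X] (LaurentSeries A) :=
    (faithfulSMul_iff_algebraMap_injective _ _).mpr hinj1
  obtain ⟨M, hM, hM0⟩ := exists_monic_relation m p hpm
  have hint : IsIntegral A[X] (etaL A m) := ⟨M, hM, hM0⟩
  refine ⟨minpoly A[X] (etaL A m), minpoly.monic hint, le_antisymm ?_ ?_, minpoly.aeval _ _⟩
  swap
  · exact index_le_natDegree_A p m (minpoly.monic hint).ne_zero (minpoly.aeval _ _)
  set d := (Gamma0 m).index
  obtain ⟨dd, a, hne, hrel⟩ := exists_relation m
    ((⟨qExpand ℚ m jq, jqd_mem_full m dvd_rfl⟩ : modularFunctionFieldFull m) ^ d)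
  let i : ℤ[X] →+* A[X] := mapRingHom (Int.castRingHom A)
  let Q : A[X][X] := C (i dd) * X ^ d - ∑ b : Fin d, C (i (a b)) * X ^ (b : ℕ)
  have hdeg : Q.natDegree ≤ d := by
    refine (natDegree_sub_le _ _).trans (max_le ?_ ?_)
    · exact natDegree_C_mul_X_pow_le _ _
    · exact natDegree_sum_le_of_forall_le _ _ fun b _ =>
        (natDegree_C_mul_X_pow_le _ _).trans b.2.le
  have hicast : Function.Injective (Int.castRingHom A) := fun x y h => by
    have := congrArg Subtype.val h
    simpa using this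
  have hQ0 : Q ≠ 0 := by
    intro h0
    rcases hne with hd | ⟨b, hb⟩
    · refine hd (map_injective _ hicast ?_)
      have := congrArg (fun r : A[X][X] => r.coeff d) h0
      simp only [Q, coeff_sub, finsetSum_coeff, coeff_C_mul_X_pow, coeff_zero, if_true] at this
      rw [Finset.sum_eq_zero fun b _ => if_neg (by have := b.2; omega), sub_zero] at this
      simpa [i] using this
    · refine hb (map_injective _ hicast ?_)
      have := congrArg (fun r : A[X][X] => r.coeff (b : ℕ)) h0
      simp only [Q, coeff_sub, finsetSum_coeff, coeff_C_mul_X_pow, coeff_zero] at this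
      rw [if_neg (by have := b.2; omega), Finset.sum_eq_single b
        (fun c _ hc => if_neg fun e => hc (Fin.ext e.symm)) (by simp), if_pos rfl, zero_sub,
        neg_eq_zero] at this
      simpa [i] using this
  have hroot : ev2 A m Q = 0 := by
    apply (show Function.Injective (coeffMap (GaloisRep.ratLocalizedAt p).subtype) from fun _ _ h =>
      HahnSeries.ext (funext fun k =>
        Subtype.ext (congrArg (fun s : LaurentSeries ℚ => s.coeff k) h)))
    have hη : coeffMap (GaloisRep.ratLocalizedAt p).subtype (etaL A m) = qExpand ℚ m jq := by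
      rw [coeffMap_etaL, etaL, jqModC_rat]
    rw [map_zero, map_sub, map_mul, map_pow, ev2_C, ev2_X, map_sub, map_mul, map_pow, hη,
      map_sum, map_sum, coeffMap_ev1_int, sub_eq_zero]
    rw [show qExpand ℚ m jq ^ d = (((⟨qExpand ℚ m jq, jqd_mem_full m dvd_rfl⟩ :
      modularFunctionFieldFull m) ^ d : modularFunctionFieldFull m) : LaurentSeries ℚ) by simp, hrel]
    refine Finset.sum_congr rfl fun b _ => ?_
    rw [map_mul, map_pow, ev2_C, ev2_X, map_mul, map_pow, hη, coeffMap_ev1_int]
  exact (natDegree_le_of_dvd (minpoly.isIntegrallyClosed_dvd hint hroot) hQ0).trans hdeg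

/-- The generators are in `K(j)(η)`. -/
theorem exists_gen_relation (hpm : ¬ p ∣ m) {K : Type*} [Field K]
    (hK : ∀ z : ℤ, (z : K) = 0 → (p : ℤ) ∣ z) (ρ : A →+* K) {x : LaurentSeries K}
    (hx : x ∈ divisorExpansionsC K m) :
    ∃ (D : K[X]) (Q : K[X][X]), D ≠ 0 ∧ ev1 K D * x = ev2 K m Q := by
  classical
  obtain ⟨e, he0, he, rfl⟩ := hx
  obtain ⟨k₀, _, ρ₀, hρ₀, hind⟩ := exists_redIndependent m p hpm
  obtain ⟨dd, a, hne, hrel⟩ := exists_relation m
    (⟨qExpand ℚ e jq, jqd_mem_full m he⟩ : modularFunctionFieldFull m)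
  have hdd : dd ≠ 0 := by
    intro h0
    obtain ⟨b₀, hb₀⟩ := hne.resolve_left (not_not.mpr h0)
    let j : ℤ[X] →+* (AlgebraicClosure ℚ)[X] := mapRingHom (Int.castRingHom _)
    have h1 := congrArg (coeffMap (algebraMap ℚ (AlgebraicClosure ℚ))) hrel
    rw [h0, map_zero, zero_mul, map_zero, map_sum] at h1
    have h2 := (redIndependent_qbar m) (fun b => j (a b)) (by
      rw [h1]
      refine Finset.sum_congr rfl fun b _ => ?_
      rw [map_mul, map_pow, qExpand_coeffMap, ← jqModC_rat, MCurve.coeffMap_jqModC,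
        ← coeffMap_ev1_int p, coeffMap_coeffMap, coeffMap_ev1]
      show jHom _ _ * _ = ev1 _ _ * _
      simp only [j, coe_mapRingHom]
      rw [Polynomial.map_map, ev1_eq_jHom]
      congr 3)
    exact hb₀ (map_injective (Int.castRingHom (AlgebraicClosure ℚ)) Int.cast_injective (by
      rw [Polynomial.map_zero]; exact congrFun h2 b₀))
  set t := qExpand A e (jqModC A)
  have ht : coeffMap (GaloisRep.ratLocalizedAt p).subtype t = qExpand ℚ e jq := by
    rw [qExpand_coeffMap, MCurve.coeffMap_jqModC, jqModC_rat]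
  obtain ⟨d', a', hd', hrel', -⟩ := exists_primitive_relation m p hρ₀ hind _ dd a hdd hrel t ht
  let i : ℤ[X] →+* A[X] := mapRingHom (Int.castRingHom A)
  have hA : ev1 A (i d') * t = ∑ b, ev1 A (i (a' b)) * etaL A m ^ (b : ℕ) := by
    apply (show Function.Injective (coeffMap (GaloisRep.ratLocalizedAt p).subtype) from fun _ _ h =>
      HahnSeries.ext (funext fun k =>
        Subtype.ext (congrArg (fun s : LaurentSeries ℚ => s.coeff k) h)))
    rw [map_mul, map_sum, ht, coeffMap_ev1_int, hrel']
    refine Finset.sum_congr rfl fun b _ => ?_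
    rw [map_mul, map_pow, coeffMap_ev1_int, coeffMap_etaL, etaL, jqModC_rat]
  refine ⟨(i d').map ρ, ∑ b, C ((i (a' b)).map ρ) * X ^ (b : ℕ), fun h0 => hd' ?_, ?_⟩
  · obtain ⟨n, hn⟩ : ∃ n, (d'.map (Int.castRingHom k₀)).coeff n ≠ 0 :=
      ⟨_, leadingCoeff_ne_zero.mpr hd'⟩
    refine absurd ?_ hn
    have h2 := congrArg (fun r : K[X] => r.coeff n) h0
    simp only [i, coe_mapRingHom, coeff_map, coeff_zero, eq_intCast, map_intCast] at h2
    obtain ⟨z, hz⟩ := hK _ h2
    rw [coeff_map, eq_intCast, hz, Int.cast_mul, Int.cast_natCast, ← map_natCast ρ₀, hρ₀, zero_mul]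
  · have := congrArg (coeffMap ρ) hA
    rw [map_mul, map_sum, coeffMap_ev1, qExpand_coeffMap, MCurve.coeffMap_jqModC] at this
    rw [this, map_sum]
    refine Finset.sum_congr rfl fun b _ => ?_
    rw [map_mul, map_pow, coeffMap_ev1, coeffMap_etaL, map_mul, map_pow, ev2_C, ev2_X]

end ModEquation

section Struct

/-- `P` is the equation of `η` over `K[j]` and generates the level field. -/
structure GenData (K : Type*) [Field K] (m : ℕ) [NeZero m] (P : K[X][X]) : Prop where
  monic : P.Monic
  natDegree_eq : P.natDegree = (Gamma0 m).index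
  root : ev2 K m P = 0
  indep : RedIndependent K m
  gen : ∀ x ∈ divisorExpansionsC K m, ∃ (D : K[X]) (Q : K[X][X]), D ≠ 0 ∧ ev1 K D * x = ev2 K m Q

theorem genData {p : ℕ} [Fact p.Prime] {m : ℕ} [NeZero m] (hpm : ¬ p ∣ m) {K : Type*} [Field K]
    (hK : ∀ z : ℤ, (z : K) = 0 → (p : ℤ) ∣ z) (ρ : ↥(GaloisRep.ratLocalizedAt p) →+* K)
    (hind : RedIndependent K m) {P : (↥(GaloisRep.ratLocalizedAt p))[X][X]} (hP : P.Monic)
    (hdeg : P.natDegree = (Gamma0 m).index) (hroot : ev2 _ m P = 0) :
    GenData K m (P.map (mapRingHom ρ)) where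
  monic := hP.map _
  natDegree_eq := by rw [hP.natDegree_map, hdeg]
  root := by rw [← coeffMap_ev2, hroot, map_zero]
  indep := hind
  gen x hx := exists_gen_relation p m hpm hK ρ hx

variable {K : Type*} [Field K] {m : ℕ} [NeZero m] {P : K[X][X]} (g : GenData K m P)

/-- `η` in the field. -/
def etaF (K : Type*) [Field K] (m : ℕ) [NeZero m] : modularFunctionFieldFullC K m :=
  ⟨qExpand K m (jqModC K), jqModCd_mem_full K m dvd_rfl⟩

/-- Evaluation at `(j, η)` in the field. -/
def evF (K : Type*) [Field K] (m : ℕ) [NeZero m] : K[X][X] →+* modularFunctionFieldFullC K m :=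
  eval₂RingHom (Polynomial.aeval (R := K) (jFullC K m)).toRingHom (etaF K m)

theorem coe_aeval_jFullC (a : K[X]) :
    ((Polynomial.aeval (jFullC K m) a : modularFunctionFieldFullC K m) : LaurentSeries K) =
      ev1 K a := by
  rw [ev1_eq_evJq]
  exact (Polynomial.aeval_algHom_apply (modularFunctionFieldFullC K m).val (jFullC K m) a).symm

theorem coe_evF (Q : K[X][X]) :
    ((evF K m Q : modularFunctionFieldFullC K m) : LaurentSeries K) = ev2 K m Q := by
  show (algebraMap (modularFunctionFieldFullC K m) (LaurentSeries K)) (evF K m Q) = _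
  rw [evF, ev2, coe_eval₂RingHom, coe_eval₂RingHom, hom_eval₂]
  congr 1
  exact RingHom.ext fun a => coe_aeval_jFullC a

include g

theorem GenData.derivative_ne_zero [IsAlgClosed K] : ev2 K m (derivative P) ≠ 0 := by
  classical
  intro h0
  have hd := index_pos (m := m)
  have hdegP := g.natDegree_eq
  have hcoeffd : P.coeff (Gamma0 m).index = 1 := by rw [← hdegP]; exact g.monic.coeff_natDegree
  set d := (Gamma0 m).index with hddef
  have hder : derivative P = 0 := eq_zero_of_ev2 g.indep
    ((natDegree_derivative_lt (by omega)).trans_le hdegP.le) h0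
  obtain ⟨p, hp⟩ := CharP.exists K
  haveI hpL : CharP (LaurentSeries K) p :=
    charP_of_injective_algebraMap (algebraMap K (LaurentSeries K)).injective p
  rcases CharP.char_is_prime_or_zero K p with hp' | hp'
  swap
  · subst hp'
    haveI := CharP.charP_to_charZero K
    have := congrArg (fun r : K[X][X] => r.coeff (d - 1)) hder
    rw [coeff_derivative, Nat.sub_add_cancel hd, coeff_zero, hcoeffd, one_mul] at this
    exact (Nat.cast_add_one_ne_zero (R := K[X]) (d - 1)) this
  haveI : Fact p.Prime := ⟨hp'⟩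
  haveI : CharP K[X] p := inferInstance
  -- `p` divides the exponents
  have hexp : ∀ i, P.coeff i ≠ 0 → p ∣ i := by
    intro i hi
    rcases i with _ | i
    · exact dvd_zero p
    have := congrArg (fun r : K[X][X] => r.coeff i) hder
    rw [coeff_derivative, coeff_zero, mul_eq_zero] at this
    have h1 := this.resolve_left hi
    rwa [show ((i : K[X]) + 1) = ((i + 1 : ℕ) : K[X]) by push_cast; rfl,
      CharP.cast_eq_zero_iff K[X] p] at h1
  -- the derivatives of the coefficients vanish
  have hcd : coeffD P = 0 := by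
    have hcoeff : ∀ i, (coeffD P).coeff i = derivative (P.coeff i) := by
      intro i
      conv_lhs => rw [P.as_sum_range_C_mul_X_pow]
      rw [map_sum, finsetSum_coeff]
      simp only [coeffD_C_mul_X_pow, coeff_C_mul_X_pow]
      rw [Finset.sum_ite_eq]
      split_ifs with h
      · rfl
      · rw [coeff_eq_zero_of_natDegree_lt (by simpa using h), derivative_zero]
    refine eq_zero_of_ev2 g.indep ?_ ?_
    · refine lt_of_le_of_lt (natDegree_le_iff_coeff_eq_zero.mpr fun i hi => ?_)
        (show d - 1 < d by omega)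
      rw [hcoeff]
      rcases lt_or_eq_of_le (show d ≤ i by omega) with h | h
      · rw [coeff_eq_zero_of_natDegree_lt (hdegP.trans_lt h), derivative_zero]
      · rw [← h, hcoeffd, derivative_one]
    · have hf : IsDer K (RingHom.id (LaurentSeries K)) (thetaL (R := K)) :=
        ⟨thetaL_add, fun x y => by rw [thetaL_mul]; simp; ring, fun a => by
          rw [algebraMap_laurentSeries_eq_single]; exact thetaL_C a⟩
      have hev : ∀ Q : K[X][X],
          Q.eval₂ (Polynomial.aeval (R := K) (jqModC K)).toRingHom (etaL K m) = ev2 K m Q := fun Q => by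
        rw [ev2, coe_eval₂RingHom, ev1_eq_evJq]; rfl
      have h1 := hf.eval₂ (jqModC K) (etaL K m) P
      rw [hev, hev, hev, g.root, hder, map_zero, RingHom.id_apply, RingHom.id_apply, zero_mul,
        add_zero, show thetaL (0 : LaurentSeries K) = 0 by ext; simp] at h1
      refine (mul_eq_zero.mp h1.symm).resolve_right fun h2 => ?_
      have := congrArg (fun s : LaurentSeries K => s.coeff (-1)) h2
      simp [coeff_jqModC_neg_one] at this
  have hdp : p ∣ d := by
    refine hexp d ?_
    rw [hcoeffd]; exact one_ne_zero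
  have hroot : ∀ i, ∃ c : K[X], c ^ p = P.coeff i := by
    intro i
    have hd0 : derivative (P.coeff i) = 0 := by
      have := congrArg (fun r : K[X][X] => r.coeff i) hcd
      simp only [coeff_zero] at this
      rw [← this]
      conv_rhs => rw [P.as_sum_range_C_mul_X_pow]
      rw [map_sum, finsetSum_coeff]
      simp only [coeffD_C_mul_X_pow, coeff_C_mul_X_pow]
      rw [Finset.sum_ite_eq]
      split_ifs with h
      · rfl
      · rw [coeff_eq_zero_of_natDegree_lt (by simpa using h), derivative_zero]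
    rw [← expand_contract p hd0 hp'.ne_zero]
    set f := contract p (P.coeff i)
    refine ⟨f.map (frobeniusEquiv K p).symm.toRingHom, ?_⟩
    rw [← map_frobenius_expand, map_expand, Polynomial.map_map]
    conv_rhs => rw [← Polynomial.map_id (p := f)]
    congr 2
    exact RingHom.ext fun x => by simp
  choose c hc using hroot
  let H : K[X][X] := ∑ i ∈ Finset.range (d / p + 1), C (c (p * i)) * X ^ i
  have hH : ev2 K m H ^ p = 0 := by
    rw [map_sum, sum_pow_char, ← g.root]
    conv_rhs => rw [P.as_sum_range_C_mul_X_pow, map_sum, hdegP]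
    refine Finset.sum_bij_ne_zero (fun i _ _ => p * i) (fun i hi _ => ?_) (fun a _ _ b _ _ h => ?_)
      (fun j hj hj0 => ?_) (fun i _ _ => ?_)
    · rw [Finset.mem_range] at hi ⊢
      obtain ⟨e, he⟩ := hdp
      rw [he, Nat.mul_div_cancel_left _ hp'.pos] at hi
      have := Nat.mul_le_mul_left p (Nat.lt_succ_iff.mp hi)
      omega
    · exact Nat.eq_of_mul_eq_mul_left hp'.pos h
    · have : P.coeff j ≠ 0 := fun e => hj0 (by rw [e, map_zero, zero_mul, map_zero])
      obtain ⟨i, rfl⟩ := hexp j this
      refine ⟨i, ?_, ?_, rfl⟩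
      · rw [Finset.mem_range] at hj ⊢
        rw [Nat.lt_succ_iff, Nat.le_div_iff_mul_le hp'.pos, mul_comm]
        omega
      · intro h'
        apply hj0
        rw [map_mul, map_pow, ev2_C, ev2_X, ← hc, pow_mul', map_pow, ← mul_pow]
        rw [map_mul, map_pow, ev2_C, ev2_X] at h'
        exact h'
    · rw [map_mul, map_pow, ev2_C, ev2_X, map_mul, map_pow, ev2_C, ev2_X, ← hc, pow_mul', map_pow,
        ← mul_pow]
  have hdeg : H.natDegree ≤ d / p :=
    natDegree_sum_le_of_forall_le _ _ fun i hi => (natDegree_C_mul_X_pow_le _ _).trans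
      (Nat.lt_succ_iff.mp (Finset.mem_range.mp hi))
  have hH0 := eq_zero_of_ev2 g.indep (hdeg.trans_lt (Nat.div_lt_self hd hp'.one_lt))
    (pow_eq_zero_iff hp'.ne_zero |>.mp hH)
  have htop := congrArg (fun r : K[X][X] => r.coeff (d / p)) hH0
  simp only [H, finsetSum_coeff, coeff_C_mul_X_pow, coeff_zero] at htop
  rw [Finset.sum_eq_single (d / p) (fun i _ hi => if_neg (Ne.symm hi)) (by simp), if_pos rfl,
    Nat.mul_div_cancel' hdp] at htop
  have := hc d
  rw [htop, zero_pow hp'.ne_zero, hcoeffd] at this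
  exact zero_ne_one this

theorem GenData.adjoin_eta :
    IntermediateField.adjoin K⟮jFullC K m⟯ ({etaF K m} : Set (modularFunctionFieldFullC K m)) = ⊤ :=
  adjoin_simple_eq_top_of_gen (S := divisorExpansionsC K m) (modularFunctionFieldFullC K m).val
    (modularFunctionFieldFullC K m).fieldRange_val (jFullC K m) (etaF K m)
    fun x hx => by
    obtain ⟨D, Q, hD, hDQ⟩ := g.gen x hx
    refine ⟨D, Q, fun h => hD (jHom_injective ?_), ?_⟩
    · rw [map_zero, ← ev1_eq_jHom, ← coe_aeval_jFullC (m := m), h]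
      rfl
    · show ((Polynomial.aeval (jFullC K m) D : modularFunctionFieldFullC K m) : LaurentSeries K) * x =
        ((evF K m Q : modularFunctionFieldFullC K m) : LaurentSeries K)
      rw [coe_evF, coe_aeval_jFullC, hDQ]

theorem GenData.evF_root : evF K m P = 0 := Subtype.ext ((coe_evF P).trans g.root)

theorem GenData.coord [IsAlgClosed K] : Coord K (jFullC K m) := by
  have htr : Transcendental K (jFullC K m) := fun ⟨q, hq, h⟩ => hq (jHom_injective (by
    rw [map_zero, ← ev1_eq_jHom, ← coe_aeval_jFullC (m := m), h]; rfl))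
  set E := K⟮jFullC K m⟯
  let φ : K[X] →+* E := ((Polynomial.aeval (R := K) (jFullC K m)).toRingHom).codRestrict
    E.toSubring (fun a => algebra_adjoin_le_adjoin K {jFullC K m}
      (by rw [Algebra.adjoin_singleton_eq_range_aeval]; exact ⟨a, rfl⟩))
  have hφ : (algebraMap E (modularFunctionFieldFullC K m)).comp φ =
      (Polynomial.aeval (R := K) (jFullC K m)).toRingHom := RingHom.ext fun _ => rfl
  have h0 : Polynomial.aeval (etaF K m) (P.map φ) = 0 := by
    rw [aeval_def, eval₂_map, hφ]; exact g.evF_root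
  have hint : IsIntegral E (etaF K m) :=
    ⟨P.map φ, g.monic.map _, by rw [← aeval_def]; exact h0⟩
  have hsep : IsSeparable E (etaF K m) := by
    obtain ⟨q, hq⟩ := minpoly.dvd E _ h0
    refine (separable_iff_derivative_ne_zero (minpoly.irreducible hint)).mpr fun hm0 => ?_
    have h1 := congrArg (fun r => Polynomial.aeval (etaF K m) (derivative r)) hq
    simp only [derivative_mul, hm0, zero_mul, zero_add, map_mul, minpoly.aeval] at h1
    rw [derivative_map, aeval_def, eval₂_map, hφ] at h1
    refine g.derivative_ne_zero ?_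
    rw [← coe_evF]
    exact congrArg Subtype.val h1
  haveI : FiniteDimensional E (IntermediateField.adjoin E
      ({etaF K m} : Set (modularFunctionFieldFullC K m))) :=
    IntermediateField.adjoin.finiteDimensional hint
  haveI : Algebra.IsSeparable E (IntermediateField.adjoin E
      ({etaF K m} : Set (modularFunctionFieldFullC K m))) :=
    (IntermediateField.isSeparable_adjoin_simple_iff_isSeparable _ _).mpr hsep
  let e := ((IntermediateField.equivOfEq g.adjoin_eta).trans IntermediateField.topEquiv)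
  exact ⟨htr, Module.Finite.equiv e.toLinearEquiv, AlgEquiv.Algebra.isSeparable e⟩

/-- The trace of `H(η) / P'(η)`. -/
theorem GenData.trF_div [IsAlgClosed K] (H : K[X][X]) :
    trF K (jFullC K m) (evF K m H / evF K m (derivative P)) =
      Polynomial.aeval (jFullC K m) ((H %ₘ P).coeff (P.natDegree - 1)) :=
  g.coord.trF_div g.monic g.evF_root (fun Q hQ h0 => by
    rw [g.natDegree_eq]
    exact index_le_natDegree g.indep hQ.ne_zero (by
      rw [← coe_evF]
      exact congrArg Subtype.val h0)) g.adjoin_eta H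

end Struct

end Fermat.Agent.MCurve.SpecialDifferential
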