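import Fermat.Agent.GalRep.ModFun
import Mathlib.Analysis.Complex.LocallyUniformLimit
import Mathlib.Analysis.Complex.RemovableSingularity

/-!
Analytic lemmas for the cusp forms attached to differentials: the `q`-series of a derivative, the
chain rule, and the extension of integral quotients of modular functions.
-/

set_option autoImplicit false
set_option maxHeartbeats 800000

noncomputable section

namespace Fermat.Agent.MCurve.SpecialDifferential

open UpperHalfPlane Filter Topology CongruenceSubgroup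
open Fermat.Agent.GalRep (modFuns jMF jNMF HasQSeries IsModFun qq)
open Fermat.Agent.Period (jFun)
open scoped MatrixGroups Manifold ModularForm Derivative

/-- Termwise differentiation of the series of width `w`. -/
theorem hasQSeries_D {w : ℕ} (hw : 0 < w) {F : ℍ → ℂ} {f g : LaurentSeries ℂ}
    (hf : HasQSeries w F f) (hg : ∀ n : ℤ, g.coeff n = (n : ℂ) / w * f.coeff n) :
    HasQSeries w (Derivative.normalizedDerivOfComplex F) g := by
  obtain ⟨A, hA⟩ := (atImInfty_mem _).mp hf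
  refine (atImInfty_mem _).mpr ⟨max A 0 + 2, fun τ hτ => ?_⟩
  set c : ℝ := max A 0 + 1 with hcdef
  set C : ℝ := τ.im + 1 with hCdef
  have hc : 0 < c := by positivity
  have hcA : A ≤ c := le_trans (le_max_left A 0) (by linarith)
  set U : Set ℂ := {z : ℂ | c < z.im ∧ z.im < C}
  have hU : IsOpen U := (isOpen_lt continuous_const Complex.continuous_im).inter
    (isOpen_lt Complex.continuous_im continuous_const)
  have hτU : (τ : ℂ) ∈ U := ⟨by rw [coe_im]; linarith, by rw [coe_im]; linarith⟩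
  have hnorm : ∀ (m : ℤ) (z : ℂ),
      ‖Complex.exp (2 * Real.pi * Complex.I * m * z / w)‖ =
        Real.exp (-(2 * Real.pi * m * z.im / w)) := by
    intro m z
    rw [Complex.norm_exp]
    congr 1
    simp [Complex.div_natCast_re, Complex.mul_re, Complex.mul_im]
    ring
  let F' : ℤ → ℂ → ℂ := fun m z => f.coeff m * Complex.exp (2 * Real.pi * Complex.I * m * z / w)
  have hsumAt : ∀ r : ℝ, c ≤ r → Summable fun m : ℤ =>
      ‖f.coeff m‖ * Real.exp (-(2 * Real.pi * m * r / w)) := by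
    intro r hr
    have hr0 : 0 < r := lt_of_lt_of_le hc hr
    let τr : ℍ := ⟨r * Complex.I, by simpa using hr0⟩
    have hτr : τr.im = r := by simp [τr, UpperHalfPlane.im]
    refine (hA τr (by rw [hτr]; linarith)).summable.norm.congr fun m => ?_
    rw [norm_mul, hnorm, coe_im, hτr]
  have hcC : c ≤ C := by linarith [hτ]
  have hsum : Summable fun m : ℤ => ‖f.coeff m‖ * Real.exp (-(2 * Real.pi * m * c / w)) +
      ‖f.coeff m‖ * Real.exp (-(2 * Real.pi * m * C / w)) :=
    (hsumAt c le_rfl).add (hsumAt C hcC)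
  have hF : ∀ m, DifferentiableOn ℂ (F' m) U := fun m => by
    apply Differentiable.differentiableOn
    simp only [F']
    fun_prop
  have hle : ∀ m, ∀ z ∈ U, ‖F' m z‖ ≤ ‖f.coeff m‖ * Real.exp (-(2 * Real.pi * m * c / w)) +
      ‖f.coeff m‖ * Real.exp (-(2 * Real.pi * m * C / w)) := by
    rintro m z ⟨hz1, hz2⟩
    rw [norm_mul, hnorm, ← mul_add]
    refine mul_le_mul_of_nonneg_left ?_ (norm_nonneg _)
    have hw' : (0 : ℝ) < w := by exact_mod_cast hw
    have hπ := Real.pi_pos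
    rcases le_total 0 (m : ℝ) with hm | hm
    · refine le_trans (Real.exp_le_exp.mpr (neg_le_neg ?_)) (le_add_of_nonneg_right (Real.exp_pos _).le)
      gcongr
    · refine le_trans (Real.exp_le_exp.mpr (neg_le_neg ?_)) (le_add_of_nonneg_left (Real.exp_pos _).le)
      refine div_le_div_of_nonneg_right ?_ hw'.le
      exact mul_le_mul_of_nonpos_left hz2.le (by nlinarith)
  have h := Complex.hasSum_deriv_of_summable_norm hsum hF hU hle hτU
  have hEq : (fun z : ℂ => ∑' m, F' m z) =ᶠ[𝓝 (τ : ℂ)] (F ∘ ofComplex) := by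
    filter_upwards [hU.mem_nhds hτU] with z hz
    have hz0 : 0 < z.im := hc.trans hz.1
    rw [Function.comp_apply, ofComplex_apply_of_im_pos hz0]
    exact (hA ⟨z, hz0⟩ (hcA.trans hz.1.le)).tsum_eq
  rw [hEq.deriv_eq] at h
  refine (h.mul_left ((2 * Real.pi * Complex.I)⁻¹)).congr_fun fun m => ?_
  have hd : HasDerivAt (F' m) (f.coeff m *
      (Complex.exp (2 * Real.pi * Complex.I * m * (τ : ℂ) / w) * (2 * Real.pi * Complex.I * m / w)))
      (τ : ℂ) := by
    refine (HasDerivAt.cexp ?_).const_mul _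
    simpa using ((hasDerivAt_id (τ : ℂ)).const_mul (2 * Real.pi * Complex.I * m)).div_const (w : ℂ)
  rw [hd.deriv, hg]
  field_simp [Real.pi_ne_zero, Complex.I_ne_zero]

/-- The chain rule for a translate. -/
theorem D_comp_smul {F : ℍ → ℂ} (hF : MDifferentiable 𝓘(ℂ) 𝓘(ℂ) F) (γ : SL(2, ℤ)) :
    Derivative.normalizedDerivOfComplex (fun τ => F (γ • τ)) =
      (Derivative.normalizedDerivOfComplex F) ∣[(2 : ℤ)] γ := by
  have h0 : F ∣[(0 : ℤ)] γ = fun τ => F (γ • τ) := by
    funext τ; simp [ModularForm.SL_slash_apply]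
  have := Derivative.normalizedDerivOfComplex_SL_slash (k := 0) hF (γ := γ)
  rw [h0, zero_add] at this
  rw [this]
  funext τ
  simp

/-- A root of a monic relation is bounded by the coefficients. -/
theorem norm_le_of_root {d : ℕ} (c : Fin d → ℂ) {z : ℂ}
    (hz : z ^ d + ∑ i, c i * z ^ (i : ℕ) = 0) : ‖z‖ ≤ max 1 (∑ i, ‖c i‖) := by
  by_contra hlt
  rw [not_le, max_lt_iff] at hlt
  obtain ⟨h1, h2⟩ := hlt
  rcases d with _ | d
  · simp at hz
  have h3 : ‖z‖ ^ (d + 1) ≤ (∑ i, ‖c i‖) * ‖z‖ ^ d := by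
    rw [← norm_pow, eq_neg_of_add_eq_zero_left hz, norm_neg, Finset.sum_mul]
    refine (norm_sum_le _ _).trans (Finset.sum_le_sum fun i _ => ?_)
    rw [norm_mul, norm_pow]
    exact mul_le_mul_of_nonneg_left (pow_le_pow_right₀ h1.le (by omega)) (norm_nonneg _)
  rw [pow_succ'] at h3
  have := le_of_mul_le_mul_right h3 (by positivity)
  linarith

/-- A quotient of holomorphic functions satisfying a monic relation is holomorphic. -/
theorem exists_holo_quotient {A p : ℍ → ℂ} (hA : MDifferentiable 𝓘(ℂ) 𝓘(ℂ) A)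
    (hp : MDifferentiable 𝓘(ℂ) 𝓘(ℂ) p) (hp0 : p ≠ 0) {d : ℕ} (c : Fin d → ℍ → ℂ)
    (hc : ∀ i, MDifferentiable 𝓘(ℂ) 𝓘(ℂ) (c i))
    (hroot : ∀ τ, p τ ≠ 0 → (A τ / p τ) ^ d + ∑ i, c i τ * (A τ / p τ) ^ (i : ℕ) = 0) :
    ∃ Φ : ℍ → ℂ, MDifferentiable 𝓘(ℂ) 𝓘(ℂ) Φ ∧ Φ * p = A := by
  classical
  have hAd := UpperHalfPlane.mdifferentiable_iff.mp hA
  have hpd := UpperHalfPlane.mdifferentiable_iff.mp hp
  set g : ℂ → ℂ := fun z => (A ∘ ofComplex) z / (p ∘ ofComplex) z with hgdef
  -- the zeros are isolated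
  have hiso : ∀ z ∈ upperHalfPlaneSet, ∀ᶠ x in 𝓝[≠] z, (p ∘ ofComplex) x ≠ 0 := by
    intro z hz
    rcases ((hpd.analyticOnNhd isOpen_upperHalfPlaneSet) z hz).eventually_eq_zero_or_eventually_ne_zero
      with h | h
    · exfalso
      refine hp0 (funext fun τ => ?_)
      have := (hpd.analyticOnNhd isOpen_upperHalfPlaneSet).eqOn_zero_of_preconnected_of_eventuallyEq_zero
        (convex_halfSpace_im_gt 0).isPreconnected hz h τ.im_pos
      simpa [Function.comp, ofComplex_apply] using this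
    · exact h
  have hgd : ∀ z ∈ upperHalfPlaneSet, (p ∘ ofComplex) z ≠ 0 → DifferentiableAt ℂ g z := by
    intro z hz hne
    exact (hAd.differentiableAt (isOpen_upperHalfPlaneSet.mem_nhds hz)).div
      (hpd.differentiableAt (isOpen_upperHalfPlaneSet.mem_nhds hz)) hne
  set G : ℂ → ℂ := fun z => limUnder (𝓝[≠] z) g with hGdef
  have hGeq : ∀ z ∈ upperHalfPlaneSet, (p ∘ ofComplex) z ≠ 0 → G z = g z := fun z hz hne =>
    ((hgd z hz hne).continuousAt.tendsto.mono_left nhdsWithin_le_nhds).limUnder_eq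
  have hGd : DifferentiableOn ℂ G upperHalfPlaneSet := by
    intro z hz
    have hnb := isOpen_upperHalfPlaneSet.mem_nhds hz
    have hev : ∀ᶠ x in 𝓝 z, x ≠ z → (p ∘ ofComplex) x ≠ 0 :=
      eventually_nhdsWithin_iff.mp (hiso z hz)
    have hbd : ∀ᶠ x in 𝓝 z, x ∈ upperHalfPlaneSet ∧
        ∑ i, ‖(c i ∘ ofComplex) x‖ < ∑ i, ‖(c i ∘ ofComplex) z‖ + 1 := by
      refine (show ∀ᶠ x in 𝓝 z, x ∈ upperHalfPlaneSet from hnb).and ?_
      have hcont : ContinuousAt (fun x => ∑ i, ‖(c i ∘ ofComplex) x‖) z :=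
        tendsto_finsetSum _ fun i _ => ((UpperHalfPlane.mdifferentiable_iff.mp (hc i)).differentiableAt
          hnb).continuousAt.norm
      exact hcont.tendsto.eventually (eventually_lt_nhds (lt_add_one _))
    obtain ⟨ε, hε, hball⟩ := Metric.eventually_nhds_iff_ball.mp (hev.and hbd)
    have hs : Metric.ball z ε ∈ 𝓝 z := Metric.ball_mem_nhds z hε
    have hd' : DifferentiableOn ℂ g (Metric.ball z ε \ {z}) := fun x hx =>
      (hgd x (hball x hx.1).2.1 ((hball x hx.1).1 hx.2)).differentiableWithinAt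
    have hb : BddAbove (norm ∘ g '' (Metric.ball z ε \ {z})) := by
      refine ⟨max 1 (∑ i, ‖(c i ∘ ofComplex) z‖ + 1), ?_⟩
      rintro _ ⟨x, hx, rfl⟩
      obtain ⟨hne, hxU, hlt⟩ := hball x hx.1
      exact (norm_le_of_root (fun i => (c i ∘ ofComplex) x) (hroot (ofComplex x) (hne hx.2))).trans
        (max_le_max le_rfl hlt.le)
    have h1 := Complex.differentiableOn_update_limUnder_of_bddAbove hs hd' hb
    refine ((h1.congr fun x hx => ?_).differentiableAt hs).differentiableWithinAt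
    by_cases hxz : x = z
    · subst hxz; simp [G]
    · rw [Function.update_of_ne hxz]
      exact hGeq x (hball x hx).2.1 ((hball x hx).1 hxz)
  refine ⟨fun τ => G τ, ?_, ?_⟩
  · rw [UpperHalfPlane.mdifferentiable_iff]
    exact hGd.congr fun z hz => by simp [ofComplex_apply_of_im_pos hz]
  · funext τ
    have hev : (fun z => G z * (p ∘ ofComplex) z) =ᶠ[𝓝[≠] (τ : ℂ)] (A ∘ ofComplex) := by
      filter_upwards [hiso _ τ.im_pos, nhdsWithin_le_nhds (isOpen_upperHalfPlaneSet.mem_nhds τ.im_pos)]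
        with x hx hxU
      rw [hGeq x hxU hx, hgdef]
      exact div_mul_cancel₀ _ hx
    have hnb := isOpen_upperHalfPlaneSet.mem_nhds τ.im_pos
    have hc1 : ContinuousAt (fun z => G z * (p ∘ ofComplex) z) (τ : ℂ) :=
      ((hGd.differentiableAt hnb).mul (hpd.differentiableAt hnb)).continuousAt
    have hc2 : ContinuousAt (A ∘ ofComplex) (τ : ℂ) := (hAd.differentiableAt hnb).continuousAt
    have := tendsto_nhds_unique ((hc1.tendsto.mono_left nhdsWithin_le_nhds).congr' hev)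
      (hc2.tendsto.mono_left nhdsWithin_le_nhds)
    simpa [Function.comp, ofComplex_apply] using this

/-- An integral quotient `A / P (j)` of modular functions is a modular function. -/
theorem exists_modFun_quotient {N : ℕ} [NeZero N] (A : modFuns (Gamma0 N)) {P : Polynomial ℂ}
    (hP : P ≠ 0) {d : ℕ} (c : Fin d → Polynomial ℂ)
    (hroot : (A : modFuns (Gamma0 N)) ^ d + ∑ i, Polynomial.aeval (jMF (Gamma0 N)) (c i) *
      Polynomial.aeval (jMF (Gamma0 N)) P ^ (d - (i : ℕ)) * A ^ (i : ℕ) = 0) :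
    ∃ Φ : modFuns (Gamma0 N), Φ * Polynomial.aeval (jMF (Gamma0 N)) P = A := by
  classical
  have hev : ∀ (Q : Polynomial ℂ) (τ : ℍ),
      ((Polynomial.aeval (jMF (Gamma0 N)) Q : modFuns (Gamma0 N)) : ℍ → ℂ) τ = Q.eval (jFun τ) := by
    intro Q τ
    induction Q using Polynomial.induction_on' with
    | add a b ha hb => simp [ha, hb]
    | monomial n a => simp [jMF, Polynomial.aeval_monomial, Pi.algebraMap_apply]
  set p : ℍ → ℂ := fun τ => P.eval (jFun τ) with hpdef
  have hpA : ((Polynomial.aeval (jMF (Gamma0 N)) P : modFuns (Gamma0 N)) : ℍ → ℂ) = p :=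
    funext (hev P)
  have hphol : MDifferentiable 𝓘(ℂ) 𝓘(ℂ) p :=
    hpA ▸ (Polynomial.aeval (jMF (Gamma0 N)) P).2.holo
  have hp0 : p ≠ 0 := fun h => hP (GalRep.eq_zero_of_eval_jFun fun τ => congrFun h τ)
  obtain ⟨Φ, hΦ, hΦp⟩ := exists_holo_quotient A.2.holo hphol hp0
    (fun i τ => (c i).eval (jFun τ)) (fun i => by
      rw [← funext (hev (c i))]
      exact (Polynomial.aeval (jMF (Gamma0 N)) (c i)).2.holo) fun τ hτ => by
    have h := congrFun (congrArg Subtype.val hroot) τ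
    simp only [Subalgebra.coe_add, Subalgebra.coe_pow, AddSubmonoidClass.coe_finsetSum,
      Subalgebra.coe_mul, Pi.add_apply, Pi.pow_apply, Finset.sum_apply, Pi.mul_apply, hev,
      ZeroMemClass.coe_zero, Pi.zero_apply] at h
    have hpd : p τ ^ d ≠ 0 := pow_ne_zero _ hτ
    refine mul_left_cancel₀ hpd ?_
    rw [mul_zero, mul_add, Finset.mul_sum, ← h, ← mul_pow, mul_div_cancel₀ _ hτ]
    congr 1
    refine Finset.sum_congr rfl fun i _ => ?_
    have hi : d = (d - (i : ℕ)) + i := by have := i.2; omega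
    rw [show p τ ^ d = p τ ^ (d - (i : ℕ)) * p τ ^ (i : ℕ) by rw [← pow_add, ← hi]]
    rw [show p τ = P.eval (jFun τ) from rfl] at hτ ⊢
    field_simp
    rw [mul_right_comm, ← mul_pow, mul_div_cancel₀ _ hτ, mul_comm]
  have hinv : ∀ γ ∈ Gamma0 N, ∀ τ : ℍ, Φ (γ • τ) = Φ τ := by
    intro γ hγ
    have h1 : ((fun τ => Φ (γ • τ)) - Φ) * p = 0 := by
      rw [sub_mul, hΦp]
      funext τ
      have e1 := congrFun hΦp (γ • τ)
      simp only [Pi.mul_apply, hpdef, Period.jFun_smul, A.2.invariant γ hγ τ] at e1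
      exact sub_eq_zero.mpr e1
    intro τ
    exact sub_eq_zero.mp (congrFun (((UpperHalfPlane.mul_eq_zero_iff
      ((GalRep.mdifferentiable_comp_smul hΦ γ).sub hΦ) hphol).mp h1).resolve_right hp0) τ)
  refine ⟨⟨Φ, hΦ, hinv, fun δ => ?_⟩, Subtype.ext (by rw [Subalgebra.coe_mul, hpA]; exact hΦp)⟩
  -- growth at the cusp `δ`
  let δ' := GalRep.shift N δ (GalRep.incl N A)
  have hA' : HasQSeries N (δ' : ℍ → ℂ) (GalRep.serHom N δ') := GalRep.hasQSeries_serHom _
  have hJ := GalRep.hasQSeries_aeval_jFun P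
  obtain ⟨hne, hord⟩ := GalRep.order_aeval_jq hP
  obtain ⟨CA, hCA⟩ := hA'.growth (NeZero.pos N) (m₀ := -((GalRep.serHom N δ').order.natAbs : ℤ))
    fun i hi => HahnSeries.coeff_eq_zero_of_lt_order (by omega)
  have hlead := (hJ.tendsto_leading one_pos).norm.eventually_const_lt
    (u := ‖(Polynomial.aeval GalRep.jq P).coeff (Polynomial.aeval GalRep.jq P).order‖ / 2)
    (by
      have := norm_pos_iff.mpr (HahnSeries.coeff_order_eq_zero.not.mpr hne)
      linarith)
  have hper : ∀ τ : ℍ, Φ (δ • ((N : ℝ) +ᵥ τ)) = Φ (δ • τ) := fun τ => by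
    have hc : δ * ModularGroup.T ^ (N : ℤ) * δ⁻¹ ∈ Gamma0 N :=
      GalRep.Gamma_le_Gamma0 N ((Gamma_normal N).conj_mem _ (by
        simpa using ModularGroup_T_pow_mem_Gamma N N dvd_rfl) δ)
    have := hinv _ hc (δ • τ)
    rwa [← mul_smul, inv_mul_cancel_right, mul_smul, modular_T_zpow_smul, Int.cast_natCast] at this
  obtain ⟨f, hf, -⟩ := GalRep.exists_hasQSeries (NeZero.pos N)
    (GalRep.mdifferentiable_comp_smul hΦ δ) hper
    (C := |CA| * (‖(Polynomial.aeval GalRep.jq P).coeff (Polynomial.aeval GalRep.jq P).order‖ / 2)⁻¹)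
    (B := (GalRep.serHom N δ').order.natAbs) (by
    filter_upwards [hCA, hlead] with τ h1 h2
    rw [norm_div, norm_zpow, hord, zpow_neg, div_inv_eq_mul, zpow_natCast] at h2
    have hq : ‖qq 1 τ‖ ^ P.natDegree ≤ 1 :=
      pow_le_one₀ (norm_nonneg _) (GalRep.norm_qq_lt_one 1 one_pos τ).le
    have hpos := norm_pos_iff.mpr (HahnSeries.coeff_order_eq_zero.not.mpr hne)
    rw [hord] at hpos
    have hle : ‖(Polynomial.aeval GalRep.jq P).coeff (-(P.natDegree : ℤ))‖ / 2 ≤
        ‖P.eval (jFun τ)‖ :=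
      h2.le.trans (mul_le_of_le_one_right (norm_nonneg _) hq)
    have heq : Φ (δ • τ) * P.eval (jFun τ) = (δ' : ℍ → ℂ) τ := by
      have := congrFun hΦp (δ • τ)
      simp only [Pi.mul_apply, hpdef, Period.jFun_smul] at this
      exact this
    rw [hord, mul_right_comm, ← div_eq_mul_inv, le_div_iff₀ (by positivity)]
    calc ‖Φ (δ • τ)‖ * (‖(Polynomial.aeval GalRep.jq P).coeff (-(P.natDegree : ℤ))‖ / 2)
        ≤ ‖Φ (δ • τ)‖ * ‖P.eval (jFun τ)‖ := mul_le_mul_of_nonneg_left hle (norm_nonneg _)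
      _ = ‖(δ' : ℍ → ℂ) τ‖ := by rw [← norm_mul, heq]
      _ ≤ CA * ‖qq N τ‖ ^ (-((GalRep.serHom N δ').order.natAbs : ℤ)) := h1
      _ ≤ |CA| * ‖qq N τ‖ ^ (-((GalRep.serHom N δ').order.natAbs : ℤ)) :=
        mul_le_mul_of_nonneg_right (le_abs_self _) (by positivity))
  exact ⟨N, f, NeZero.pos N, hf⟩

end Fermat.Agent.MCurve.SpecialDifferential
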