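import Fermat.Agent.MCurve.SpecialDifferential.Lattice
import Fermat.Agent.Galois.Places
import Mathlib.FieldTheory.Galois.Infinite

/-!
Descent from `ℚ̄` to `ℤ_(p)` of functions integral over `ℚ̄ [t]`, the triangular system attached to
a monic polynomial, and denominators in `K (j) (η)`.
-/

set_option autoImplicit false
set_option maxHeartbeats 1000000
set_option linter.style.haveILetI false

noncomputable section

namespace Fermat.Agent.MCurve.SpecialDifferential

open Polynomial ModularCurve CongruenceSubgroup IntermediateField ModularCurve.IgusaScheme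

section Triangular

variable {R : Type*} [CommRing R] {P : R[X]}

theorem coeff_modByMonic_X_pow (hP : P.Monic) {e : ℕ} (c : R) (he : e < P.natDegree) (n : ℕ) :
    ((C c * X ^ e) %ₘ P).coeff n = if n = e then c else 0 := by
  nontriviality R
  rw [(modByMonic_eq_self_iff hP).mpr ?_, coeff_C_mul_X_pow]
  refine (degree_C_mul_X_pow_le _ _).trans_lt ?_
  rw [degree_eq_natDegree hP.ne_zero]
  exact_mod_cast he

/-- The coefficient functional `H ↦ (H Xᵇ mod P)_{d-1}` reaches every value. -/
theorem exists_topCoeff (hP : P.Monic) (hd : 0 < P.natDegree) (s : ℕ → R) :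
    ∃ H : R[X], H.natDegree < P.natDegree ∧
      ∀ b < P.natDegree, ((H * X ^ b) %ₘ P).coeff (P.natDegree - 1) = s b := by
  set d := P.natDegree
  suffices h : ∀ k ≤ d, ∃ H : R[X], H.natDegree < d ∧
      ∀ b < k, ((H * X ^ b) %ₘ P).coeff (d - 1) = s b from h d le_rfl
  intro k hk
  induction k with
  | zero => exact ⟨0, by simpa using hd, fun b hb => absurd hb (Nat.not_lt_zero b)⟩
  | succ k ih =>
    obtain ⟨H, hH, hval⟩ := ih (by omega)
    set c := s k - ((H * X ^ k) %ₘ P).coeff (d - 1)
    refine ⟨H + C c * X ^ (d - 1 - k), ?_, fun b hb => ?_⟩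
    · refine lt_of_le_of_lt (natDegree_add_le _ _) (max_lt hH ?_)
      exact lt_of_le_of_lt (natDegree_C_mul_X_pow_le _ _) (by omega)
    · rw [add_mul, mul_assoc, ← pow_add, add_modByMonic, coeff_add,
        coeff_modByMonic_X_pow hP c (by omega)]
      rcases Nat.lt_succ_iff_lt_or_eq.mp hb with hlt | rfl
      · rw [if_neg (by omega), add_zero]
        exact hval b hlt
      · rw [if_pos (by omega)]
        exact add_sub_cancel _ _

/-- The coefficient functional determines `H`. -/
theorem eq_zero_of_topCoeff (hP : P.Monic) {G : R[X]} (hG : G.natDegree < P.natDegree)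
    (h : ∀ b < P.natDegree, ((G * X ^ b) %ₘ P).coeff (P.natDegree - 1) = 0) : G = 0 := by
  nontriviality R
  by_contra h0
  refine leadingCoeff_ne_zero.mpr h0 ?_
  have h1 := h (P.natDegree - 1 - G.natDegree) (by omega)
  rw [(modByMonic_eq_self_iff hP).mpr ?_,
    show P.natDegree - 1 = G.natDegree + (P.natDegree - 1 - G.natDegree) by omega] at h1
  · rw [show G.natDegree + (P.natDegree - 1 - G.natDegree) - G.natDegree =
      P.natDegree - 1 - G.natDegree by omega, coeff_mul_X_pow] at h1
    exact h1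
  · refine (degree_le_natDegree).trans_lt ?_
    rw [degree_eq_natDegree hP.ne_zero, natDegree_mul_X_pow _ h0]
    exact_mod_cast (by omega : G.natDegree + (P.natDegree - 1 - G.natDegree) < P.natDegree)

theorem modByMonic_map_mul_X_pow {S : Type*} [CommRing S] (f : R →+* S) (hP : P.Monic) (H : R[X])
    (b n : ℕ) : (((H.map f) * X ^ b) %ₘ P.map f).coeff n = f (((H * X ^ b) %ₘ P).coeff n) := by
  rw [← coeff_map, map_modByMonic f hP, Polynomial.map_mul, Polynomial.map_pow, map_X]

end Triangular

section Denominators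

variable {K : Type*} [Field K] {m : ℕ} [NeZero m]

theorem aeval_jFullC_ne_zero {D : K[X]} (hD : D ≠ 0) : Polynomial.aeval (jFullC K m) D ≠ 0 :=
  fun h => hD (jHom_injective (by rw [map_zero, ← ev1_eq_jHom, ← coe_aeval_jFullC (m := m), h]; rfl))

theorem evF_C (a : K[X]) : evF K m (C a) = Polynomial.aeval (jFullC K m) a := eval₂_C _ _

theorem evF_X : evF K m X = etaF K m := eval₂_X _ _

theorem GenData.exists_denom {P : K[X][X]} (g : GenData K m P) (y : modularFunctionFieldFullC K m) :
    ∃ (D : K[X]) (Q : K[X][X]), D ≠ 0 ∧ Polynomial.aeval (jFullC K m) D * y = evF K m Q := by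
  have hy : y ∈ (IntermediateField.adjoin K⟮jFullC K m⟯
      ({etaF K m} : Set (modularFunctionFieldFullC K m))).toSubalgebra := by
    rw [g.adjoin_eta]; exact IntermediateField.mem_top
  have halg : IsAlgebraic K⟮jFullC K m⟯ (etaF K m) := by
    refine ⟨P.map ((Polynomial.aeval (R := K) (⟨jFullC K m,
      mem_adjoin_simple_self K _⟩ : K⟮jFullC K m⟯)).toRingHom), (g.monic.map _).ne_zero, ?_⟩
    rw [aeval_def, eval₂_map, ← g.evF_root, evF, coe_eval₂RingHom]
    congr 1
    refine Polynomial.ringHom_ext (fun a => ?_) ?_ <;> simp <;> rfl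
  rw [adjoin_simple_toSubalgebra_of_isAlgebraic halg] at hy
  induction hy using Algebra.adjoin_induction with
  | mem x hx =>
    obtain rfl : x = etaF K m := hx
    exact ⟨1, X, one_ne_zero, by rw [map_one, one_mul, evF_X]⟩
  | algebraMap a =>
    obtain ⟨r, s, hrs⟩ := (mem_adjoin_simple_iff _ _).mp a.2
    by_cases hs : s = 0
    · refine ⟨1, 0, one_ne_zero, ?_⟩
      rw [map_one, one_mul, map_zero]
      show (a : modularFunctionFieldFullC K m) = 0
      rw [hrs, hs, map_zero, div_zero]
    · refine ⟨s, C r, hs, ?_⟩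
      show _ * (a : modularFunctionFieldFullC K m) = _
      rw [evF_C, hrs, mul_div_cancel₀ _ (aeval_jFullC_ne_zero hs)]
  | add x z _ _ hx hz =>
    obtain ⟨D, Q, hD, hx⟩ := hx
    obtain ⟨D', Q', hD', hz⟩ := hz
    refine ⟨D * D', C D' * Q + C D * Q', mul_ne_zero hD hD', ?_⟩
    rw [map_mul, map_add, map_mul, map_mul, evF_C, evF_C, ← hx, ← hz]
    ring
  | mul x z _ _ hx hz =>
    obtain ⟨D, Q, hD, hx⟩ := hx
    obtain ⟨D', Q', hD', hz⟩ := hz
    refine ⟨D * D', Q * Q', mul_ne_zero hD hD', ?_⟩
    rw [map_mul, map_mul, ← hx, ← hz]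
    ring

end Denominators

section Descent

local notation "Q̄" => AlgebraicClosure ℚ

/-- Evaluation of polynomials over `Q̄` at a series. -/
abbrev evT (t : LaurentSeries Q̄) : Q̄[X] →+* LaurentSeries Q̄ := eval₂RingHom HahnSeries.C t

theorem exists_rat_multiple {D : Q̄[X]} (hD : D ≠ 0) :
    ∃ (D₀ : ℚ[X]) (E : Q̄[X]), D₀ ≠ 0 ∧ D₀.map (algebraMap ℚ Q̄) = D * E := by
  letI : Algebra ℚ[X] Q̄[X] := (mapRingHom (algebraMap ℚ Q̄)).toAlgebra
  have hint : IsIntegral ℚ[X] D := by
    refine Polynomial.induction_on' D (fun a b ha hb => ha.add hb) fun n a => ?_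
    rw [← C_mul_X_pow_eq_monomial]
    refine IsIntegral.mul ?_ ?_
    · obtain ⟨M, hM, hMa⟩ := Algebra.IsIntegral.isIntegral (R := ℚ) a
      refine ⟨M.map C, hM.map _, ?_⟩
      rw [eval₂_map, show (algebraMap ℚ[X] Q̄[X]).comp C = C.comp (algebraMap ℚ Q̄) from
        RingHom.ext fun x => map_C _, ← hom_eval₂, hMa, map_zero]
    · have : (X ^ n : Q̄[X]) = algebraMap ℚ[X] Q̄[X] (X ^ n) := by
        show _ = mapRingHom _ _
        simp
      rw [this]
      exact isIntegral_algebraMap
  obtain ⟨M, hM, hMD⟩ := hint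
  obtain ⟨N, hN, hN0⟩ := exists_eq_pow_rootMultiplicity_mul_and_not_dvd M hM.ne_zero 0
  rw [map_zero, sub_zero] at hN hN0
  have hc : N.coeff 0 ≠ 0 := fun h => hN0 (X_dvd_iff.mpr h)
  have hev : Polynomial.aeval D N = 0 := by
    have h1 : Polynomial.aeval D M = 0 := hMD
    rw [hN, map_mul, map_pow, aeval_X] at h1
    exact (mul_eq_zero.mp h1).resolve_left (pow_ne_zero _ hD)
  rw [← X_mul_divX_add N, map_add, map_mul, aeval_X, aeval_C] at hev
  refine ⟨N.coeff 0, -Polynomial.aeval D N.divX, hc, ?_⟩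
  rw [mul_neg, add_eq_zero_iff_neg_eq.mp hev]
  rfl

/-- The conjugates of an independent family span. -/
theorem span_conjugates {n : ℕ} {a : Fin n → Q̄} (ha : LinearIndependent ℚ a) :
    Submodule.span Q̄ (Set.range fun σ : Q̄ ≃ₐ[ℚ] Q̄ => fun i => σ (a i)) = ⊤ := by
  classical
  have key : ∀ (s : Finset (Fin n)) (c : Fin n → Q̄), (∀ i ∉ s, c i = 0) →
      (∀ σ : Q̄ ≃ₐ[ℚ] Q̄, ∑ i, c i * σ (a i) = 0) → c = 0 := by
    intro s
    induction s using Finset.induction with
    | empty => exact fun c hc _ => funext fun i => hc i (Finset.notMem_empty i)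
    | insert j s hj ih =>
      intro c hc hrel
      by_cases hcj : c j = 0
      · refine ih c (fun i hi => ?_) hrel
        rcases eq_or_ne i j with rfl | hij
        · exact hcj
        · exact hc i (by simp [hij, hi])
      exfalso
      set e : Fin n → Q̄ := fun i => c i / c j
      have hrat : ∀ (τ : Q̄ ≃ₐ[ℚ] Q̄) (i : Fin n), τ (e i) = e i := by
        intro τ
        have := ih (fun i => τ (e i) - e i) (fun i hi => ?_) (fun σ => ?_)
        · exact fun i => sub_eq_zero.mp (congrFun this i)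
        · rcases eq_or_ne i j with rfl | hij
          · simp [e, div_self hcj]
          · simp [e, hc i (by simp [hij, hi])]
        · simp only [sub_mul, Finset.sum_sub_distrib]
          have h1 : ∀ ρ : Q̄ ≃ₐ[ℚ] Q̄, ∑ i, e i * ρ (a i) = 0 := fun ρ => by
            simp only [e, div_mul_eq_mul_div, ← Finset.sum_div, hrel ρ, zero_div]
          have h2 := congrArg τ (h1 (τ⁻¹ * σ))
          rw [map_sum, map_zero] at h2
          rw [h1 σ, sub_zero, ← h2]
          refine Finset.sum_congr rfl fun i _ => ?_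
          rw [map_mul, AlgEquiv.mul_apply, ← AlgEquiv.mul_apply, mul_inv_cancel, AlgEquiv.one_apply]
      choose r hr using fun i => (InfiniteGalois.mem_bot_iff_fixed (e i)).mpr fun τ => hrat τ i
      have h3 : ∑ i, r i • a i = 0 := by
        rw [← zero_div (c j), ← hrel 1, Finset.sum_div]
        refine Finset.sum_congr rfl fun i _ => ?_
        rw [Algebra.smul_def, AlgEquiv.one_apply,
          show algebraMap ℚ Q̄ (r i) = e i from hr i, div_mul_eq_mul_div]
      have h4 := Fintype.linearIndependent_iff.mp ha r h3 j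
      have h5 := hr j
      rw [h4, map_zero] at h5
      have h6 : e j = 1 := div_self hcj
      exact zero_ne_one (h5.trans h6)
  by_contra hne
  obtain ⟨f, hf0, hf⟩ := Submodule.exists_le_ker_of_lt_top _ (lt_top_iff_ne_top.mpr hne)
  have hfc : ∀ v : Fin n → Q̄, f v = ∑ i, f (Pi.single i 1) * v i := fun v => by
    conv_lhs => rw [show v = ∑ i, v i • (Pi.single i (1 : Q̄) : Fin n → Q̄) by
      ext k; simp [Finset.sum_apply, Pi.single_apply]]
    rw [map_sum]
    exact Finset.sum_congr rfl fun i _ => by rw [map_smul, smul_eq_mul, mul_comm]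
  refine hf0 (LinearMap.ext fun v => ?_)
  have := key Finset.univ (fun i => f (Pi.single i 1)) (fun i hi => absurd (Finset.mem_univ i) hi)
    fun σ => by
      rw [← hfc]
      exact hf (Submodule.subset_span ⟨σ, rfl⟩)
  rw [hfc]
  simp [congrFun this]

/-- A decomposition of a polynomial along an independent family of `Q̄ / ℚ`. -/
theorem exists_decomposition (Q : Q̄[X][X]) :
    ∃ (n : ℕ) (a : Fin n → Q̄) (Qi : Fin n → ℚ[X][X]), LinearIndependent ℚ a ∧
      Q = ∑ i, C (C (a i)) * (Qi i).map (mapRingHom (algebraMap ℚ Q̄)) := by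
  classical
  let S : Submodule ℚ Q̄ := Submodule.span ℚ
    (Q.support.biUnion fun b => (Q.coeff b).support.image fun i => (Q.coeff b).coeff i : Set Q̄)
  haveI : FiniteDimensional ℚ S := FiniteDimensional.span_of_finite ℚ (Finset.finite_toSet _)
  let β := Module.finBasis ℚ S
  have hmem : ∀ b i, (Q.coeff b).coeff i ∈ S := by
    intro b i
    by_cases hb : (Q.coeff b).coeff i = 0
    · rw [hb]; exact zero_mem _
    · refine Submodule.subset_span (Finset.mem_coe.mpr (Finset.mem_biUnion.mpr ⟨b, ?_, ?_⟩))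
      · exact mem_support_iff.mpr fun h => hb (by rw [h, coeff_zero])
      · exact Finset.mem_image.mpr ⟨i, mem_support_iff.mpr hb, rfl⟩
  refine ⟨_, fun k => (β k : Q̄), fun k => ∑ b ∈ Q.support, C (∑ i ∈ (Q.coeff b).support,
    C (β.repr ⟨_, hmem b i⟩ k) * X ^ i) * X ^ b,
    (β.linearIndependent.map' S.subtype (Submodule.ker_subtype S)), ?_⟩
  have h1 : ∀ b i, ∑ k, (β k : Q̄) * algebraMap ℚ Q̄ (β.repr ⟨_, hmem b i⟩ k) = (Q.coeff b).coeff i := by
    intro b i
    have := congrArg (Subtype.val : S → Q̄) (β.sum_repr ⟨_, hmem b i⟩)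
    simp only [AddSubmonoidClass.coe_finsetSum, SetLike.val_smul, Algebra.smul_def] at this
    refine Eq.trans ?_ this
    exact Finset.sum_congr rfl fun k _ => mul_comm _ _
  conv_lhs => rw [Q.as_sum_support_C_mul_X_pow]
  simp only [Polynomial.map_sum, Polynomial.map_mul, map_C, Polynomial.map_pow, map_X, map_sum,
    coe_mapRingHom, Finset.mul_sum, map_mul, map_pow]
  rw [Finset.sum_comm]
  refine Finset.sum_congr rfl fun b _ => ?_
  conv_lhs => rw [(Q.coeff b).as_sum_support_C_mul_X_pow, map_sum, Finset.sum_mul]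
  simp only [← mul_assoc, Finset.mul_sum, Finset.sum_mul]
  rw [Finset.sum_comm (t := (Q.coeff b).support)]
  refine Finset.sum_congr rfl fun i _ => ?_
  refine (congrArg (fun z => C (C z * X ^ i) * X ^ b) (h1 b i).symm).trans ?_
  rw [map_sum, Finset.sum_mul, map_sum, Finset.sum_mul]
  refine Finset.sum_congr rfl fun k _ => ?_
  simp only [map_mul, map_pow, mul_assoc]

/-- The conjugates of a function integral over `Q̄ [t]`, `t` rational, are integral. -/
theorem isIntegralElem_coeffMap {t : LaurentSeries ℚ} {y : LaurentSeries Q̄}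
    (hy : (evT (coeffMap (algebraMap ℚ Q̄) t)).IsIntegralElem y) (σ : Q̄ ≃ₐ[ℚ] Q̄) :
    (evT (coeffMap (algebraMap ℚ Q̄) t)).IsIntegralElem (coeffMap (σ : Q̄ →+* Q̄) y) := by
  obtain ⟨M, hM, hMy⟩ := hy
  refine ⟨M.map (mapRingHom (σ : Q̄ →+* Q̄)), hM.map _, ?_⟩
  rw [eval₂_map, ← map_zero (coeffMap (σ : Q̄ →+* Q̄)), ← hMy, hom_eval₂]
  congr 1
  refine Polynomial.ringHom_ext (fun a => ?_) ?_
  · simp [coeffMap_C]
  · simp only [RingHom.coe_comp, Function.comp_apply, coe_eval₂RingHom, eval₂_X, coe_mapRingHom,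
      Polynomial.map_X, coeffMap_coeffMap]
    exact congrArg (fun f => coeffMap f t) (RingHom.ext fun x => (σ.commutes x).symm)

variable (p m : ℕ) [Fact p.Prime] [NeZero m]

/-- The field over `ℚ` inside the field over `Q̄`. -/
def incQ : modularFunctionFieldFull m →+* modularFunctionFieldFullC Q̄ m :=
  ((coeffMap (algebraMap ℚ Q̄)).comp (valHom m)).codRestrict
    (modularFunctionFieldFullC Q̄ m).toSubfield.toSubring fun x => by
      obtain ⟨x, hx⟩ := x
      show coeffMap (algebraMap ℚ Q̄) x ∈ modularFunctionFieldFullC Q̄ m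
      induction hx using IntermediateField.adjoin_induction with
      | mem y hy =>
        obtain ⟨d, hd0, hd, rfl⟩ := hy
        rw [qExpand_coeffMap, ← jqModC_rat, MCurve.coeffMap_jqModC]
        exact jqModCd_mem_full Q̄ m hd
      | algebraMap q =>
        rw [algebraMap_laurentSeries_eq_single, coeffMap_single,
          ← algebraMap_laurentSeries_eq_single]
        exact IntermediateField.algebraMap_mem _ _
      | add y z _ _ hy hz => rw [map_add]; exact add_mem hy hz
      | inv y _ hy => rw [map_inv₀]; exact inv_mem hy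
      | mul y z _ _ hy hz => rw [map_mul]; exact mul_mem hy hz

variable {m}

theorem coe_incQ (x : modularFunctionFieldFull m) :
    ((incQ m x : modularFunctionFieldFullC Q̄ m) : LaurentSeries Q̄) =
      coeffMap (algebraMap ℚ Q̄) (x : LaurentSeries ℚ) := rfl

theorem incQ_jFull : incQ m (jFull m) = jFullC Q̄ m := Subtype.ext (by
  rw [coe_incQ, coe_jFull, ← jqModC_rat, MCurve.coeffMap_jqModC]; rfl)

theorem incQ_etaQ : incQ m (etaQ m) = etaF Q̄ m := Subtype.ext (by
  rw [coe_incQ]
  show coeffMap _ (qExpand ℚ m jq) = qExpand Q̄ m (jqModC Q̄)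
  rw [qExpand_coeffMap, ← jqModC_rat, MCurve.coeffMap_jqModC])

theorem incQ_aeval (q : ℚ[X]) (x : modularFunctionFieldFull m) :
    incQ m (Polynomial.aeval x q) = Polynomial.aeval (incQ m x) (q.map (algebraMap ℚ Q̄)) := by
  rw [aeval_def, aeval_def, hom_eval₂, eval₂_map]
  congr 1
  exact Subsingleton.elim _ _

/-- An element integral over `ℚ [t]` has a multiple in the chart of `t`. -/
theorem exists_nat_mul_mem_chartAlg {t y : modularFunctionFieldFull m}
    (hy : (Polynomial.aeval (R := ℚ) t).toRingHom.IsIntegralElem y) :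
    ∃ N : ℕ, N ≠ 0 ∧ (N : modularFunctionFieldFull m) * y ∈ chartAlg m p {t} := by
  classical
  obtain ⟨M, hM, hMy⟩ := hy
  let N : ℕ := ∏ i ∈ M.support, ∏ k ∈ (M.coeff i).support, ((M.coeff i).coeff k).den
  have hN : N ≠ 0 := Finset.prod_ne_zero_iff.mpr fun i _ =>
    Finset.prod_ne_zero_iff.mpr fun k _ => Rat.den_nz _
  refine ⟨N, hN, mem_chartAlg_of_isIntegralElem m p ?_⟩
  have hlift : M.scaleRoots (C (N : ℚ)) ∈
      Polynomial.lifts (mapRingHom (GaloisRep.ratLocalizedAt p).subtype) := by
    refine (lifts_iff_coeff_lifts _).mpr fun i => ?_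
    rw [coeff_scaleRoots, ← map_pow]
    rcases lt_trichotomy i M.natDegree with hi | hi | hi
    · obtain ⟨e, he⟩ : ∃ e, M.natDegree - i = e + 1 := ⟨_, (Nat.succ_pred_eq_of_pos (by omega)).symm⟩
      refine (mem_lifts _).mp ((lifts_iff_coeff_lifts _).mpr fun k => ?_)
      rw [coeff_mul_C, he, pow_succ']
      by_cases hk : (M.coeff i).coeff k = 0
      · exact ⟨0, by rw [hk, zero_mul, map_zero]⟩
      have hdvd : ((M.coeff i).coeff k).den ∣ N :=
        (Finset.dvd_prod_of_mem (fun k => ((M.coeff i).coeff k).den) (mem_support_iff.mpr hk)).trans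
          (Finset.dvd_prod_of_mem (fun i => ∏ k ∈ (M.coeff i).support, ((M.coeff i).coeff k).den)
            (mem_support_iff.mpr fun h => hk (by rw [h, coeff_zero])))
      obtain ⟨c, hc⟩ := hdvd
      refine ⟨((((M.coeff i).coeff k).num * c * (N : ℤ) ^ e : ℤ) : GaloisRep.ratLocalizedAt p), ?_⟩
      rw [map_intCast]
      push_cast
      rw [← mul_assoc ((M.coeff i).coeff k)]
      congr 1
      rw [hc, Nat.cast_mul, ← mul_assoc, Rat.mul_den_eq_num]
    · subst hi
      exact ⟨1, by simp [hM.coeff_natDegree]⟩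
    · exact ⟨0, by rw [coeff_eq_zero_of_natDegree_lt hi, zero_mul, map_zero]⟩
  obtain ⟨Q, hQ, -, hQm⟩ := lifts_and_natDegree_eq_and_monic hlift
    ((monic_scaleRoots_iff _).mpr hM)
  refine ⟨Q, hQm, ?_⟩
  rw [show (Polynomial.aeval (R := ↥(GaloisRep.ratLocalizedAt p)) t).toRingHom =
      (Polynomial.aeval (R := ℚ) t).toRingHom.comp
        (mapRingHom (GaloisRep.ratLocalizedAt p).subtype) from
      Polynomial.ringHom_ext (fun a => by simp; rfl) (by simp),
    ← eval₂_map, hQ]
  have := scaleRoots_eval₂_mul (p := M) (Polynomial.aeval (R := ℚ) t).toRingHom y (C (N : ℚ))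
  rw [hMy, mul_zero, AlgHom.toRingHom_eq_coe, RingHom.coe_coe, aeval_C, map_natCast] at this
  exact this

/-- Descent: a function integral over `Q̄ [t]` is a combination of rational ones in the chart. -/
theorem exists_descent {P : Q̄[X][X]} (g : GenData Q̄ m P) (t : modularFunctionFieldFull m)
    (y : modularFunctionFieldFullC Q̄ m)
    (hy : (Polynomial.aeval (R := Q̄) (incQ m t)).toRingHom.IsIntegralElem y) :
    ∃ (n : ℕ) (c : Fin n → Q̄) (b : Fin n → modularFunctionFieldFull m),
      (∀ i, b i ∈ chartAlg m p {t}) ∧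
      y = ∑ i, algebraMap Q̄ (modularFunctionFieldFullC Q̄ m) (c i) * incQ m (b i) := by
  classical
  obtain ⟨D, Q, hD, hDQ⟩ := g.exists_denom y
  obtain ⟨D₀, E, hD₀, hDE⟩ := exists_rat_multiple hD
  obtain ⟨n, a, Qi, ha, hQ⟩ := exists_decomposition (C E * Q)
  set d₀ := Polynomial.aeval (jFull m) D₀
  have hd₀ : incQ m d₀ = Polynomial.aeval (jFullC Q̄ m) (D * E) := by
    rw [incQ_aeval, incQ_jFull, hDE]
  let ev : ℚ[X][X] →+* modularFunctionFieldFull m :=
    eval₂RingHom (Polynomial.aeval (R := ℚ) (jFull m)).toRingHom (etaQ m)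
  have hev : ∀ q : ℚ[X][X], incQ m (ev q) = evF Q̄ m (q.map (mapRingHom (algebraMap ℚ Q̄))) := by
    intro q
    simp only [ev, evF, coe_eval₂RingHom, hom_eval₂, eval₂_map, incQ_etaQ]
    congr 1
    refine Polynomial.ringHom_ext (fun r => ?_) ?_
    · simp only [RingHom.coe_comp, Function.comp_apply, AlgHom.toRingHom_eq_coe, RingHom.coe_coe,
        incQ_aeval, incQ_jFull, coe_mapRingHom]
    · simp only [RingHom.coe_comp, Function.comp_apply, AlgHom.toRingHom_eq_coe, RingHom.coe_coe,
        incQ_aeval, incQ_jFull, coe_mapRingHom]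
  have hDE0 : Polynomial.aeval (jFullC Q̄ m) (D * E) ≠ 0 := aeval_jFullC_ne_zero fun h =>
    hD₀ (Polynomial.map_injective _ (algebraMap ℚ Q̄).injective (by rw [hDE, h, Polynomial.map_zero]))
  let yi : Fin n → modularFunctionFieldFull m := fun i => ev (Qi i) / d₀
  have hy_eq : y = ∑ i, algebraMap Q̄ (modularFunctionFieldFullC Q̄ m) (a i) * incQ m (yi i) := by
    refine mul_left_cancel₀ hDE0 ?_
    rw [show Polynomial.aeval (jFullC Q̄ m) (D * E) * y = evF Q̄ m (C E * Q) by
      rw [map_mul, map_mul, ← hDQ, evF_C]; ring, hQ, map_sum, Finset.mul_sum]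
    refine Finset.sum_congr rfl fun i _ => ?_
    rw [map_mul, evF_C, aeval_C, map_div₀, hd₀, hev]
    field_simp
  -- integrality of each component, by conjugation
  set tL : LaurentSeries Q̄ := coeffMap (algebraMap ℚ Q̄) (t : LaurentSeries ℚ) with htL
  have hevT : ∀ q : Q̄[X], ((Polynomial.aeval (incQ m t) q : modularFunctionFieldFullC Q̄ m) :
      LaurentSeries Q̄) = evT tL q := by
    intro q
    refine (Polynomial.aeval_algHom_apply (modularFunctionFieldFullC Q̄ m).val (incQ m t) q).symm.trans ?_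
    rw [aeval_def]
    refine congrArg (fun f => eval₂ f _ q) (RingHom.ext fun c => ?_)
    rw [algebraMap_laurentSeries_eq_single]; rfl
  have hcomp : (modularFunctionFieldFullC Q̄ m).val.toRingHom.comp
      (Polynomial.aeval (R := Q̄) (incQ m t)).toRingHom = evT tL := RingHom.ext hevT
  have hyL : (evT tL).IsIntegralElem (y : LaurentSeries Q̄) := by
    obtain ⟨M, hM, hMy⟩ := hy
    refine ⟨M, hM, ?_⟩
    rw [← hcomp, ← show (modularFunctionFieldFullC Q̄ m).val.toRingHom y = (y : LaurentSeries Q̄)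
      from rfl, ← hom_eval₂, hMy, map_zero]
  let zL : Fin n → LaurentSeries Q̄ := fun i => coeffMap (algebraMap ℚ Q̄) (yi i : LaurentSeries ℚ)
  let V : Submodule Q̄ (Fin n → Q̄) :=
    { carrier := {v | (evT tL).IsIntegralElem (∑ i, HahnSeries.C (v i) * zL i)}
      zero_mem' := by
        simp only [Set.mem_ofPred_eq, Pi.zero_apply, map_zero, zero_mul, Finset.sum_const_zero]
        exact RingHom.isIntegralElem_zero _
      add_mem' := fun {u v} hu hv => by
        simp only [Set.mem_ofPred_eq, Pi.add_apply, map_add, add_mul, Finset.sum_add_distrib]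
        exact RingHom.IsIntegralElem.add _ hu hv
      smul_mem' := fun c v hv => by
        simp only [Set.mem_ofPred_eq, Pi.smul_apply, smul_eq_mul, map_mul, mul_assoc,
          ← Finset.mul_sum]
        refine RingHom.IsIntegralElem.mul _ ?_ hv
        exact (eval₂_C (HahnSeries.C : Q̄ →+* LaurentSeries Q̄) tL (a := c)) ▸
          (evT tL).isIntegralElem_map (x := C c) }
  have hV : V = ⊤ := by
    refine eq_top_iff.mpr ((span_conjugates ha).symm.trans_le (Submodule.span_le.mpr ?_))
    rintro _ ⟨σ, rfl⟩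
    show (evT tL).IsIntegralElem _
    have h1 := isIntegralElem_coeffMap hyL σ
    rw [hy_eq, AddSubmonoidClass.coe_finsetSum, map_sum] at h1
    convert h1 using 2 with i
    rw [IntermediateField.coe_mul, map_mul, coe_incQ, coeffMap_coeffMap]
    congr 1
    · show _ = coeffMap _ (algebraMap Q̄ (LaurentSeries Q̄) (a i))
      rw [algebraMap_laurentSeries_eq_single, coeffMap_single]
      rfl
    · exact congrArg (fun f => coeffMap f _) (RingHom.ext fun x => (σ.commutes x).symm)
  have hyi : ∀ i, (Polynomial.aeval (R := ℚ) t).toRingHom.IsIntegralElem (yi i) := by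
    intro i
    have h1 : (evT tL).IsIntegralElem (zL i) := by
      have : (Pi.single i 1 : Fin n → Q̄) ∈ V := hV ▸ Submodule.mem_top
      have h2 : (evT tL).IsIntegralElem
        (∑ k, HahnSeries.C ((Pi.single i 1 : Fin n → Q̄) k) * zL k) := this
      rw [Finset.sum_eq_single i] at h2
      · rwa [Pi.single_eq_same, map_one, one_mul] at h2
      · intro k _ hk; rw [Pi.single_eq_of_ne hk, map_zero, zero_mul]
      · simp
    obtain ⟨M, hM, hMy⟩ := h1
    letI : Algebra ℚ[X] Q̄[X] := (mapRingHom (algebraMap ℚ Q̄)).toAlgebra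
    letI : Algebra Q̄[X] (LaurentSeries Q̄) := (evT tL).toAlgebra
    letI : Algebra ℚ[X] (LaurentSeries Q̄) :=
      ((evT tL).comp (mapRingHom (algebraMap ℚ Q̄))).toAlgebra
    haveI : IsScalarTower ℚ[X] Q̄[X] (LaurentSeries Q̄) := IsScalarTower.of_algebraMap_eq' rfl
    haveI : Algebra.IsIntegral ℚ[X] Q̄[X] := ⟨fun D => by
      refine Polynomial.induction_on' D (fun a b ha hb => ha.add hb) fun k a => ?_
      rw [← C_mul_X_pow_eq_monomial]
      refine IsIntegral.mul ?_ (IsIntegral.pow ?_ k)
      · obtain ⟨M', hM', hMa⟩ := Algebra.IsIntegral.isIntegral (R := ℚ) a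
        refine ⟨M'.map C, hM'.map _, ?_⟩
        rw [eval₂_map, show (algebraMap ℚ[X] Q̄[X]).comp C = C.comp (algebraMap ℚ Q̄) from
          RingHom.ext fun x => map_C _, ← hom_eval₂, hMa, map_zero]
      · exact ⟨X - C X, monic_X_sub_C _, by simp [RingHom.algebraMap_toAlgebra]⟩⟩
    obtain ⟨M', hM', hM'y⟩ :=
      isIntegral_trans (R := ℚ[X]) (zL i) (⟨M, hM, hMy⟩ : IsIntegral Q̄[X] (zL i))
    refine ⟨M', hM', ?_⟩
    have hinj : Function.Injective ((coeffMap (algebraMap ℚ Q̄)).comp (valHom m)) :=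
      RingHom.injective _
    refine hinj ?_
    rw [map_zero, hom_eval₂]
    refine Eq.trans ?_ hM'y
    refine congrArg (fun f => eval₂ f _ M') (Polynomial.ringHom_ext (fun r => ?_) ?_)
    · simp only [RingHom.coe_comp, Function.comp_apply, AlgHom.toRingHom_eq_coe, RingHom.coe_coe,
        aeval_C, RingHom.algebraMap_toAlgebra, coe_mapRingHom, map_C, coe_eval₂RingHom, eval₂_C,
        valHom_apply]
      exact RingHom.congr_fun (Subsingleton.elim
        (((coeffMap (algebraMap ℚ Q̄)).comp (valHom m)).comp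
          (algebraMap ℚ (modularFunctionFieldFull m)))
        ((HahnSeries.C : Q̄ →+* LaurentSeries Q̄).comp (algebraMap ℚ Q̄))) r
    · simp only [RingHom.coe_comp, Function.comp_apply, AlgHom.toRingHom_eq_coe, RingHom.coe_coe,
        aeval_X, RingHom.algebraMap_toAlgebra, coe_mapRingHom, Polynomial.map_X, coe_eval₂RingHom,
        eval₂_X, valHom_apply]
      rfl
  choose Ni hNi hmem using fun i => exists_nat_mul_mem_chartAlg p (hyi i)
  refine ⟨n, fun i => a i / (Ni i : Q̄), fun i => (Ni i : modularFunctionFieldFull m) * yi i, hmem, ?_⟩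
  rw [hy_eq]
  refine Finset.sum_congr rfl fun i _ => ?_
  simp only [map_mul, map_div₀, map_natCast]
  rw [← mul_assoc, div_mul_cancel₀ _ (Nat.cast_ne_zero.mpr (hNi i))]

end Descent

end Fermat.Agent.MCurve.SpecialDifferential
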