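import Fermat.Agent.MCurve.SpecialDifferential.Descent
import Fermat.Agent.MCurve.SpecialDifferential.Analytic
import Fermat.Agent.MCurve.RootBridge
import Fermat.Agent.DS.Forms
import Fermat.Agent.Hecke.IntegralBasis

/-!
The cusp forms of weight two attached to differentials with polynomial traces.
-/

set_option autoImplicit false
set_option maxHeartbeats 1000000
set_option linter.style.haveILetI false

noncomputable section

namespace Fermat.Agent.MCurve.SpecialDifferential

open Polynomial ModularCurve CongruenceSubgroup IntermediateField ModularCurve.IgusaScheme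
open UpperHalfPlane (atImInfty IsZeroAtImInfty)
open Fermat.Agent.GalRep (modFuns jMF jNMF HasQSeries IsModFun qbarToC serHom conjugate expand qser)
open Fermat.Agent.Period (jFun Coset)
open scoped MatrixGroups Manifold ModularForm

local notation "Q̄" => AlgebraicClosure ℚ
local notation "ℍ" => UpperHalfPlane

section Series

/-- Power series inside Laurent series. -/
abbrev ofPS : PowerSeries ℂ →+* LaurentSeries ℂ := HahnSeries.ofPowerSeries ℤ ℂ

theorem exists_ofPS_of_order_nonneg {x : LaurentSeries ℂ} (hx : 0 ≤ x.order) :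
    ∃ p, ofPS p = x := by
  refine ⟨PowerSeries.X ^ x.order.toNat * x.powerSeriesPart, ?_⟩
  conv_rhs => rw [← LaurentSeries.single_order_mul_powerSeriesPart x]
  rw [map_mul, map_pow, HahnSeries.ofPowerSeries_X, HahnSeries.single_pow, one_pow, nsmul_one,
    show ((x.order.toNat : ℕ) : ℤ) = x.order by omega]

/-- A root of a monic polynomial with power series coefficients is a power series. -/
theorem exists_ofPS_of_root {f : Q̄[X] →+* LaurentSeries ℂ} (hf : ∀ a, ∃ p, ofPS p = f a)
    {x : LaurentSeries ℂ} (hx : f.IsIntegralElem x) : ∃ p, ofPS p = x := by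
  obtain ⟨M, hM, hMx⟩ := hx
  have hlift : M.map f ∈ Polynomial.lifts (algebraMap (PowerSeries ℂ) (LaurentSeries ℂ)) := by
    refine (lifts_iff_coeff_lifts _).mpr fun i => ?_
    obtain ⟨p, hp⟩ := hf (M.coeff i)
    exact ⟨p, by rw [coeff_map]; exact hp⟩
  obtain ⟨Q, hQ, -, hQm⟩ := lifts_and_natDegree_eq_and_monic hlift (hM.map f)
  have hint : IsIntegral (PowerSeries ℂ) x :=
    ⟨Q, hQm, by rw [eval₂_eq_eval_map, hQ, eval_map]; exact hMx⟩
  obtain ⟨p, hp⟩ := IsIntegrallyClosed.algebraMap_eq_of_integral hint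
  exact ⟨p, hp⟩

theorem thetaL_ofPS (b : PowerSeries ℂ) :
    thetaL (ofPS b) = ofPS (PowerSeries.mk fun n => (n : ℂ) * PowerSeries.coeff n b) := by
  ext n
  rw [thetaL_coeff]
  rcases lt_or_ge n 0 with hn | hn
  · rw [ModularCurve.ofPowerSeries_coeff_of_neg _ hn, ModularCurve.ofPowerSeries_coeff_of_neg _ hn,
      mul_zero]
  · obtain ⟨k, rfl⟩ := Int.eq_ofNat_of_zero_le hn
    rw [HahnSeries.ofPowerSeries_apply_coeff, HahnSeries.ofPowerSeries_apply_coeff,
      PowerSeries.coeff_mk]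
    simp

variable (m : ℕ) [NeZero m]

theorem exists_series_one (F : modFuns (Gamma0 m)) : ∃ f, HasQSeries 1 (F : ℍ → ℂ) f := by
  obtain ⟨w, f, hw, hf⟩ := F.2.cusps 1
  simp only [one_smul] at hf
  refine GalRep.exists_hasQSeries_of_periodic F.2.holo (fun τ => ?_) hw hf
  have hT : ModularGroup.T ∈ Gamma0 m := by rw [Gamma0_mem]; simp [ModularGroup.coe_T]
  have := F.2.invariant _ hT τ
  rwa [UpperHalfPlane.modular_T_smul, show (1 : ℝ) = ((1 : ℕ) : ℝ) from Nat.cast_one.symm] at this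

/-- The series at infinity of width one. -/
def ser1 : modFuns (Gamma0 m) →+* LaurentSeries ℂ where
  toFun F := qser 1 (F : ℍ → ℂ)
  map_one' := GalRep.qser_eq one_pos (HasQSeries.one 1)
  map_mul' F G := GalRep.qser_eq one_pos (by
    obtain ⟨f, hf⟩ := exists_series_one m F
    obtain ⟨g, hg⟩ := exists_series_one m G
    rw [GalRep.qser_eq one_pos hf, GalRep.qser_eq one_pos hg]
    exact hf.mul hg)
  map_zero' := GalRep.qser_eq one_pos (HasQSeries.zero 1)
  map_add' F G := GalRep.qser_eq one_pos (by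
    obtain ⟨f, hf⟩ := exists_series_one m F
    obtain ⟨g, hg⟩ := exists_series_one m G
    rw [GalRep.qser_eq one_pos hf, GalRep.qser_eq one_pos hg]
    exact hf.add hg)

theorem hasQSeries_ser1 (F : modFuns (Gamma0 m)) : HasQSeries 1 (F : ℍ → ℂ) (ser1 m F) := by
  obtain ⟨f, hf⟩ := exists_series_one m F
  show HasQSeries 1 _ (qser 1 _)
  rwa [GalRep.qser_eq one_pos hf]

theorem ser1_injective : Function.Injective (ser1 m) := by
  intro F G h
  have hF := hasQSeries_ser1 m F
  rw [h] at hF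
  exact Subtype.ext (GalRep.eq_of_hasQSeries F.2.holo G.2.holo hF (hasQSeries_ser1 m G))

/-- Polynomials in `j` as modular functions. -/
def polyMF : Q̄[X] →+* modFuns (Gamma0 m) :=
  eval₂RingHom ((algebraMap ℂ (modFuns (Gamma0 m))).comp qbarToC) (jMF (Gamma0 m))

/-- Polynomials in `j (τ)` and `j (mτ)` as modular functions. -/
def mF : Q̄[X][X] →+* modFuns (Gamma0 m) := eval₂RingHom (polyMF m) (jNMF m)

theorem polyMF_eq_aeval (a : Q̄[X]) :
    polyMF m a = Polynomial.aeval (jMF (Gamma0 m)) (a.map qbarToC) := by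
  rw [polyMF, coe_eval₂RingHom, aeval_def, eval₂_map]

theorem mF_C (a : Q̄[X]) : mF m (C a) = polyMF m a := eval₂_C _ _

theorem ser1_mF (Q : Q̄[X][X]) : ser1 m (mF m Q) = coeffMap qbarToC (ev2 Q̄ m Q) := by
  refine RingHom.congr_fun (Polynomial.ringHom_ext (f := (ser1 m).comp (mF m))
    (g := (coeffMap qbarToC).comp (ev2 Q̄ m)) (fun a => ?_) ?_) Q
  · simp only [RingHom.comp_apply, mF_C, ev2_C]
    refine RingHom.congr_fun (Polynomial.ringHom_ext (f := (ser1 m).comp (polyMF m))
      (g := (coeffMap qbarToC).comp (ev1 Q̄)) (fun c => ?_) ?_) a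
    · simp only [RingHom.comp_apply, polyMF, ev1, coe_eval₂RingHom, eval₂_C, coeffMap_C]
      exact GalRep.qser_eq one_pos (HasQSeries.const 1 _)
    · simp only [RingHom.comp_apply, polyMF, ev1, coe_eval₂RingHom, eval₂_X]
      rw [MCurve.coeffMap_jqModC, ← GalRep.jq_eq_jqModC]
      exact GalRep.qser_eq one_pos GalRep.hasQSeries_jq
  · simp only [RingHom.comp_apply, mF, ev2, coe_eval₂RingHom, eval₂_X]
    rw [coeffMap_etaL, etaL, qExpand_eq_expand, ← GalRep.jq_eq_jqModC]
    exact GalRep.qser_eq one_pos (GalRep.hasQSeries_jNFun m)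

theorem serHom_jMF' : serHom m (jMF (Gamma m)) = expand m (NeZero.ne m) GalRep.jq := by
  refine GalRep.qser_eq (NeZero.pos m) ?_
  have := GalRep.hasQSeries_jq.refine_width one_pos m (NeZero.ne m)
  rwa [one_mul] at this

theorem conjugate_jMF (q : Coset m) : conjugate q (jMF (Gamma0 m)) = jMF (Gamma m) := by
  obtain ⟨γ, rfl⟩ := QuotientGroup.mk_surjective q
  ext τ
  rw [GalRep.conjugate_mk]
  exact Period.jFun_smul _ _

/-- The expansion at the cusp of the coset `q` of a polynomial in `j (τ)`, `j (mτ)`. -/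
def psi (q : Coset m) : Q̄[X][X] →+* LaurentSeries ℂ :=
  (serHom m).comp ((conjugate q : modFuns (Gamma0 m) →ₐ[ℂ] modFuns (Gamma m)).toRingHom.comp (mF m))

end Series

section Form

variable {m : ℕ} [NeZero m] {P : Q̄[X][X]} (g : GenData Q̄ m P)

set_option quotPrecheck false in
local notation "F" => ↥(modularFunctionFieldFullC Q̄ m)

include g

theorem GenData.exists_embedding (q : Coset m) :
    ∃ ι : F →+* LaurentSeries ℂ, ∀ Q, ι (evF Q̄ m Q) = psi m q Q := by
  let R := (evF Q̄ m).range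
  haveI : IsFractionRing R F := by
    haveI : FaithfulSMul R F :=
      (faithfulSMul_iff_algebraMap_injective _ _).mpr Subtype.val_injective
    refine IsFractionRing.of_field _ _ fun z => ?_
    obtain ⟨D, Q, hD, hDQ⟩ := g.exists_denom z
    refine ⟨⟨_, Q, rfl⟩, ⟨_, C D, rfl⟩, ?_⟩
    show z = evF Q̄ m Q / evF Q̄ m (C D)
    rw [evF_C, ← hDQ, mul_div_cancel_left₀ _ (aeval_jFullC_ne_zero hD)]
  have hker : RingHom.ker (evF Q̄ m).rangeRestrict ≤ RingHom.ker (psi m q) := by
    intro Q hQ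
    rw [RingHom.mem_ker] at hQ ⊢
    have h0 : mF m Q = 0 := ser1_injective m (by
      rw [ser1_mF, map_zero, ← coe_evF,
        show evF Q̄ m Q = 0 from congrArg Subtype.val hQ]
      exact map_zero (coeffMap qbarToC))
    simp [psi, h0]
  let ψ : R →+* LaurentSeries ℂ :=
    ((evF Q̄ m).rangeRestrict).liftOfSurjective (evF Q̄ m).rangeRestrict_surjective ⟨psi m q, hker⟩
  have hψ : ∀ Q, ψ ((evF Q̄ m).rangeRestrict Q) = psi m q Q := fun Q =>
    RingHom.liftOfRightInverse_comp_apply _ _ _ ⟨psi m q, hker⟩ Q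
  have hinj : Function.Injective ψ := by
    rw [injective_iff_map_eq_zero]
    intro r hr
    obtain ⟨Q, rfl⟩ := (evF Q̄ m).rangeRestrict_surjective r
    rw [hψ] at hr
    have h1 : mF m Q = 0 := MCurve.conjugate_injective m q (GalRep.serHom_injective m (by
      rw [map_zero, map_zero]; exact hr))
    refine Subtype.ext (Subtype.ext ?_)
    show ((evF Q̄ m Q : F) : LaurentSeries Q̄) = 0
    rw [coe_evF]
    refine HahnSeries.ext (funext fun n => qbarToC.injective ?_)
    have := congrArg (fun s : LaurentSeries ℂ => s.coeff n) (ser1_mF m Q)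
    rw [h1, map_zero] at this
    simpa using this.symm
  exact ⟨IsFractionRing.lift hinj, fun Q =>
    (IsFractionRing.lift_algebraMap hinj ((evF Q̄ m).rangeRestrict Q)).trans (hψ Q)⟩

/-- A function integral over `Q̄ [j]` is a holomorphic modular function. -/
theorem GenData.exists_modFun (y : F)
    (hy : (Polynomial.aeval (R := Q̄) (jFullC Q̄ m)).toRingHom.IsIntegralElem y) :
    ∃ Φ : modFuns (Gamma0 m), ser1 m Φ = coeffMap qbarToC (y : LaurentSeries Q̄) ∧
      ∀ (q : Coset m) (ι : F →+* LaurentSeries ℂ), (∀ Q, ι (evF Q̄ m Q) = psi m q Q) →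
        ι y = serHom m (conjugate q Φ) := by
  obtain ⟨D, Q, hD, hDQ⟩ := g.exists_denom y
  obtain ⟨M, hM, hMy⟩ := hy
  set d := M.natDegree
  have hD' : D.map qbarToC ≠ 0 := (Polynomial.map_ne_zero_iff qbarToC.injective).mpr hD
  let Z : Q̄[X][X] := Q ^ d + ∑ i : Fin d, C (M.coeff i) * C D ^ (d - (i : ℕ)) * Q ^ (i : ℕ)
  have hZ : evF Q̄ m Z = 0 := by
    rw [eval₂_eq_sum_range, Finset.sum_range_succ, hM.coeff_natDegree] at hMy
    simp only [Z, map_add, map_sum, map_mul, map_pow, evF_C, ← hDQ]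
    rw [← mul_zero ((Polynomial.aeval (jFullC Q̄ m) D) ^ d), ← hMy, mul_add, Finset.mul_sum, add_comm]
    congr 1
    · rw [← Fin.sum_univ_eq_sum_range]
      refine Finset.sum_congr rfl fun i _ => ?_
      conv_rhs => rw [show d = (d - (i : ℕ)) + i by have := i.2; omega, pow_add]
      simp only [AlgHom.toRingHom_eq_coe, RingHom.coe_coe]
      ring
    · simp only [map_one, one_mul]
      ring
  have hmZ : mF m Z = 0 := ser1_injective m (by
    rw [ser1_mF, map_zero, ← coe_evF, hZ]; exact map_zero (coeffMap qbarToC))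
  obtain ⟨Φ, hΦ⟩ := exists_modFun_quotient (mF m Q) hD' (fun i : Fin d => (M.coeff i).map qbarToC) (by
    rw [← hmZ]
    simp only [Z, map_add, map_sum, map_mul, map_pow, mF_C, polyMF_eq_aeval])
  rw [← polyMF_eq_aeval, ← mF_C] at hΦ
  have hC : coeffMap qbarToC (ev2 Q̄ m (C D)) ≠ 0 := by
    rw [← coe_evF, evF_C]
    exact (_root_.map_ne_zero _).mpr fun h => aeval_jFullC_ne_zero hD (Subtype.ext h)
  have hcoe : (ev2 Q̄ m (C D)) * (y : LaurentSeries Q̄) = ev2 Q̄ m Q := by
    rw [← coe_evF, ← coe_evF, evF_C, ← hDQ]; rfl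
  refine ⟨Φ, mul_right_cancel₀ hC ?_, fun q ι hι => ?_⟩
  · rw [← ser1_mF m (C D), ← map_mul, hΦ, ser1_mF, ser1_mF, ← map_mul, mul_comm, hcoe]
  · have h1 : ι (evF Q̄ m (C D)) ≠ 0 := (_root_.map_ne_zero ι).mpr (by
      rw [evF_C]; exact aeval_jFullC_ne_zero hD)
    refine mul_right_cancel₀ h1 ?_
    rw [← map_mul, mul_comm, evF_C, hDQ, hι, ← evF_C, hι, psi]
    show serHom m (conjugate q (mF m Q)) = serHom m (conjugate q Φ) * serHom m (conjugate q (mF m (C D)))
    rw [← map_mul, ← map_mul, hΦ]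

omit g in
theorem isDer_theta {ι : F →+* LaurentSeries ℂ}
    (hC : ∀ a : Q̄, ι (algebraMap Q̄ F a) = HahnSeries.C (qbarToC a)) :
    IsDer Q̄ ι (fun y => thetaL (ι y)) where
  map_add x y := by rw [map_add, thetaL_add]
  leibniz x y := by rw [map_mul, thetaL_mul]; ring
  const a := by rw [hC, thetaL_C]

/-- A differential with polynomial traces on both sides is a cusp form. -/
theorem GenData.exists_cuspForm {θ : F}
    (h1 : ∀ r : F, (Polynomial.aeval (R := Q̄) (jFullC Q̄ m)).toRingHom.IsIntegralElem r →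
      ∃ b : Q̄[X], trF Q̄ (jFullC Q̄ m) (θ * r) = Polynomial.aeval (jFullC Q̄ m) b)
    (h2 : ∀ r : F, (Polynomial.aeval (R := Q̄) (jFullC Q̄ m)⁻¹).toRingHom.IsIntegralElem r →
      ∃ b : Q̄[X], trF Q̄ (jFullC Q̄ m)⁻¹ (-(jFullC Q̄ m ^ 2 * θ) * r) =
        Polynomial.aeval (jFullC Q̄ m)⁻¹ b) :
    ∃ f : CuspForm (Gamma0 m) 2, ∀ n : ℕ, ModularFormClass.qCoeff ⇑f n =
      (coeffMap qbarToC (θ : LaurentSeries Q̄) * thetaL (jqModC ℂ)).coeff n ∧
      ∀ k < (0 : ℤ), (coeffMap qbarToC (θ : LaurentSeries Q̄) * thetaL (jqModC ℂ)).coeff k = 0 := by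
  classical
  obtain ⟨n, r, x, hrx, huniv⟩ := Coord.exists_sum.{0} g.coord h1
  obtain ⟨n', r', x', hrx', huniv'⟩ := Coord.exists_sum.{0} g.coord.inv h2
  choose Φr hΦr1 hΦr2 using fun i => g.exists_modFun (r i) (hrx i).1
  choose Φx hΦx1 hΦx2 using fun i => g.exists_modFun (x i) (hrx i).2
  let G : Coset m → ℍ → ℂ := fun q => ∑ i, ((conjugate q (Φr i) : modFuns (Gamma m)) : ℍ → ℂ) *
    Derivative.normalizedDerivOfComplex ((conjugate q (Φx i) : modFuns (Gamma m)) : ℍ → ℂ)
  have hGhol : ∀ q, MDifferentiable 𝓘(ℂ) 𝓘(ℂ) (G q) := fun q =>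
    MDifferentiable.sum fun i _ => (conjugate q (Φr i)).2.holo.mul
      (Derivative.normalizedDerivOfComplex_mdifferentiable (conjugate q (Φx i)).2.holo)
  -- the series at each coset
  have hser : ∀ q, ∃ s : PowerSeries ℂ, PowerSeries.constantCoeff s = 0 ∧
      HasQSeries m (G q) (ofPS s) := by
    intro q
    obtain ⟨ι, hι⟩ := g.exists_embedding q
    have hιC : ∀ a : Q̄, ι (algebraMap Q̄ F a) = HahnSeries.C (qbarToC a) := fun a => by
      rw [show algebraMap Q̄ F a = evF Q̄ m (C (C a)) by rw [evF_C, aeval_C], hι]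
      simp only [psi, RingHom.comp_apply, mF_C, polyMF, coe_eval₂RingHom, eval₂_C,
        AlgHom.toRingHom_eq_coe, RingHom.coe_coe, AlgHom.commutes, GalRep.serHom_algebraMap]
    have hder := isDer_theta hιC
    have hιj : ι (jFullC Q̄ m) = expand m (NeZero.ne m) GalRep.jq := by
      rw [show jFullC Q̄ m = evF Q̄ m (C X) by rw [evF_C, aeval_X], hι]
      simp only [psi, RingHom.comp_apply, mF_C, polyMF, coe_eval₂RingHom, eval₂_X,
        AlgHom.toRingHom_eq_coe, RingHom.coe_coe, conjugate_jMF, serHom_jMF']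
    have hsum : HasQSeries m (G q) (∑ i, serHom m (conjugate q (Φr i)) *
        (HahnSeries.C ((m : ℂ)⁻¹) * thetaL (serHom m (conjugate q (Φx i))))) := by
      refine GalRep.HasQSeries.sum _ fun i _ => (GalRep.hasQSeries_serHom _).mul
        (hasQSeries_D (NeZero.pos m) (GalRep.hasQSeries_serHom _) fun k => ?_)
      rw [HahnSeries.C_apply, HahnSeries.coeff_single_zero_mul, thetaL_coeff]
      ring
    have hj0 : ι (jFullC Q̄ m) ≠ 0 := by
      rw [hιj]; exact (_root_.map_ne_zero _).mpr GalRep.jq_ne_zero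
    have heq : (∑ i, serHom m (conjugate q (Φr i)) *
        (HahnSeries.C ((m : ℂ)⁻¹) * thetaL (serHom m (conjugate q (Φx i))))) =
        HahnSeries.C ((m : ℂ)⁻¹) * ∑ i, ι (r' i) * thetaL (ι (x' i)) := by
      have e1 := huniv _ ι _ hder
      have e2 := huniv' _ ι _ hder
      beta_reduce at e1 e2
      rw [← e2, map_neg, map_mul, map_pow, map_inv₀ ι]
      have hinv : thetaL (ι (jFullC Q̄ m))⁻¹ =
          -(thetaL (ι (jFullC Q̄ m)) / ι (jFullC Q̄ m) ^ 2) := by
        have := thetaL_mul (ι (jFullC Q̄ m)) (ι (jFullC Q̄ m))⁻¹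
        rw [mul_inv_cancel₀ hj0, show (1 : LaurentSeries ℂ) = HahnSeries.C 1 from (map_one _).symm,
          thetaL_C] at this
        field_simp at this ⊢
        linear_combination -this
      rw [hinv, show -(ι (jFullC Q̄ m) ^ 2 * ι θ) * -(thetaL (ι (jFullC Q̄ m)) / ι (jFullC Q̄ m) ^ 2) =
        ι θ * thetaL (ι (jFullC Q̄ m)) by field_simp, e1, Finset.mul_sum]
      refine Finset.sum_congr rfl fun i _ => ?_
      rw [hΦr2 i q ι hι, hΦx2 i q ι hι]
      ring
    have hti : ∃ p, ofPS p = ι (jFullC Q̄ m)⁻¹ := by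
      refine exists_ofPS_of_order_nonneg ?_
      rw [map_inv₀, hιj]
      have h := HahnSeries.order_mul ((_root_.map_ne_zero (expand m (NeZero.ne m))).mpr GalRep.jq_ne_zero)
        (inv_ne_zero ((_root_.map_ne_zero (expand m (NeZero.ne m))).mpr GalRep.jq_ne_zero))
      rw [mul_inv_cancel₀ ((_root_.map_ne_zero _).mpr GalRep.jq_ne_zero), HahnSeries.order_one,
        GalRep.order_expand, GalRep.order_jq] at h
      omega
    have hint : ∀ y : F, (Polynomial.aeval (R := Q̄) (jFullC Q̄ m)⁻¹).toRingHom.IsIntegralElem y →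
        ∃ p, ofPS p = ι y := by
      rintro y ⟨M, hM, hMy⟩
      refine exists_ofPS_of_root (f := ι.comp (Polynomial.aeval (R := Q̄) (jFullC Q̄ m)⁻¹).toRingHom)
        (fun a => ?_) ⟨M, hM, by rw [← hom_eval₂, hMy, map_zero]⟩
      obtain ⟨p, hp⟩ := hti
      induction a using Polynomial.induction_on' with
      | add a b ha hb =>
        obtain ⟨pa, ha⟩ := ha; obtain ⟨pb, hb⟩ := hb
        exact ⟨pa + pb, by rw [map_add, map_add, ha, hb]⟩
      | monomial k c =>
        refine ⟨PowerSeries.C (qbarToC c) * p ^ k, ?_⟩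
        rw [map_mul, map_pow, hp, RingHom.comp_apply, AlgHom.toRingHom_eq_coe, RingHom.coe_coe,
          aeval_monomial, map_mul, map_pow, hιC, HahnSeries.ofPowerSeries_C]
    choose ar har using fun i => hint (r' i) (hrx' i).1
    choose ax hax using fun i => hint (x' i) (hrx' i).2
    refine ⟨PowerSeries.C ((m : ℂ)⁻¹) *
      ∑ i, ar i * PowerSeries.mk (fun k => (k : ℂ) * PowerSeries.coeff k (ax i)), ?_, ?_⟩
    · rw [map_mul, map_sum]
      simp [PowerSeries.constantCoeff_mk]
    · rw [map_mul, map_sum, HahnSeries.ofPowerSeries_C]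
      simp_rw [map_mul, ← thetaL_ofPS, har, hax]
      rw [← heq]
      exact hsum
  -- transformation
  set b := Period.baseCoset m with hb
  have hslash : ∀ γ : SL(2, ℤ), G b ∣[(2 : ℤ)] γ = G ((γ⁻¹ : SL(2, ℤ)) : Coset m) := by
    intro γ
    funext τ
    rw [ModularForm.SL_slash_apply]
    simp only [G, Finset.sum_apply, Pi.mul_apply, Finset.sum_mul]
    refine Finset.sum_congr rfl fun i _ => ?_
    have hb' : ∀ Φ : modFuns (Gamma0 m), ((conjugate b Φ : modFuns (Gamma m)) : ℍ → ℂ) = (Φ : ℍ → ℂ) :=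
      fun Φ => by rw [hb, GalRep.conjugate_baseCoset]; rfl
    have hq : ∀ Φ : modFuns (Gamma0 m), ((conjugate ((γ⁻¹ : SL(2, ℤ)) : Coset m) Φ : modFuns (Gamma m)) :
        ℍ → ℂ) = fun τ => (Φ : ℍ → ℂ) (γ • τ) := fun Φ => by
      funext τ; rw [GalRep.conjugate_mk, inv_inv]
    rw [hb', hb', hq, hq, D_comp_smul (Φx i).2.holo, ModularForm.SL_slash_apply]
    ring
  have hinvb : ∀ γ ∈ Gamma0 m, G b ∣[(2 : ℤ)] γ = G b := fun γ hγ => by
    rw [hslash]
    congr 1
    rw [hb]
    exact (QuotientGroup.eq.mpr (by simpa using hγ)).symm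
  let f : CuspForm (Gamma0 m) 2 :=
    { toFun := G b
      slash_action_eq' := fun A hA => by
        obtain ⟨γ, hγ, rfl⟩ := Subgroup.mem_map.mp hA
        exact hinvb γ hγ
      holo' := hGhol b
      zero_at_cusps' := fun hc => by
        rw [Subgroup.IsArithmetic.isCusp_iff_isCusp_SL2Z] at hc
        rw [OnePoint.isZeroAt_iff_forall_SL2Z hc]
        intro γ _
        rw [hslash]
        obtain ⟨s, hs0, hs⟩ := hser ((γ⁻¹ : SL(2, ℤ)) : Coset m)
        exact DS.isZeroAtImInfty_of_series (NeZero.pos m) hs hs0 }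
  have hper : ∀ τ : ℍ, G b (((1 : ℕ) : ℝ) +ᵥ τ) = G b τ := by
    intro τ
    have hT : ModularGroup.T ∈ Gamma0 m := by rw [Gamma0_mem]; simp [ModularGroup.coe_T]
    have h := congrFun (hinvb _ hT) τ
    rw [ModularForm.SL_slash_apply] at h
    rw [Nat.cast_one, ← UpperHalfPlane.modular_T_smul]
    simpa [ModularGroup.denom_apply, ModularGroup.coe_T] using h
  have hbdd : UpperHalfPlane.IsBoundedAtImInfty (G b) := by
    obtain ⟨s, hs0, hs⟩ := hser b
    exact (DS.isZeroAtImInfty_of_series (NeZero.pos m) hs hs0).isBoundedAtImInfty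
  -- width one at infinity
  have hone : HasQSeries 1 (G b) (coeffMap qbarToC (θ : LaurentSeries Q̄) * thetaL (jqModC ℂ)) := by
    have hι : IsDer Q̄ ((coeffMap qbarToC).comp (modularFunctionFieldFullC Q̄ m).val.toRingHom)
        (fun y => thetaL (((coeffMap qbarToC).comp (modularFunctionFieldFullC Q̄ m).val.toRingHom) y)) :=
      isDer_theta fun a => by
        simp only [RingHom.comp_apply, AlgHom.toRingHom_eq_coe, RingHom.coe_coe, AlgHom.commutes,
          algebraMap_laurentSeries_eq_single, coeffMap_single]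
        rfl
    have e := huniv _ _ _ hι
    simp only [RingHom.comp_apply, AlgHom.toRingHom_eq_coe, RingHom.coe_coe,
      IntermediateField.val_mk, IntermediateField.coe_val] at e
    rw [show (jFullC Q̄ m : LaurentSeries Q̄) = jqModC Q̄ from rfl, MCurve.coeffMap_jqModC] at e
    rw [e]
    refine GalRep.HasQSeries.sum _ fun i _ => ?_
    rw [hb, GalRep.conjugate_baseCoset, GalRep.conjugate_baseCoset]
    refine GalRep.HasQSeries.mul ?_ ?_
    · rw [← hΦr1]; exact hasQSeries_ser1 m _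
    · refine hasQSeries_D one_pos (f := ser1 m (Φx i)) (hasQSeries_ser1 m _) fun k => ?_
      rw [← hΦx1, thetaL_coeff]
      simp
  have hq := (DS.hasQSeries_qExpansion one_pos hper (hGhol b) hbdd).unique one_pos hone
  refine ⟨f, fun k => ⟨?_, fun l hl => ?_⟩⟩
  · rw [← hq, HahnSeries.ofPowerSeries_apply_coeff, ModularFormClass.qCoeff, Nat.cast_one]
    rfl
  · rw [← hq, ModularCurve.ofPowerSeries_coeff_of_neg _ hl]

end Form

end Fermat.Agent.MCurve.SpecialDifferential
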