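import Fermat.Agent.MCurve.SpecialDifferential.Forms
import Fermat.Agent.Newform.ModPTheta

/-!
The integral cusp form attached to a functional on the lattice, and its reduction.
-/

set_option autoImplicit false
set_option maxHeartbeats 1000000
set_option linter.style.haveILetI false

noncomputable section

namespace Fermat.Agent.MCurve.SpecialDifferential

open Polynomial ModularCurve CongruenceSubgroup ModularCurve.IgusaScheme
open Fermat.Agent.GalRep (qbarToC)
open scoped MatrixGroups

variable (p : ℕ) {m : ℕ} [Fact p.Prime] [NeZero m]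

local notation "Q̄" => AlgebraicClosure ℚ
set_option quotPrecheck false in
local notation "A" => ↥(GaloisRep.ratLocalizedAt p)

theorem jFull_mem_chart : jFull m ∈ chartAlgFin m p :=
  subset_chartAlg m p ({jFull m} : Set (modularFunctionFieldFull m)) (Set.mem_singleton (jFull m))

/-- A polynomial in `j` as an element of the finite chart. -/
def cstB (a : A[X]) : chartAlgFin m p :=
  ⟨Polynomial.aeval (jFull m) a,
    aeval_mem_chart (J := jFull m) (B := chartAlgFin m p) (jFull_mem_chart p) a⟩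

theorem coe_cstB (a : A[X]) :
    ((cstB (m := m) p a : chartAlgFin m p) : modularFunctionFieldFull m) =
      Polynomial.aeval (jFull m) a := rfl

theorem incQ_aeval_A (a : A[X]) :
    incQ m (Polynomial.aeval (jFull m) a) = Polynomial.aeval (jFullC Q̄ m) (a.map (toQbar p)) := by
  rw [show Polynomial.aeval (jFull m) a =
      Polynomial.aeval (jFull m) (a.map (GaloisRep.ratLocalizedAt p).subtype) from
      (aeval_map_algebraMap ℚ (jFull m) a).symm, incQ_aeval, incQ_jFull, Polynomial.map_map]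
  rfl

theorem incQ_aeval_int (q : ℤ[X]) :
    incQ m (Polynomial.aeval (jFull m) q) =
      Polynomial.aeval (jFullC Q̄ m) ((q.map (Int.castRingHom A)).map (toQbar p)) := by
  rw [← incQ_aeval_A]
  congr 1
  exact (aeval_map_algebraMap A (jFull m) q).symm

/-- The differential of `(H, P)` has the traces prescribed by the functional. -/
theorem trF_incQ_eq {P H : A[X][X]} (g : GenData Q̄ m (P.map (mapRingHom (toQbar p))))
    (hP : P.Monic) (hdeg : P.natDegree = (Gamma0 m).index) (hη : etaQ m ∈ chartAlgFin m p)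
    (φ : chartAlgFin m p → A[X]) (hadd : ∀ a b, φ (a + b) = φ a + φ b)
    (hsmul : ∀ (a : A[X]) (b : chartAlgFin m p),
      φ (cstB p a * b) = a * φ b)
    (hH : ∀ i : Fin (Gamma0 m).index, ((H * X ^ (i : ℕ)) %ₘ P).coeff (P.natDegree - 1) =
      φ (⟨etaQ m, hη⟩ ^ (i : ℕ)))
    (b : chartAlgFin m p) :
    trF Q̄ (jFullC Q̄ m) (evF Q̄ m (H.map (mapRingHom (toQbar p))) /
        evF Q̄ m (derivative (P.map (mapRingHom (toQbar p)))) * incQ m (b : modularFunctionFieldFull m)) =
      Polynomial.aeval (jFullC Q̄ m) ((φ b).map (toQbar p)) := by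
  classical
  set θ := evF Q̄ m (H.map (mapRingHom (toQbar p))) /
    evF Q̄ m (derivative (P.map (mapRingHom (toQbar p))))
  obtain ⟨D, a, hD, hrel⟩ := exists_denom_relation m (b : modularFunctionFieldFull m)
  let i : ℤ[X] → A[X] := fun q => q.map (Int.castRingHom A)
  let cst : A[X] → chartAlgFin m p := cstB p
  have hi : ∀ q : ℤ[X], Polynomial.aeval (jFull m) (i q) = Polynomial.aeval (jFull m) q := fun q =>
    aeval_map_algebraMap A (jFull m) q
  have hB : cst (i D) * b = ∑ k : Fin (Gamma0 m).index, cst (i (a k)) * ⟨etaQ m, hη⟩ ^ (k : ℕ) := by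
    refine Subtype.ext ?_
    simp only [cst, coe_cstB, Subalgebra.coe_mul, AddSubmonoidClass.coe_finsetSum, SubmonoidClass.coe_pow, hi]
    exact hrel
  let φh : chartAlgFin m p →+ A[X] := AddMonoidHom.mk' φ hadd
  have hφ : i D * φ b = ∑ k : Fin (Gamma0 m).index,
      i (a k) * ((H * X ^ (k : ℕ)) %ₘ P).coeff (P.natDegree - 1) := by
    rw [← hsmul, show cstB p (i D) = cst (i D) from rfl, hB, show φ (∑ k, _) = φh (∑ k, _) from rfl, map_sum]
    refine Finset.sum_congr rfl fun k _ => ?_
    show φ _ = _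
    rw [hsmul, hH]
  have hD0 : Polynomial.aeval (jFullC Q̄ m) ((i D).map (toQbar p)) ≠ 0 := by
    rw [← incQ_aeval_int]
    exact (_root_.map_ne_zero _).mpr hD
  refine mul_left_cancel₀ hD0 ?_
  rw [← trF_smul, ← map_mul, ← Polynomial.map_mul, hφ, Polynomial.map_sum, map_sum,
    show Polynomial.aeval (jFullC Q̄ m) ((i D).map (toQbar p)) *
      (θ * incQ m (b : modularFunctionFieldFull m)) = θ * incQ m (Polynomial.aeval (jFull m) D *
        (b : modularFunctionFieldFull m)) by rw [map_mul, incQ_aeval_int p]; ring,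
    hrel, map_sum, Finset.mul_sum, trF_sum]
  refine Finset.sum_congr rfl fun k _ => ?_
  rw [map_mul, map_pow, incQ_etaQ, incQ_aeval_int p, Polynomial.map_mul, map_mul, mul_left_comm,
    trF_smul]
  congr 1
  rw [div_mul_eq_mul_div, ← evF_X, ← map_pow, ← map_mul, g.trF_div, hP.natDegree_map,
    modByMonic_map_mul_X_pow _ hP]
  rfl

/-- A differential with the traces of a functional of the lattice gives an integral cusp form. -/
theorem exists_intForm {P H : A[X][X]} (g : GenData Q̄ m (P.map (mapRingHom (toQbar p))))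
    (hP : P.Monic) (hdeg : P.natDegree = (Gamma0 m).index) (hη : etaQ m ∈ chartAlgFin m p)
    (φ : chartAlgFin m p → A[X]) (hadd : ∀ a b, φ (a + b) = φ a + φ b)
    (hsmul : ∀ (a : A[X]) (b : chartAlgFin m p),
      φ (cstB p a * b) = a * φ b)
    (hdegφ : ∀ (b : chartAlgFin m p) (N : ℕ),
      (jFull m)⁻¹ ^ N * (b : modularFunctionFieldFull m) ∈ chartAlgInf m p →
        ∀ n, N ≤ n + 1 → (φ b).coeff n = 0)
    (hH : ∀ i : Fin (Gamma0 m).index, ((H * X ^ (i : ℕ)) %ₘ P).coeff (P.natDegree - 1) =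
      φ (⟨etaQ m, hη⟩ ^ (i : ℕ))) :
    ∃ (f : CuspForm (Gamma0 m) 2) (D : ℕ) (z : ℕ → ℤ), 0 < D ∧
      (∀ n, (D : ℂ) * ModularFormClass.qCoeff ⇑f n = (z n : ℂ)) ∧
      HahnSeries.ofPowerSeries ℤ A (PowerSeries.mk fun n => (z n : A)) * ev2 A m (derivative P) =
        HahnSeries.C (D : A) * (ev2 A m H * thetaL (jqModC A)) := by
  classical
  set θ := evF Q̄ m (H.map (mapRingHom (toQbar p))) /
    evF Q̄ m (derivative (P.map (mapRingHom (toQbar p)))) with hθ
  have htr := trF_incQ_eq p g hP hdeg hη φ hadd hsmul hH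
  have hscal : ∀ (t : modularFunctionFieldFullC Q̄ m) (u : modularFunctionFieldFullC Q̄ m) (c : Q̄)
      (y : modularFunctionFieldFullC Q̄ m),
      trF Q̄ t (u * (algebraMap Q̄ _ c * y)) = algebraMap Q̄ _ c * trF Q̄ t (u * y) := by
    intro t u c y
    rw [mul_left_comm, ← aeval_C t c, trF_smul]
  have h1 : ∀ r : modularFunctionFieldFullC Q̄ m,
      (Polynomial.aeval (R := Q̄) (jFullC Q̄ m)).toRingHom.IsIntegralElem r →
      ∃ b : Q̄[X], trF Q̄ (jFullC Q̄ m) (θ * r) = Polynomial.aeval (jFullC Q̄ m) b := by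
    intro r hr
    rw [← incQ_jFull] at hr
    obtain ⟨n, c, b, hb, rfl⟩ := exists_descent p g (jFull m) r hr
    refine ⟨∑ i, C (c i) * (φ ⟨b i, hb i⟩).map (toQbar p), ?_⟩
    rw [Finset.mul_sum, trF_sum, map_sum]
    refine Finset.sum_congr rfl fun i _ => ?_
    rw [hscal, htr ⟨b i, hb i⟩, map_mul, aeval_C]
  have hj0 : jFullC Q̄ m ≠ 0 := fun h => by
    have := congrArg (fun s : modularFunctionFieldFullC Q̄ m => ((s : LaurentSeries Q̄)).coeff (-1)) h
    simp [jFullC, coeff_jqModC_neg_one] at this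
  have h2 : ∀ r : modularFunctionFieldFullC Q̄ m,
      (Polynomial.aeval (R := Q̄) (jFullC Q̄ m)⁻¹).toRingHom.IsIntegralElem r →
      ∃ b : Q̄[X], trF Q̄ (jFullC Q̄ m)⁻¹ (-(jFullC Q̄ m ^ 2 * θ) * r) =
        Polynomial.aeval (jFullC Q̄ m)⁻¹ b := by
    intro r hr
    rw [← incQ_jFull, ← map_inv₀] at hr
    obtain ⟨n, c, b, hb, rfl⟩ := exists_descent p g (jFull m)⁻¹ r hr
    have hone : ∀ i, ∃ q : Q̄[X], trF Q̄ (jFullC Q̄ m)⁻¹ (-(jFullC Q̄ m ^ 2 * θ) * incQ m (b i)) =
        Polynomial.aeval (jFullC Q̄ m)⁻¹ q := by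
      intro i
      obtain ⟨N, hN⟩ := exists_pow_mul_mem_chartAlg (N := m) (ℓ := p) (Set.mem_singleton (jFull m))
        (jFull_ne_zero m) (chartAlg_mono m p (Set.singleton_subset_iff.mpr (Set.mem_insert _ _)) (hb i))
      set β : chartAlgFin m p := ⟨_, hN⟩
      have hvan : ∀ k, N ≤ k + 1 → (φ β).coeff k = 0 := hdegφ β N (by
        show (jFull m)⁻¹ ^ N * ((jFull m) ^ N * b i) ∈ _
        rw [← mul_assoc, ← mul_pow, inv_mul_cancel₀ (jFull_ne_zero m), one_pow, one_mul]
        exact hb i)
      refine ⟨-∑ k ∈ Finset.range (N - 1), C (toQbar p ((φ β).coeff k)) * X ^ (N - 2 - k), ?_⟩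
      rw [trF_inv]
      refine mul_left_cancel₀ (pow_ne_zero N hj0) ?_
      rw [show jFullC Q̄ m ^ N = Polynomial.aeval (jFullC Q̄ m) (X ^ N : Q̄[X]) by simp, ← trF_smul,
        show Polynomial.aeval (jFullC Q̄ m) (X ^ N : Q̄[X]) *
          (-(jFullC Q̄ m ^ 2 * θ) * incQ m (b i)) =
          Polynomial.aeval (jFullC Q̄ m) (-(X ^ 2) : Q̄[X]) * (θ * incQ m ((jFull m) ^ N * b i)) by
        simp only [map_neg, map_pow, aeval_X, map_mul, incQ_jFull]; ring,
        trF_smul, htr β, map_neg, map_neg, mul_neg, neg_mul, map_pow, map_pow, aeval_X,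
        as_sum_range_C_mul_X_pow' (p := (φ β).map (toQbar p)) (n := N - 1 + ((φ β).natDegree + 1))
          (by have := natDegree_map_le (f := toQbar p) (p := φ β); omega), map_sum, map_sum,
        Finset.mul_sum, Finset.mul_sum]
      congr 1
      rw [Finset.sum_range_add, add_eq_left.mpr (Finset.sum_eq_zero fun k _ => by
        rw [coeff_map, hvan _ (by omega), map_zero, map_zero, zero_mul, map_zero, mul_zero])]
      refine Finset.sum_congr rfl fun k hk => ?_
      rw [Finset.mem_range] at hk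
      simp only [map_mul, map_pow, aeval_C, aeval_X, coeff_map, inv_pow]
      have hsplit : jFullC Q̄ m ^ N = jFullC Q̄ m ^ 2 * jFullC Q̄ m ^ k * jFullC Q̄ m ^ (N - 2 - k) := by
        rw [← pow_add, ← pow_add]
        congr 1
        omega
      rw [hsplit]
      field_simp
    choose q hq using hone
    refine ⟨∑ i, C (c i) * q i, ?_⟩
    rw [Finset.mul_sum, trF_sum, map_sum]
    refine Finset.sum_congr rfl fun i _ => ?_
    rw [hscal, hq i, map_mul, aeval_C]
  obtain ⟨f, hf⟩ := g.exists_cuspForm h1 h2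
  -- rationality
  set sub := (GaloisRep.ratLocalizedAt p).subtype
  set num := coeffMap sub (ev2 A m H * thetaL (jqModC A))
  set den := coeffMap sub (ev2 A m (derivative P))
  let σ : A →+* ℂ := qbarToC.comp (toQbar p)
  have hσ : σ = (algebraMap ℚ ℂ).comp sub := by
    show (qbarToC.comp (algebraMap ℚ Q̄)).comp sub = _
    rw [Subsingleton.elim (qbarToC.comp (algebraMap ℚ Q̄)) (algebraMap ℚ ℂ)]
  have hder : derivative (P.map (mapRingHom (toQbar p))) = (derivative P).map (mapRingHom (toQbar p)) :=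
    derivative_map _ _
  have hden : den ≠ 0 := by
    intro h0
    refine g.derivative_ne_zero ?_
    rw [hder, ← coeffMap_ev2, show ev2 A m (derivative P) = 0 from coeffMap_sub_injective p
      (h0.trans (map_zero (coeffMap sub)).symm), map_zero]
  have hs : coeffMap qbarToC (θ : LaurentSeries Q̄) * thetaL (jqModC ℂ) =
      coeffMap (algebraMap ℚ ℂ) (num / den) := by
    rw [map_div₀, coeffMap_coeffMap, coeffMap_coeffMap, ← hσ, map_mul, ← thetaL_coeffMap,
      MCurve.coeffMap_jqModC, hθ, IntermediateField.coe_div, map_div₀, coe_evF, coe_evF, hder,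
      ← coeffMap_ev2, ← coeffMap_ev2, coeffMap_coeffMap, coeffMap_coeffMap]
    ring
  have hrat : Hecke.IsRationalForm (k := 2) f := fun n => ⟨(num / den).coeff (n : ℤ), by
    rw [(hf n).1, hs, coeffMap_coeff, eq_ratCast]⟩
  obtain ⟨D, hD, hDf⟩ := Hecke.exists_denominator (k := 2) even_two hrat
  choose z hz using (Hecke.mem_intLattice_iff.mp hDf)
  have hz' : ∀ n, (D : ℂ) * ModularFormClass.qCoeff ⇑f n = (z n : ℂ) := fun n => by
    rw [← hz n]
    exact (Hecke.qCoeff_smul (D : ℂ) f n).symm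
  refine ⟨f, D, z, hD, hz', coeffMap_sub_injective p ?_⟩
  rw [map_mul, map_mul]
  show _ * den = _ * num
  rw [← eq_div_iff hden, mul_div_assoc, coeffMap_C, map_natCast, HahnSeries.C_apply]
  ext k
  rw [coeffMap_coeff, HahnSeries.coeff_single_zero_mul]
  apply (algebraMap ℚ ℂ).injective
  have hk' : (algebraMap ℚ ℂ) ((num / den).coeff k) =
      (coeffMap qbarToC (θ : LaurentSeries Q̄) * thetaL (jqModC ℂ)).coeff k := by
    rw [hs, coeffMap_coeff]
  rw [map_mul, hk', map_natCast]
  rcases lt_or_ge k 0 with hk | hk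
  · rw [ModularCurve.ofPowerSeries_coeff_of_neg _ hk, map_zero, map_zero, (hf 0).2 k hk, mul_zero]
  · obtain ⟨n, rfl⟩ := Int.eq_ofNat_of_zero_le hk
    rw [HahnSeries.ofPowerSeries_apply_coeff, PowerSeries.coeff_mk, ← (hf n).1, hz', map_intCast,
      map_intCast]

/-- The reduction of the form, normalised by removing the powers of `p` in the denominator. -/
theorem exists_redSpace_of_form {k : Type*} [Field k] [IsAlgClosed k] [CharP k p] (ρ : A →+* k)
    {P H : A[X][X]} (gk : GenData k m (P.map (mapRingHom ρ))) {f : CuspForm (Gamma0 m) 2} {D : ℕ}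
    (hD : 0 < D) {z : ℕ → ℤ} (hz : ∀ n, (D : ℂ) * ModularFormClass.qCoeff ⇑f n = (z n : ℂ))
    (hrel : HahnSeries.ofPowerSeries ℤ A (PowerSeries.mk fun n => (z n : A)) *
      ev2 A m (derivative P) = HahnSeries.C (D : A) * (ev2 A m H * thetaL (jqModC A))) :
    ∃ w ∈ Newform.redSpace m k, HahnSeries.ofPowerSeries ℤ k w *
      ev2 k m (derivative (P.map (mapRingHom ρ))) =
        ev2 k m (H.map (mapRingHom ρ)) * thetaL (jqModC k) := by
  induction D using Nat.strong_induction_on generalizing z with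
  | _ D ih =>
    have hred : HahnSeries.ofPowerSeries ℤ k (PowerSeries.mk fun n => (z n : k)) *
        ev2 k m (derivative (P.map (mapRingHom ρ))) =
        HahnSeries.C (D : k) * (ev2 k m (H.map (mapRingHom ρ)) * thetaL (jqModC k)) := by
      have := congrArg (coeffMap ρ) hrel
      rw [map_mul, map_mul, map_mul, coeffMap_C, map_natCast, coeffMap_ev2, coeffMap_ev2,
        ← thetaL_coeffMap, MCurve.coeffMap_jqModC, MCurve.coeffMap_ofPowerSeries', ← derivative_map]
        at this
      rw [← this]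
      congr 2
      ext n; simp
    by_cases hp : p ∣ D
    · obtain ⟨D', rfl⟩ := hp
      rw [Nat.cast_mul, CharP.cast_eq_zero, zero_mul, map_zero, zero_mul] at hred
      have h0 := (mul_eq_zero.mp hred).resolve_right gk.derivative_ne_zero
      have hdvd : ∀ n, (p : ℤ) ∣ z n := fun n => by
        have h1 := congrArg (fun s : LaurentSeries k => s.coeff (n : ℤ)) h0
        simp only [HahnSeries.ofPowerSeries_apply_coeff, PowerSeries.coeff_mk,
          HahnSeries.coeff_zero] at h1
        exact (CharP.intCast_eq_zero_iff k p _).mp h1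
      choose z' hz' using hdvd
      have hp0 : (p : ℂ) ≠ 0 := Nat.cast_ne_zero.mpr (Fact.out : p.Prime).ne_zero
      refine ih D' ?_ (Nat.pos_of_mul_pos_left hD) (z := z') (fun n => ?_) ?_
      · exact lt_mul_left (Nat.pos_of_mul_pos_left hD) (Fact.out : p.Prime).one_lt
      · refine mul_left_cancel₀ hp0 ?_
        rw [← mul_assoc, ← Nat.cast_mul, hz, hz' n]
        push_cast
        ring
      · have hC : HahnSeries.C ((p : A)) ≠ 0 :=
          (map_ne_zero_iff (HahnSeries.C : A →+* LaurentSeries A) HahnSeries.C_injective).mpr (prime_natCast_ratLocalizedAt p).ne_zero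
        refine mul_left_cancel₀ hC ?_
        rw [← mul_assoc, ← mul_assoc (HahnSeries.C (p : A)), ← map_mul, ← Nat.cast_mul, ← hrel]
        congr 1
        rw [← HahnSeries.ofPowerSeries_C, ← map_mul]
        congr 1
        ext n
        rw [PowerSeries.coeff_C_mul, PowerSeries.coeff_mk, PowerSeries.coeff_mk, hz' n]
        push_cast
        rfl
    · have hDk : (D : k) ≠ 0 := fun h => hp ((CharP.cast_eq_zero_iff k p D).mp h)
      have hw : Newform.IsRedSeries ((D : ℂ) • f) (PowerSeries.mk fun n => (z n : k)) := fun n =>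
        ⟨z n, by rw [Hecke.qCoeff_smul, hz], by simp⟩
      refine ⟨(D : k)⁻¹ • PowerSeries.mk (fun n => (z n : k)),
        Submodule.smul_mem _ _ hw.mem_redSpace, ?_⟩
      rw [PowerSeries.smul_eq_C_mul, map_mul, HahnSeries.ofPowerSeries_C, mul_assoc, hred,
        ← mul_assoc, ← map_mul, inv_mul_cancel₀ hDk, map_one, one_mul]

end Fermat.Agent.MCurve.SpecialDifferential
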