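import Fermat.Agent.MCurve.SpecialDifferential.Gen
import Fermat.Agent.MCurve.IgusaFibre

/-!
The free lattice `H¹` of the Igusa model of `X₀(m)` over `ℤ_(p)`, presented by finitely many
functionals `φᵢ : B → ℤ_(p) [X]`.
-/

set_option autoImplicit false
set_option maxHeartbeats 1000000
set_option linter.style.haveILetI false

noncomputable section

namespace Fermat.Agent.MCurve.SpecialDifferential

open Polynomial ModularCurve CongruenceSubgroup ModularCurve.IgusaScheme

section TwoChartSection

variable {A F : Type*} [CommRing A] [IsDomain A] [IsPrincipalIdealRing A] [Field F] [Algebra A F]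

/-- `B + B'`. -/
abbrev chartSum (B B' : Subalgebra A F) : Submodule A F :=
  Subalgebra.toSubmodule B ⊔ Subalgebra.toSubmodule B'

/-- The hypotheses on two charts glued along `J ≠ 0`. -/
structure TwoChart (J : F) (B B' : Subalgebra A F) : Prop where
  mem : J ∈ B
  inv_mem : J⁻¹ ∈ B'
  ne : J ≠ 0
  ov : ∀ b ∈ B, ∃ N : ℕ, J⁻¹ ^ N * b ∈ B'
  fin : ∃ s : Finset F, (∀ e ∈ s, e ∈ B) ∧
    ∀ b ∈ B, ∃ a : F → A[X], b = ∑ e ∈ s, aeval J (a e) * e
  sat : ∀ r : A, r ≠ 0 → ∀ (x : F) (n : ℕ), J ^ n * x ∈ B → r • x ∈ chartSum B B' →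
    x ∈ chartSum B B'

variable {J : F} {B B' : Subalgebra A F}

theorem aeval_mem_chart (hJ : J ∈ B) (a : A[X]) : aeval J a ∈ B := by
  rw [show aeval J a = ((aeval (⟨J, hJ⟩ : B) a : B) : F) from
    aeval_algHom_apply B.val (⟨J, hJ⟩ : B) a]
  exact SetLike.coe_mem _

theorem TwoChart.inv_pow_mem (h : TwoChart J B B') {b : F} {N n : ℕ} (hb : J⁻¹ ^ N * b ∈ B')
    (hn : N ≤ n) : J⁻¹ ^ n * b ∈ B' := by
  obtain ⟨k, rfl⟩ := Nat.exists_eq_add_of_le hn
  rw [pow_add, mul_right_comm]
  exact mul_mem hb (pow_mem h.inv_mem k)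

variable (J B B') in
/-- The functions regular off the zeros and poles of `J`. -/
def overlap (hJ : J ∈ B) : Submodule A F where
  carrier := {x | ∃ n : ℕ, J ^ n * x ∈ B}
  zero_mem' := ⟨0, by simp [zero_mem B]⟩
  add_mem' := by
    rintro x y ⟨n, hn⟩ ⟨l, hl⟩
    refine ⟨n + l, ?_⟩
    rw [show J ^ (n + l) * (x + y) = J ^ l * (J ^ n * x) + J ^ n * (J ^ l * y) by ring]
    exact add_mem (mul_mem (pow_mem hJ _) hn) (mul_mem (pow_mem hJ _) hl)
  smul_mem' := by
    rintro r x ⟨n, hn⟩
    exact ⟨n, by rw [mul_smul_comm]; exact Subalgebra.smul_mem B hn r⟩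

theorem TwoChart.inv_pow_mul_mem_overlap (h : TwoChart J B B') {b : F} (hb : b ∈ B) (n : ℕ) :
    J⁻¹ ^ n * b ∈ overlap J B h.mem :=
  ⟨n, by rw [← mul_assoc, ← mul_pow, mul_inv_cancel₀ h.ne, one_pow, one_mul]; exact hb⟩

/-- The lattice `(B[1/J]) / (B + B')` is free of finite rank; its coordinates give functionals. -/
theorem TwoChart.exists_functionals (h : TwoChart J B B') :
    ∃ (g : ℕ) (φ : Fin g → B → A[X]) (x : Fin g → F),
      (∀ i a b, φ i (a + b) = φ i a + φ i b) ∧
      (∀ (i) (a : A[X]) (b : B), φ i (⟨aeval J a, aeval_mem_chart h.mem a⟩ * b) = a * φ i b) ∧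
      (∀ (i) (b : B) (N : ℕ), J⁻¹ ^ N * (b : F) ∈ B' → ∀ n, N ≤ n + 1 → (φ i b).coeff n = 0) ∧
      (∀ i, ∃ n : ℕ, J ^ n * x i ∈ B) ∧
      ∀ (b : B) (n : ℕ), J⁻¹ ^ (n + 1) * (b : F) - ∑ i, (φ i b).coeff n • x i ∈ chartSum B B' := by
  classical
  let O := overlap J B h.mem
  let L : Submodule A O := (chartSum B B').comap O.subtype
  obtain ⟨s, hs, hgen⟩ := h.fin
  choose Ne hNe using fun e : s => h.ov e (hs e e.2)
  -- finitely generated
  let gens : Finset (O ⧸ L) := (Finset.univ.sigma fun e : s => Finset.range (Ne e)).image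
    fun q => Submodule.Quotient.mk ⟨J⁻¹ ^ q.2 * (q.1 : F), h.inv_pow_mul_mem_overlap (hs _ q.1.2) _⟩
  have hmk : ∀ (e : s) (k : ℕ) (hk : J⁻¹ ^ k * (e : F) ∈ O),
      (Submodule.Quotient.mk (⟨_, hk⟩ : O) : O ⧸ L) ∈ Submodule.span A (gens : Set (O ⧸ L)) := by
    intro e k hk
    by_cases hk' : k < Ne e
    · exact Submodule.subset_span (Finset.mem_coe.mpr (Finset.mem_image.mpr
        ⟨⟨e, k⟩, Finset.mem_sigma.mpr ⟨Finset.mem_univ _, Finset.mem_range.mpr hk'⟩, rfl⟩))
    · rw [(Submodule.Quotient.mk_eq_zero L).mpr]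
      · exact zero_mem _
      · exact Submodule.mem_sup_right (h.inv_pow_mem (hNe e) (not_lt.mp hk'))
  haveI : Module.Finite A (O ⧸ L) := by
    refine ⟨⟨gens, eq_top_iff.mpr fun q _ => ?_⟩⟩
    obtain ⟨⟨y, n, hn⟩, rfl⟩ := Submodule.Quotient.mk_surjective L q
    obtain ⟨a, ha⟩ := hgen _ hn
    have hy : y = ∑ e ∈ s.attach, ∑ i ∈ (a e).support,
        (a e).coeff i • (J⁻¹ ^ n * (J ^ i * (e : F))) := by
      have h1 : y = J⁻¹ ^ n * (J ^ n * y) := by
        rw [← mul_assoc, ← mul_pow, inv_mul_cancel₀ h.ne, one_pow, one_mul]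
      rw [h1, ha, Finset.mul_sum, ← Finset.sum_attach]
      refine Finset.sum_congr rfl fun e _ => ?_
      rw [aeval_eq_sum_range' (Nat.lt_succ_self _), Finset.sum_mul, Finset.mul_sum]
      refine (Finset.sum_subset (fun i hi => Finset.mem_range.mpr
        (Nat.lt_succ_of_le (le_natDegree_of_mem_supp i hi))) fun i _ hi => ?_).symm.trans
        (Finset.sum_congr rfl fun i _ => ?_)
      · rw [notMem_support_iff.mp hi, zero_smul, zero_mul, mul_zero]
      · rw [smul_mul_assoc, mul_smul_comm]
    have hterm : ∀ (e : s) (i : ℕ), ∃ hO : J⁻¹ ^ n * (J ^ i * (e : F)) ∈ O,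
        (Submodule.Quotient.mk (⟨_, hO⟩ : O) : O ⧸ L) ∈ Submodule.span A (gens : Set (O ⧸ L)) := by
      intro e i
      rcases le_or_gt n i with hi | hi
      · obtain ⟨k, rfl⟩ := Nat.exists_eq_add_of_le hi
        have h1 : J⁻¹ ^ n * (J ^ (n + k) * (e : F)) ∈ B := by
          rw [← mul_assoc, pow_add, ← mul_assoc, ← mul_pow, inv_mul_cancel₀ h.ne, one_pow, one_mul]
          exact mul_mem (pow_mem h.mem _) (hs _ e.2)
        refine ⟨⟨0, by rw [pow_zero, one_mul]; exact h1⟩, ?_⟩
        rw [(Submodule.Quotient.mk_eq_zero L).mpr]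
        · exact zero_mem _
        · exact Submodule.mem_sup_left h1
      · obtain ⟨k, rfl⟩ := Nat.exists_eq_add_of_le hi.le
        have h1 : J⁻¹ ^ (i + k) * (J ^ i * (e : F)) = J⁻¹ ^ k * (e : F) := by
          rw [pow_add, mul_comm (J⁻¹ ^ i), mul_assoc, ← mul_assoc (J⁻¹ ^ i), ← mul_pow,
            inv_mul_cancel₀ h.ne, one_pow, one_mul]
        exact ⟨h1 ▸ h.inv_pow_mul_mem_overlap (hs _ e.2) _,
          by simpa only [h1] using hmk e k (h.inv_pow_mul_mem_overlap (hs _ e.2) _)⟩
    choose hO hspan using hterm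
    rw [show (⟨y, n, hn⟩ : O) = ∑ e ∈ s.attach, ∑ i ∈ (a e).support,
        (a e).coeff i • (⟨_, hO e i⟩ : O) from Subtype.ext (by
          rw [Submodule.coe_sum]; refine hy.trans (Finset.sum_congr rfl fun e _ => ?_)
          rw [Submodule.coe_sum]; rfl),
      ← Submodule.mkQ_apply, map_sum]
    refine sum_mem fun e _ => ?_
    rw [map_sum]
    refine sum_mem fun i _ => ?_
    rw [map_smul]
    exact Submodule.smul_mem _ _ (hspan e i)
  -- torsion free
  haveI : Module.IsTorsionFree A (O ⧸ L) := by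
    refine .of_smul_eq_zero fun r q hq => ?_
    obtain ⟨⟨y, n, hn⟩, rfl⟩ := Submodule.Quotient.mk_surjective L q
    rw [← Submodule.Quotient.mk_smul, Submodule.Quotient.mk_eq_zero] at hq
    exact or_iff_not_imp_left.mpr fun hr =>
      (Submodule.Quotient.mk_eq_zero L).mpr (h.sat r hr y n hn hq)
  haveI : Module.Free A (O ⧸ L) := Module.free_of_finite_type_torsion_free'
  let ba := Module.finBasis A (O ⧸ L)
  let lam : Fin (Module.finrank A (O ⧸ L)) → ℕ → B → A := fun i n b =>
    ba.repr (Submodule.Quotient.mk ⟨J⁻¹ ^ (n + 1) * (b : F), h.inv_pow_mul_mem_overlap b.2 _⟩) i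
  have hzero : ∀ i (b : B) (N : ℕ), J⁻¹ ^ N * (b : F) ∈ B' → ∀ n, N ≤ n + 1 → lam i n b = 0 := by
    intro i b N hN n hn
    show ba.repr _ i = 0
    rw [(Submodule.Quotient.mk_eq_zero L).mpr, map_zero, Finsupp.zero_apply]
    exact Submodule.mem_sup_right (h.inv_pow_mem hN hn)
  choose Nb hNb using fun b : B => h.ov b b.2
  let φ : Fin (Module.finrank A (O ⧸ L)) → B → A[X] := fun i b =>
    ∑ n ∈ Finset.range (Nb b), monomial n (lam i n b)
  have hφ : ∀ i b n, (φ i b).coeff n = lam i n b := by
    intro i b n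
    simp only [φ, finsetSum_coeff, coeff_monomial, Finset.sum_ite_eq', Finset.mem_range]
    split_ifs with hn
    · rfl
    · exact (hzero i b (Nb b) (hNb b) n (by omega)).symm
  have hadd : ∀ i a b, φ i (a + b) = φ i a + φ i b := by
    intro i a b
    ext n
    rw [coeff_add, hφ, hφ, hφ]
    show ba.repr _ i = ba.repr _ i + ba.repr _ i
    rw [← Finsupp.add_apply, ← map_add, ← Submodule.Quotient.mk_add]
    congr 3
    exact Subtype.ext (mul_add _ _ _)
  let out : Fin (Module.finrank A (O ⧸ L)) → O := fun i => (ba i).out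
  refine ⟨_, φ, fun i => (out i : F), hadd, fun i a b => ?_, fun i b N hN n hn => ?_,
    fun i => (out i).2, fun b n => ?_⟩
  · induction a using Polynomial.induction_on' with
    | add a a' ha ha' =>
      rw [add_mul, ← ha, ← ha', ← hadd]
      congr 1
      exact Subtype.ext (by simp [add_mul])
    | monomial k c =>
      induction k generalizing b with
      | zero =>
        ext n
        rw [← C_mul_X_pow_eq_monomial, pow_zero, mul_one, coeff_C_mul, hφ, hφ]
        show ba.repr _ i = c • ba.repr _ i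
        rw [← Finsupp.smul_apply, ← map_smul, ← Submodule.Quotient.mk_smul]
        congr 3
        refine Subtype.ext ?_
        show J⁻¹ ^ (n + 1) * (aeval J _ * (b : F)) = c • (J⁻¹ ^ (n + 1) * (b : F))
        rw [aeval_C, Algebra.smul_def]
        ring
      | succ k ih =>
        have hb : (⟨aeval J (monomial (k + 1) c), aeval_mem_chart h.mem _⟩ * b : B) =
            ⟨aeval J (monomial k c), aeval_mem_chart h.mem _⟩ * (⟨J, h.mem⟩ * b) := Subtype.ext (by
          simp only [Subalgebra.coe_mul, aeval_monomial, pow_succ]; ring)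
        rw [hb, ih, ← monomial_mul_X, mul_assoc]
        congr 1
        ext n
        rcases n with _ | n
        · rw [coeff_X_mul_zero, hφ]
          show ba.repr _ i = 0
          rw [(Submodule.Quotient.mk_eq_zero L).mpr, map_zero, Finsupp.zero_apply]
          refine Submodule.mem_sup_left ?_
          show J⁻¹ ^ (0 + 1) * (J * (b : F)) ∈ B
          rw [zero_add, pow_one, ← mul_assoc, inv_mul_cancel₀ h.ne, one_mul]
          exact b.2
        · rw [coeff_X_mul, hφ, hφ]
          show ba.repr _ i = ba.repr _ i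
          congr 3
          refine Subtype.ext ?_
          show J⁻¹ ^ (n + 1 + 1) * (J * (b : F)) = J⁻¹ ^ (n + 1) * (b : F)
          rw [pow_succ _ (n + 1), mul_assoc, ← mul_assoc J⁻¹, inv_mul_cancel₀ h.ne, one_mul]
  · rw [hφ]; exact hzero i b N hN n hn
  · simp_rw [hφ]
    have hq : (Submodule.Quotient.mk (⟨_, h.inv_pow_mul_mem_overlap b.2 (n + 1)⟩ -
        ∑ i, lam i n b • out i : O) : O ⧸ L) = 0 := by
      rw [Submodule.Quotient.mk_sub, ← Submodule.mkQ_apply L (∑ i, lam i n b • out i), map_sum]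
      simp only [map_smul, Submodule.mkQ_apply, out, Submodule.Quotient.mk_out]
      exact sub_eq_zero.mpr (ba.sum_repr _).symm
    have := (Submodule.Quotient.mk_eq_zero L).mp hq
    simpa [L, Submodule.coe_sum] using this

end TwoChartSection

section Instance

variable (p m : ℕ) [Fact p.Prime] [NeZero m]

set_option quotPrecheck false in
local notation "A" => ↥(GaloisRep.ratLocalizedAt p)

theorem evalAtJ_ne_zero_of_relation {x : modularFunctionFieldFull m} {d : ℤ[X]}
    {a : Fin (Gamma0 m).index → ℤ[X]} (hne : d ≠ 0 ∨ ∃ b, a b ≠ 0)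
    (hrel : evalAtJ d * (x : LaurentSeries ℚ) = ∑ b, evalAtJ (a b) * qExpand ℚ m jq ^ (b : ℕ)) :
    evalAtJ d ≠ 0 := by
  refine evalAtJ_ne_zero ?_
  intro h0
  obtain ⟨b₀, hb₀⟩ := hne.resolve_left (not_not.mpr h0)
  have h1 := congrArg (coeffMap (algebraMap ℚ (AlgebraicClosure ℚ))) hrel
  rw [h0, map_zero, zero_mul, map_zero, map_sum] at h1
  have h2 := (redIndependent_qbar m) (fun b => (a b).map (Int.castRingHom _)) (by
    rw [h1]
    refine Finset.sum_congr rfl fun b _ => ?_
    rw [map_mul, map_pow, qExpand_coeffMap, ← jqModC_rat, MCurve.coeffMap_jqModC]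
    congr 1
    rw [← intMap_evalAtJ, show evalAtJ (a b) = Polynomial.aeval jq (a b) from rfl, aeval_def,
      hom_eval₂, hom_eval₂, MCurve.coeffMap_jqModC, ← jqModC_rat, MCurve.coeffMap_jqModC]
    congr 1
    exact RingHom.ext_int _ _)
  exact hb₀ (map_injective (Int.castRingHom (AlgebraicClosure ℚ)) Int.cast_injective (by
    rw [Polynomial.map_zero]; exact congrFun h2 b₀))

/-- `η` in the field over `ℚ`. -/
def etaQ : modularFunctionFieldFull m := ⟨qExpand ℚ m jq, jqd_mem_full m dvd_rfl⟩

/-- Every element of the field over `ℚ` is a polynomial in `η` over `ℚ (j)`. -/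
theorem exists_denom_relation (x : modularFunctionFieldFull m) :
    ∃ (D : ℤ[X]) (a : Fin (Gamma0 m).index → ℤ[X]),
      Polynomial.aeval (jFull m) D ≠ 0 ∧ Polynomial.aeval (jFull m) D * x =
        ∑ b, Polynomial.aeval (jFull m) (a b) * etaQ m ^ (b : ℕ) := by
  obtain ⟨D, a, hne, hrel⟩ := exists_relation m x
  refine ⟨D, a, fun h0 => evalAtJ_ne_zero_of_relation m hne hrel ?_, Subtype.val_injective ?_⟩
  · rw [evalAtJ_coe m, h0]; rfl
  · rw [IntermediateField.coe_mul, ← evalAtJ_coe, hrel, AddSubmonoidClass.coe_finsetSum]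
    refine Finset.sum_congr rfl fun b _ => ?_
    rw [IntermediateField.coe_mul, IntermediateField.coe_pow, ← evalAtJ_coe]
    rfl

/-- The finite chart is finite over `ℤ_(p) [j]`. -/
theorem exists_chart_generators :
    ∃ s : Finset (modularFunctionFieldFull m), (∀ e ∈ s, e ∈ chartAlgFin m p) ∧
      ∀ b ∈ chartAlgFin m p, ∃ a : modularFunctionFieldFull m → A[X],
        b = ∑ e ∈ s, Polynomial.aeval (jFull m) (a e) * e := by
  classical
  let F := modularFunctionFieldFull m
  have htr := aeval_jFull_injective m p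
  letI : Algebra A[X] F := (Polynomial.aeval (R := A) (jFull m)).toRingHom.toAlgebra
  letI : Algebra (FractionRing A[X]) F := (IsFractionRing.lift
    (g := (Polynomial.aeval (R := A) (jFull m)).toRingHom) htr).toAlgebra
  haveI : IsScalarTower A[X] (FractionRing A[X]) F := IsScalarTower.of_algebraMap_eq fun P =>
    (IsFractionRing.lift_algebraMap (g := (Polynomial.aeval (R := A) (jFull m)).toRingHom) htr P).symm
  haveI : CharZero A := (GaloisRep.ratLocalizedAt p).subtype.charZero
  haveI : CharZero (FractionRing A[X]) :=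
    (algebraMap (FractionRing A[X]) F).charZero_iff (algebraMap (FractionRing A[X]) F).injective
      |>.mpr inferInstance
  haveI : FiniteDimensional (FractionRing A[X]) F := by
    refine ⟨⟨Finset.univ.image fun b : Fin (Gamma0 m).index => etaQ m ^ (b : ℕ), ?_⟩⟩
    rw [eq_top_iff]
    rintro x -
    obtain ⟨D, a, hD, hrel⟩ := exists_denom_relation m x
    have hmap : ∀ q : ℤ[X], algebraMap (FractionRing A[X]) F
        (algebraMap A[X] (FractionRing A[X]) (q.map (Int.castRingHom A))) =
        Polynomial.aeval (jFull m) q := fun q => by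
      rw [← IsScalarTower.algebraMap_apply]
      exact aeval_map_algebraMap A _ q
    rw [show x = ∑ b, (algebraMap A[X] (FractionRing A[X]) ((a b).map (Int.castRingHom A)) /
        algebraMap A[X] (FractionRing A[X]) (D.map (Int.castRingHom A))) •
          etaQ m ^ (b : ℕ) by
      refine mul_left_cancel₀ hD ?_
      rw [hrel, Finset.mul_sum]
      refine Finset.sum_congr rfl fun b _ => ?_
      rw [Algebra.smul_def, map_div₀, hmap, hmap, ← mul_assoc, mul_div_cancel₀ _ hD]]
    exact sum_mem fun b _ => Submodule.smul_mem _ _ (Submodule.subset_span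
      (Finset.mem_coe.mpr (Finset.mem_image_of_mem _ (Finset.mem_univ b))))
  haveI : Algebra.IsSeparable (FractionRing A[X]) F := inferInstance
  haveI : Module.Finite A[X] (integralClosure A[X] F) :=
    IsIntegralClosure.finite A[X] (FractionRing A[X]) F (integralClosure A[X] F)
  obtain ⟨n, g, hg⟩ := Module.Finite.exists_fin (R := A[X]) (M := integralClosure A[X] F)
  have hmem : ∀ x : F, x ∈ integralClosure A[X] F ↔ x ∈ chartAlgFin m p := fun x =>
    ⟨fun h => mem_chartAlg_of_isIntegralElem m p h, fun h => isIntegralElem_of_mem_chartAlg m p h⟩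
  refine ⟨Finset.univ.image fun i => (g i : F), fun e he => ?_, fun b hb => ?_⟩
  · obtain ⟨i, -, rfl⟩ := Finset.mem_image.mp he
    exact (hmem _).mp (g i).2
  · obtain ⟨c, hc⟩ := (Submodule.mem_span_range_iff_exists_fun A[X]).mp
      (hg ▸ Submodule.mem_top : (⟨b, (hmem b).mpr hb⟩ : integralClosure A[X] F) ∈ _)
    refine ⟨fun e => ∑ i ∈ Finset.univ.filter (fun i => (g i : F) = e), c i, ?_⟩
    have h1 : b = ∑ i, Polynomial.aeval (jFull m) (c i) * (g i : F) := by
      have h2 := congrArg Subtype.val hc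
      rw [AddSubmonoidClass.coe_finsetSum] at h2
      exact h2.symm
    rw [h1, ← Finset.sum_fiberwise_of_maps_to (g := fun i => (g i : F))
      (t := Finset.univ.image fun i => (g i : F))
      fun i _ => Finset.mem_image_of_mem _ (Finset.mem_univ i)]
    refine Finset.sum_congr rfl fun e _ => ?_
    rw [map_sum, Finset.sum_mul]
    exact Finset.sum_congr rfl fun i hi => by rw [(Finset.mem_filter.mp hi).2]

theorem exists_inv_pow_mul_mem {b : modularFunctionFieldFull m} (hb : b ∈ chartAlgFin m p) :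
    ∃ N : ℕ, (jFull m)⁻¹ ^ N * b ∈ chartAlgInf m p := by
  refine exists_pow_mul_mem_chartAlg (Set.mem_singleton _) (inv_ne_zero (jFull_ne_zero m)) ?_
  exact chartAlg_mono m p (fun x hx => Or.inl (by rw [inv_inv]; exact hx)) hb

/-- An element of `k((q))` integral over `k [j]` and over `k [1 / j]` is constant. -/
theorem eq_const_of_integral {k : Type*} [Field k] {u : LaurentSeries k}
    (h1 : (jHom k).IsIntegralElem u)
    (h2 : (eval₂RingHom HahnSeries.C (jqModC k)⁻¹).IsIntegralElem u) :
    u = HahnSeries.C (u.coeff 0) := by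
  -- `u` is algebraic over `k`, so of order zero
  have hC : (HahnSeries.C : k →+* LaurentSeries k).IsIntegralElem u := by
    have hmem : u ∈ ⨅ V : {V : ValuationSubring (LaurentSeries k) //
        ((HahnSeries.C : k →+* LaurentSeries k).range : Set (LaurentSeries k)) ⊆ V.toSubring},
        V.1.toSubring := by
      refine Subring.mem_iInf.mpr fun ⟨V, hV⟩ => ?_
      have key : ∀ (t : LaurentSeries k), t ∈ V →
          (eval₂RingHom HahnSeries.C t).IsIntegralElem u → u ∈ V := by
        intro t ht hu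
        obtain ⟨M, hM, hMu⟩ := hu
        have hmemc : ∀ a : k[X], eval₂RingHom HahnSeries.C t a ∈ V.toSubring := fun a => by
          rw [coe_eval₂RingHom, eval₂_eq_sum_range]
          exact sum_mem fun i _ => mul_mem (hV ⟨_, rfl⟩) (pow_mem ht i)
        have hint : IsIntegral V u :=
          ⟨M.map ((eval₂RingHom HahnSeries.C t).codRestrict V.toSubring hmemc), hM.map _, by
            rw [eval₂_map]; exact hMu⟩
        obtain ⟨y, hy⟩ := IsIntegrallyClosed.algebraMap_eq_of_integral hint
        rw [← hy]; exact y.2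
      rcases V.mem_or_inv_mem (jqModC k) with hj | hj
      · exact key _ hj h1
      · exact key _ hj h2
    rw [iInf_valuationSubring_superset] at hmem
    obtain ⟨M, hM, hMu⟩ : IsIntegral (Subring.closure
      ((HahnSeries.C : k →+* LaurentSeries k).range : Set (LaurentSeries k))) u := hmem
    have hlift : M.map (Subring.closure
        ((HahnSeries.C : k →+* LaurentSeries k).range : Set (LaurentSeries k))).subtype ∈
        Polynomial.lifts (HahnSeries.C : k →+* LaurentSeries k) := by
      refine (Polynomial.lifts_iff_coeff_lifts _).mpr fun i => ?_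
      rw [coeff_map]
      have hc := (M.coeff i).2
      simp only [Subring.closure_eq] at hc
      exact hc
    obtain ⟨Q, hQ, -, hQm⟩ := Polynomial.lifts_and_natDegree_eq_and_monic hlift (hM.map _)
    refine ⟨Q, hQm, ?_⟩
    rw [eval₂_eq_eval_map, hQ, eval_map]
    exact hMu
  have halg : ∀ a : k, (algebraMap k (LaurentSeries k)) a = HahnSeries.C a := fun a => by
    rw [algebraMap_laurentSeries_eq_single]; rfl
  have hu : IsAlgebraic k (u - algebraMap k (LaurentSeries k) (u.coeff 0)) := by
    refine IsAlgebraic.sub ?_ (isAlgebraic_algebraMap _)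
    obtain ⟨M, hM, hMu⟩ := hC
    refine ⟨M, hM.ne_zero, ?_⟩
    rw [aeval_def, show algebraMap k (LaurentSeries k) = HahnSeries.C from RingHom.ext halg]
    exact hMu
  refine sub_eq_zero.mp (by_contra fun hv => ?_)
  rw [halg] at hu
  set v := u - HahnSeries.C (u.coeff 0)
  have key : ∀ w : LaurentSeries k, w ≠ 0 → IsAlgebraic k w → w.order ≤ 0 := by
    intro w hw hwa
    by_contra hlt
    obtain ⟨M, hM, hMw⟩ := hwa.isIntegral
    set N := minpoly k w
    have hN0 : N.coeff 0 ≠ 0 := minpoly.coeff_zero_ne_zero hwa.isIntegral hw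
    have h0 := congrArg (fun x : LaurentSeries k => x.coeff 0) (minpoly.aeval k w)
    rw [aeval_eq_sum_range] at h0
    simp only [HahnSeries.coeff_sum, Algebra.smul_def, halg, HahnSeries.C_apply,
      HahnSeries.coeff_single_zero_mul, HahnSeries.coeff_zero] at h0
    rw [Finset.sum_eq_single 0] at h0
    · exact hN0 (by simpa [HahnSeries.coeff_smul] using h0)
    · intro i _ hi
      rw [HahnSeries.coeff_eq_zero_of_lt_order]
      · exact mul_zero _
      rw [HahnSeries.order_pow, nsmul_eq_mul]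
      have : (0 : ℤ) < i := by exact_mod_cast Nat.pos_of_ne_zero hi
      exact mul_pos this (not_le.mp hlt)
    · simp
  have h3 := key v⁻¹ (inv_ne_zero hv) hu.inv
  have h4 := key v hv hu
  have h5 := HahnSeries.order_mul hv (inv_ne_zero hv)
  rw [mul_inv_cancel₀ hv, HahnSeries.order_one] at h5
  have h6 : v.coeff v.order ≠ 0 := HahnSeries.coeff_order_eq_zero.not.mpr hv
  rw [show v.order = 0 by omega] at h6
  exact h6 (by simp [v])

variable {p m}

/-- A relation of integrality, reduced along `ρ`. -/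
theorem isIntegralElem_red {t y : modularFunctionFieldFull m} (hy : y ∈ chartAlg m p {t})
    {τ s : LaurentSeries A} (hτ : coeffMap (GaloisRep.ratLocalizedAt p).subtype τ = valHom m t)
    (hs : coeffMap (GaloisRep.ratLocalizedAt p).subtype s = valHom m y) {k : Type*} [Field k]
    (ρ : A →+* k) :
    (eval₂RingHom HahnSeries.C (coeffMap ρ τ)).IsIntegralElem (coeffMap ρ s) := by
  obtain ⟨M, hM, hMy⟩ := isIntegralElem_of_mem_chartAlg m p hy
  refine ⟨M.map (mapRingHom ρ), hM.map _, ?_⟩
  have h0 : M.eval₂ (eval₂RingHom HahnSeries.C τ) s = 0 := by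
    refine coeffMap_sub_injective p ?_
    rw [map_zero, hom_eval₂, hs, ← map_zero (valHom m), ← hMy, hom_eval₂]
    congr 1
    refine Polynomial.ringHom_ext (fun a => ?_) ?_
    · simp only [RingHom.coe_comp, Function.comp_apply, coe_eval₂RingHom, eval₂_C,
        AlgHom.toRingHom_eq_coe, RingHom.coe_coe, aeval_C]
      rw [valHom_algebraMap, coeffMap_C, algebraMap_laurentSeries_eq_single]
      rfl
    · simp only [RingHom.coe_comp, Function.comp_apply, coe_eval₂RingHom, eval₂_X,
        AlgHom.toRingHom_eq_coe, RingHom.coe_coe, aeval_X]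
      exact hτ
  rw [eval₂_map, ← map_zero (coeffMap ρ), ← h0, hom_eval₂]
  congr 1
  refine Polynomial.ringHom_ext (fun a => ?_) ?_ <;> simp [coeffMap_C]

/-- The lattice is torsion free at `p`. -/
theorem mem_chartSum_of_smul (hpm : ¬ p ∣ m) {x : modularFunctionFieldFull m} {n : ℕ}
    (hb : jFull m ^ n * x ∈ chartAlgFin m p)
    (hx : (p : A) • x ∈ chartSum (chartAlgFin m p) (chartAlgInf m p)) :
    x ∈ chartSum (chartAlgFin m p) (chartAlgInf m p) := by
  obtain ⟨β, hβ, β', hβ', hsum⟩ := Submodule.mem_sup.mp hx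
  rw [Subalgebra.mem_toSubmodule] at hβ hβ'
  obtain ⟨k, _, ρ, hρ, -⟩ := exists_redIndependent m p hpm
  let T : chartAlgFin m p →+* LaurentSeries A := chartExp hpm (Or.inl rfl)
  let T' : chartAlgInf m p →+* LaurentSeries A := chartExp hpm (Or.inr rfl)
  have hT : ∀ y : chartAlgFin m p,
      coeffMap (GaloisRep.ratLocalizedAt p).subtype (T y) = valHom m (y : modularFunctionFieldFull m) :=
    coeffMap_chartExp hpm (Or.inl rfl)
  have hT' : ∀ y : chartAlgInf m p,
      coeffMap (GaloisRep.ratLocalizedAt p).subtype (T' y) = valHom m (y : modularFunctionFieldFull m) :=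
    coeffMap_chartExp hpm (Or.inr rfl)
  have hj : T (jChartFin m p) = jqModC A := coeffMap_sub_injective p (by
    rw [hT, MCurve.coeffMap_jqModC, jqModC_rat]; rfl)
  have hji : T' (jInvChartInf m p) * jqModC A = 1 := coeffMap_sub_injective p (by
    rw [map_mul, map_one, hT', MCurve.coeffMap_jqModC, jqModC_rat, coe_jInvChartInf, map_inv₀]
    exact inv_mul_cancel₀ jq_ne_zero)
  have hjk : coeffMap ρ (T' (jInvChartInf m p)) = (jqModC k)⁻¹ := by
    have := congrArg (coeffMap ρ) hji
    rw [map_mul, map_one, MCurve.coeffMap_jqModC] at this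
    exact eq_inv_of_mul_eq_one_left this
  have hrel : jqModC A ^ n * (T ⟨β, hβ⟩ + T' ⟨β', hβ'⟩) =
      HahnSeries.C (p : A) * T ⟨_, hb⟩ := coeffMap_sub_injective p (by
    rw [map_mul, map_mul, map_pow, map_add, MCurve.coeffMap_jqModC, jqModC_rat, hT, hT', hT,
      coeffMap_C, ← map_add]
    show jq ^ n * valHom m (β + β') = _
    rw [hsum, Algebra.smul_def, map_natCast, map_mul, map_natCast, map_mul, map_pow,
      map_natCast, map_natCast]
    show jq ^ n * ((p : LaurentSeries ℚ) * _) = (p : LaurentSeries ℚ) * (jq ^ n * _)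
    ring)
  set u := coeffMap ρ (T ⟨β, hβ⟩)
  have hu' : coeffMap ρ (T' ⟨β', hβ'⟩) = -u := by
    have := congrArg (coeffMap ρ) hrel
    rw [map_mul, map_mul, map_pow, map_add, MCurve.coeffMap_jqModC, coeffMap_C, hρ, map_zero,
      zero_mul] at this
    have hj0 : jqModC k ≠ 0 := fun h => by
      simpa [coeff_jqModC_neg_one] using congrArg (fun s : LaurentSeries k => s.coeff (-1)) h
    exact eq_neg_of_add_eq_zero_right ((mul_eq_zero.mp this).resolve_left (pow_ne_zero _ hj0))
  have h1 : (jHom k).IsIntegralElem u := by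
    have := isIntegralElem_red (t := jFull m) hβ (τ := jqModC A) (s := T ⟨β, hβ⟩)
      (by rw [MCurve.coeffMap_jqModC, jqModC_rat]; rfl) (hT _) ρ
    rwa [MCurve.coeffMap_jqModC] at this
  have h2 : (eval₂RingHom HahnSeries.C (jqModC k)⁻¹).IsIntegralElem u := by
    have := isIntegralElem_red (t := (jFull m)⁻¹) hβ' (hT' (jInvChartInf m p)) (hT' ⟨β', hβ'⟩) ρ
    rw [hjk, hu'] at this
    simpa using this.neg
  have hconst := eq_const_of_integral h1 h2
  set a : A := (T ⟨β, hβ⟩).coeff 0
  have hTa : T (algebraMap A _ a) = HahnSeries.C a := coeffMap_sub_injective p (by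
    rw [hT, coeffMap_C]
    refine (valHom_algebraMap m p a).trans ?_
    rw [algebraMap_laurentSeries_eq_single]; rfl)
  have hTa' : T' (algebraMap A _ a) = HahnSeries.C a := coeffMap_sub_injective p (by
    rw [hT', coeffMap_C]
    refine (valHom_algebraMap m p a).trans ?_
    rw [algebraMap_laurentSeries_eq_single]; rfl)
  obtain ⟨y, hy⟩ := exists_smul_of_chartExp hpm (Or.inl rfl) (⟨β, hβ⟩ - algebraMap A _ a) fun i =>
    (red_eq_zero_iff p ρ hρ _).mp (by
      show (coeffMap ρ (T (⟨β, hβ⟩ - algebraMap A _ a))).coeff i = 0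
      rw [map_sub, hTa, map_sub, coeffMap_C,
        show ρ a = u.coeff 0 from rfl, ← hconst, sub_self]
      rfl)
  obtain ⟨y', hy'⟩ := exists_smul_of_chartExp hpm (Or.inr rfl) (⟨β', hβ'⟩ + algebraMap A _ a) fun i =>
    (red_eq_zero_iff p ρ hρ _).mp (by
      show (coeffMap ρ (T' (⟨β', hβ'⟩ + algebraMap A _ a))).coeff i = 0
      rw [map_add, hTa', map_add, coeffMap_C, hu',
        show ρ a = u.coeff 0 from rfl, ← hconst, neg_add_cancel]
      rfl)
  have hxy : x = (y : modularFunctionFieldFull m) + y' := by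
    refine mul_left_cancel₀ (b := x) (a := (p : modularFunctionFieldFull m))
      (Nat.cast_ne_zero.mpr (Fact.out : p.Prime).ne_zero) ?_
    have e1 := congrArg (Subtype.val : _ → modularFunctionFieldFull m) hy
    have e2 := congrArg (Subtype.val : _ → modularFunctionFieldFull m) hy'
    simp [Algebra.smul_def] at e1 e2 hsum
    linear_combination e1 + e2 - hsum
  rw [hxy]
  exact add_mem (Submodule.mem_sup_left y.2) (Submodule.mem_sup_right y'.2)

variable (p m) in
theorem twoChart (hpm : ¬ p ∣ m) :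
    TwoChart (jFull m) (chartAlgFin m p) (chartAlgInf m p) where
  mem := subset_chartAlg m p _ rfl
  inv_mem := subset_chartAlg m p _ rfl
  ne := jFull_ne_zero m
  ov b hb := exists_inv_pow_mul_mem p m hb
  fin := exists_chart_generators p m
  sat r hr x n hx h := by
    obtain ⟨e, r', hr', rfl⟩ := WfDvdMonoid.max_power_factor hr
      (prime_natCast_ratLocalizedAt p).irreducible
    obtain ⟨w, rfl⟩ := (ratLocalizedAt_cases p r').resolve_right hr'
    rw [mul_comm, mul_smul, Submodule.smul_mem_iff_of_isUnit _ w.isUnit] at h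
    induction e with
    | zero => rwa [pow_zero, one_smul] at h
    | succ e ih =>
      refine ih (mul_ne_zero (pow_ne_zero _ (prime_natCast_ratLocalizedAt p).ne_zero) w.ne_zero)
        (mem_chartSum_of_smul hpm (n := n) ?_ (by rwa [pow_succ', mul_smul] at h))
      rw [mul_smul_comm]
      exact Subalgebra.smul_mem _ hx _

end Instance

end Fermat.Agent.MCurve.SpecialDifferential
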