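import Mathlib.RingTheory.DedekindDomain.IntegralClosure
import Mathlib.RingTheory.DedekindDomain.AdicValuation
import Mathlib.RingTheory.DedekindDomain.Factorization
import Mathlib.RingTheory.DedekindDomain.Different
import Mathlib.FieldTheory.RatFunc.Basic
import Mathlib.RingTheory.Valuation.ValuationSubring
import Mathlib.RingTheory.Polynomial.ScaleRoots
import Mathlib.Algebra.GCDMonoid.IntegrallyClosed
import Mathlib.RingTheory.Bezout
import Mathlib.Algebra.BigOperators.Field

/-!
Local generators of the integral closure of `K[t]` in a separable extension of `K(t)`, with `K`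
algebraically closed, and the trace of differentials: regular differentials against the integral
closure give polynomials, and conversely.
-/

set_option autoImplicit false
set_option maxHeartbeats 800000
set_option linter.unusedSectionVars false

noncomputable section

namespace Fermat.Agent.MCurve.SpecialDifferential

open Polynomial IsDedekindDomain

section CoeffD

variable {R : Type*} [CommRing R]

/-- The derivative of the coefficients. -/
def coeffD : R[X][X] →+ R[X][X] where
  toFun P := P.sum fun i (a : R[X]) => (C (derivative a) * X ^ i : R[X][X])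
  map_zero' := by simp
  map_add' P Q := by
    rw [sum_add_index] <;> simp [add_mul]

theorem coeffD_C_mul_X_pow (a : R[X]) (i : ℕ) :
    coeffD (C a * X ^ i) = C (derivative a) * X ^ i := by
  rw [C_mul_X_pow_eq_monomial]
  simp only [coeffD, AddMonoidHom.coe_mk, ZeroHom.coe_mk]
  rw [sum_monomial_index] <;> simp

variable {K F L : Type*} [Field K] [Field F] [Algebra K F] [Field L]

/-- An `ι`-derivation killing the constants. -/
structure IsDer (K : Type*) {F L : Type*} [Field K] [Field F] [Algebra K F] [Field L]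
    (ι : F →+* L) (f : F → L) : Prop where
  map_add : ∀ x y, f (x + y) = f x + f y
  leibniz : ∀ x y, f (x * y) = ι x * f y + ι y * f x
  const : ∀ a : K, f (algebraMap K F a) = 0

variable {ι : F →+* L} {f : F → L}

theorem IsDer.map_pow (hf : IsDer K ι f) (x : F) :
    ∀ n : ℕ, f (x ^ n) = (n : L) * ι x ^ (n - 1) * f x
  | 0 => by simpa using hf.const 1
  | n + 1 => by
    rw [pow_succ, hf.leibniz, hf.map_pow x n]
    rcases n with _ | n
    · simp
    · rw [_root_.map_pow, Nat.add_sub_cancel, Nat.add_sub_cancel, pow_succ]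
      push_cast
      ring

theorem IsDer.aeval (hf : IsDer K ι f) (t : F) (a : K[X]) :
    f (aeval t a) = ι (aeval t (derivative a)) * f t := by
  induction a using Polynomial.induction_on' with
  | add a b ha hb => simp [hf.map_add, ha, hb, add_mul]
  | monomial n b =>
    rw [aeval_monomial, hf.leibniz, hf.const, hf.map_pow, derivative_monomial, aeval_monomial]
    simp
    ring

theorem IsDer.eval₂ (hf : IsDer K ι f) (t z : F) (P : K[X][X]) :
    f (P.eval₂ (Polynomial.aeval t).toRingHom z) =
      ι ((coeffD P).eval₂ (Polynomial.aeval t).toRingHom z) * f t +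
        ι ((derivative P).eval₂ (Polynomial.aeval t).toRingHom z) * f z := by
  induction P using Polynomial.induction_on' with
  | add a b ha hb =>
    rw [eval₂_add, hf.map_add, ha, hb, (coeffD : K[X][X] →+ K[X][X]).map_add, eval₂_add, derivative_add, eval₂_add,
      ι.map_add, ι.map_add]
    ring
  | monomial n a =>
    rw [← C_mul_X_pow_eq_monomial, eval₂_mul, eval₂_C, eval₂_X_pow, hf.leibniz, coeffD_C_mul_X_pow,
      derivative_C_mul_X_pow, eval₂_mul, eval₂_C, eval₂_X_pow, eval₂_mul, eval₂_C, eval₂_X_pow,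
      hf.map_pow, AlgHom.toRingHom_eq_coe, RingHom.coe_coe, hf.aeval]
    simp
    ring

end CoeffD

variable {K F : Type*} [Field K] [Field F] [Algebra K F] [IsAlgClosed K]
variable [Algebra K[X] F] [Algebra (RatFunc K) F] [IsScalarTower K K[X] F]
  [IsScalarTower K[X] (RatFunc K) F] [FiniteDimensional (RatFunc K) F]
  [Algebra.IsSeparable (RatFunc K) F]

local notation "S" => integralClosure K[X] F

theorem isDedekindDomain_closure : IsDedekindDomain ↥(S) :=
  integralClosure.isDedekindDomain K[X] (RatFunc K) F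

theorem finite_closure : Module.Finite K[X] ↥(S) :=
  IsIntegralClosure.finite K[X] (RatFunc K) F _

theorem isFractionRing_closure : IsFractionRing ↥(S) F :=
  integralClosure.isFractionRing_of_finite_extension (RatFunc K) F

attribute [local instance] isDedekindDomain_closure isFractionRing_closure finite_closure

theorem algebraMap_injective_F : Function.Injective (algebraMap K[X] F) := by
  rw [IsScalarTower.algebraMap_eq K[X] (RatFunc K) F]
  exact (algebraMap (RatFunc K) F).injective.comp (IsFractionRing.injective K[X] (RatFunc K))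

/-- The trace of `H(z) / P'(z)` is the top coefficient of the remainder of `H`. -/
theorem trace_aeval_div {z : F} (hz : IsIntegral K[X] z)
    (hgen : Algebra.adjoin (RatFunc K) {z} = ⊤) (H : K[X][X]) :
    Algebra.trace (RatFunc K) F
      (aeval z H / aeval z (derivative (minpoly K[X] z))) =
      algebraMap K[X] (RatFunc K)
        ((H %ₘ minpoly K[X] z).coeff ((minpoly K[X] z).natDegree - 1)) := by
  have hzK : IsIntegral (RatFunc K) z := Algebra.IsIntegral.isIntegral z
  let pb := (Algebra.adjoin.powerBasis' hzK).map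
    ((Subalgebra.equivOfEq _ _ hgen).trans (Subalgebra.topEquiv))
  have pbgen : pb.gen = z := by simp [pb]
  have hP : minpoly (RatFunc K) z = (minpoly K[X] z).map (algebraMap K[X] (RatFunc K)) :=
    minpoly.isIntegrallyClosed_eq_field_fractions' (RatFunc K) hz
  set P := minpoly K[X] z with hPdef
  have hPm : P.Monic := minpoly.monic hz
  have hd : pb.dim = P.natDegree := by
    rw [← pb.natDegree_minpoly, pbgen, hP, hPm.natDegree_map]
  have hder : aeval z (derivative (minpoly (RatFunc K) z)) = aeval z (derivative P) := by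
    rw [hP, derivative_map, aeval_map_algebraMap]
  have key : ∀ i, i < P.natDegree → Algebra.trace (RatFunc K) F
      (z ^ i / aeval z (derivative P)) = if i = P.natDegree - 1 then 1 else 0 := by
    intro i hi
    have h := pb.basis.trace_traceDual_mul ⟨P.natDegree - 1, by omega⟩ ⟨i, by omega⟩
    rw [Module.Basis.traceDual_powerBasis_eq, pb.basis_eq_pow, pbgen] at h
    have hco : (minpolyDiv (RatFunc K) z).coeff (P.natDegree - 1) = 1 := by
      have h1 := natDegree_minpolyDiv_succ hzK
      rw [hP, hPm.natDegree_map] at h1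
      rw [show P.natDegree - 1 = (minpolyDiv (RatFunc K) z).natDegree by omega]
      exact minpolyDiv_monic hzK
    simp only [hco, hder, Fin.mk.injEq] at h
    rw [← h]
    congr 1
    rw [div_eq_mul_inv, mul_comm]
    simp [div_eq_mul_inv]
  set R := H %ₘ P with hR
  have hev : aeval z H = aeval z R := by
    conv_lhs => rw [← modByMonic_add_div H P, map_add, map_mul, minpoly.aeval, zero_mul, add_zero]
  have hRd : R.natDegree < P.natDegree :=
    natDegree_modByMonic_lt H hPm fun h1 => minpoly.ne_one K[X] z h1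
  rw [hev, aeval_eq_sum_range' hRd, Finset.sum_div, map_sum,
    Finset.sum_eq_single (P.natDegree - 1)]
  · rw [Algebra.smul_def, IsScalarTower.algebraMap_apply K[X] (RatFunc K) F, mul_div_assoc,
      ← Algebra.smul_def, map_smul, key _ (by omega), if_pos rfl, smul_eq_mul, mul_one]
  · intro i hi hne
    rw [Algebra.smul_def, IsScalarTower.algebraMap_apply K[X] (RatFunc K) F, mul_div_assoc,
      ← Algebra.smul_def, map_smul, key _ (Finset.mem_range.mp hi), if_neg hne, smul_zero]
  · intro hn
    exact absurd (Finset.mem_range.mpr (by omega)) hn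

/-- An element of `K(X)` which is locally polynomial at every point is a polynomial. -/
theorem mem_range_of_local {a : RatFunc K}
    (h : ∀ c : K, ∃ s b : K[X], s.eval c ≠ 0 ∧
      algebraMap K[X] (RatFunc K) s * a = algebraMap K[X] (RatFunc K) b) :
    a ∈ Set.range (algebraMap K[X] (RatFunc K)) := by
  let I : Ideal K[X] :=
    { carrier := {s | ∃ b, algebraMap K[X] (RatFunc K) s * a = algebraMap K[X] (RatFunc K) b}
      add_mem' := by
        rintro s s' ⟨b, hb⟩ ⟨b', hb'⟩
        exact ⟨b + b', by rw [map_add, map_add, add_mul, hb, hb']⟩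
      zero_mem' := ⟨0, by simp⟩
      smul_mem' := by
        rintro r s ⟨b, hb⟩
        exact ⟨r * b, by rw [smul_eq_mul, map_mul, map_mul, mul_assoc, hb]⟩ }
  have htop : I = ⊤ := by
    by_contra hne
    obtain ⟨g, hg⟩ := (IsPrincipalIdealRing.principal I).principal
    have hg' : ¬ IsUnit g := fun hu => hne (by
      rw [hg, Ideal.submodule_span_eq, Ideal.span_singleton_eq_top]
      exact hu)
    obtain ⟨c, hc⟩ : ∃ c, g.IsRoot c := by
      rcases eq_or_ne g 0 with rfl | hg0
      · exact ⟨0, by simp⟩
      · exact IsAlgClosed.exists_root g fun h0 => hg' (Polynomial.isUnit_iff_degree_eq_zero.mpr h0)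
    obtain ⟨s, b, hs, hb⟩ := h c
    have : s ∈ I := ⟨b, hb⟩
    rw [hg, Ideal.submodule_span_eq, Ideal.mem_span_singleton] at this
    obtain ⟨q, rfl⟩ := this
    exact hs (by rw [eval_mul, hc.eq_zero, zero_mul])
  obtain ⟨b, hb⟩ := (htop ▸ Submodule.mem_top : (1 : K[X]) ∈ I)
  exact ⟨b, by rw [← hb, map_one, one_mul]⟩

section Local

variable (c : K)

local notation "τ" => algebraMap K[X] ↥(S) (X - C c)

theorem tau_ne_zero : (τ : ↥(S)) ≠ 0 := fun h => X_sub_C_ne_zero c
  (algebraMap_injective_F (F := F) (by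
    have := congrArg Subtype.val h
    simpa using this))

/-- A multiplier congruent to one modulo `t - c` divides a polynomial not vanishing at `c`. -/
theorem exists_dvd_poly (b : ↥(S)) :
    ∃ s : K[X], s.eval c ≠ 0 ∧ (1 - b * τ) ∣ algebraMap K[X] ↥(S) s := by
  obtain ⟨M, hM, hMb⟩ := (integralClosure.isIntegral b : IsIntegral K[X] b)
  refine ⟨(M.scaleRoots (X - C c)).eval 1, ?_, ?_⟩
  · have h1 : ((M.scaleRoots (X - C c)).eval 1).eval c =
        ((M.map (evalRingHom c)).scaleRoots 0).eval 1 := by
      rw [show (0 : K) = evalRingHom c (X - C c) by simp,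
        ← Polynomial.map_scaleRoots _ _ _ (by rw [hM.leadingCoeff, map_one]; exact one_ne_zero),
        eval_one_map, coe_evalRingHom]
    rw [h1, scaleRoots_zero, (hM.map _).leadingCoeff]
    simp
  · have h0 : eval₂ (algebraMap K[X] ↥(S)) (τ * b) (M.scaleRoots (X - C c)) = 0 :=
      scaleRoots_eval₂_eq_zero _ hMb
    rw [eval₂_eq_eval_map] at h0
    have h1 := sub_dvd_eval_sub 1 (τ * b) ((M.scaleRoots (X - C c)).map (algebraMap K[X] ↥(S)))
    rw [h0, sub_zero, eval_one_map] at h1
    rwa [mul_comm b]

/-- A function without poles over `c` is integral up to a polynomial not vanishing at `c`. -/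
theorem exists_poly_mul_mem {f : F}
    (hf : ∀ v : HeightOneSpectrum ↥(S), τ ∈ v.asIdeal → v.valuation F f ≤ 1) :
    ∃ s : K[X], s.eval c ≠ 0 ∧ algebraMap K[X] F s * f ∈ S := by
  let D : Ideal ↥(S) :=
    { carrier := {x | (x : F) * f ∈ S}
      add_mem' := fun {x y} hx hy => by
        show ((x + y : ↥(S)) : F) * f ∈ S
        rw [AddMemClass.coe_add, add_mul]; exact add_mem hx hy
      zero_mem' := by show ((0 : ↥(S)) : F) * f ∈ S; rw [ZeroMemClass.coe_zero, zero_mul]; exact zero_mem S
      smul_mem' := fun r x hx => by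
        show ((r * x : ↥(S)) : F) * f ∈ S
        rw [MulMemClass.coe_mul, mul_assoc]; exact mul_mem r.2 hx }
  have htop : D ⊔ Ideal.span {τ} = ⊤ := by
    by_contra hne
    obtain ⟨M, hM, hle⟩ := Ideal.exists_le_maximal _ hne
    have hτM : τ ∈ M := hle (Ideal.mem_sup_right (Ideal.mem_span_singleton_self _))
    let v : HeightOneSpectrum ↥(S) := ⟨M, hM.isPrime, fun h0 => tau_ne_zero c (h0.le hτM)⟩
    obtain ⟨n, d, hnd⟩ := HeightOneSpectrum.exists_primeCompl_mul_eq_of_integer v f (hf v hτM)
    exact d.2 (hle (Ideal.mem_sup_left (show ((d : ↥(S)) : F) * f ∈ S by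
      rw [mul_comm, show f * ((d : ↥(S)) : F) = (n : F) from hnd]; exact n.2)))
  obtain ⟨x, hx, y, hy, hxy⟩ := Submodule.mem_sup.mp ((Ideal.eq_top_iff_one _).mp htop)
  obtain ⟨b, rfl⟩ := Ideal.mem_span_singleton'.mp hy
  obtain ⟨s, hs, q, hq⟩ := exists_dvd_poly c b
  refine ⟨s, hs, ?_⟩
  rw [show algebraMap K[X] F s = ((algebraMap K[X] ↥(S) s : ↥(S)) : F) from rfl, hq,
    show (1 : ↥(S)) - b * τ = x by rw [← hxy, add_sub_cancel_right], MulMemClass.coe_mul,
    mul_comm (x : F), mul_assoc]
  exact mul_mem q.2 hx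

/-- The primes over `c`, finitely many. -/
theorem finite_over : {v : HeightOneSpectrum ↥(S) | τ ∈ v.asIdeal}.Finite := by
  refine (Ideal.finite_factors (I := Ideal.span {τ}) ?_).subset fun v hv => ?_
  · exact fun h => tau_ne_zero c (Ideal.span_singleton_eq_bot.mp h)
  · exact Ideal.dvd_span_singleton.mpr hv

theorem exists_value_closure (v : HeightOneSpectrum ↥(S)) (hv : τ ∈ v.asIdeal) (y : ↥(S)) :
    ∃ r : K, y - algebraMap K[X] ↥(S) (C r) ∈ v.asIdeal := by
  haveI := v.isPrime
  obtain ⟨M, hM, hMy⟩ := (integralClosure.isIntegral y : IsIntegral K[X] y)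
  set q := Ideal.Quotient.mk v.asIdeal
  have hX : q.comp (algebraMap K[X] ↥(S)) = (q.comp ((algebraMap K[X] ↥(S)).comp C)).comp
      (evalRingHom c) := by
    refine Polynomial.ringHom_ext (fun a => by simp) ?_
    simp only [RingHom.comp_apply, coe_evalRingHom, eval_X]
    rw [← sub_eq_zero, ← map_sub, ← map_sub]
    exact Ideal.Quotient.eq_zero_iff_mem.mpr hv
  have h0 := congrArg q hMy
  rw [hom_eval₂, map_zero, hX, ← eval₂_map] at h0
  have hs : (M.map (evalRingHom c)).Splits := IsAlgClosed.splits _
  rw [hs.eq_prod_roots_of_monic (hM.map _), eval₂_multiset_prod, Multiset.map_map,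
    Multiset.prod_eq_zero_iff] at h0
  obtain ⟨r, -, hr⟩ := Multiset.mem_map.mp h0
  refine ⟨r, ?_⟩
  rw [← Ideal.Quotient.eq_zero_iff_mem, map_sub]
  rw [Function.comp_apply, eval₂_sub, eval₂_X, eval₂_C] at hr
  exact hr

/-- A local generator over `c`, with the derivative of the coefficients of its equation invertible
there. -/
theorem exists_local_generator :
    ∃ z : ↥(S), (∀ y : ↥(S), ∃ s : K[X], s.eval c ≠ 0 ∧
        algebraMap K[X] ↥(S) s * y ∈ Algebra.adjoin K[X] {z}) ∧
      ∃ (y : ↥(S)) (s : K[X]), s.eval c ≠ 0 ∧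
        aeval z (coeffD (minpoly K[X] z)) * y = algebraMap K[X] ↥(S) s := by
  classical
  let T := (finite_over (F := F) c).toFinset
  have hT : ∀ v, v ∈ T ↔ τ ∈ v.asIdeal := fun v => Set.Finite.mem_toFinset _
  let a : T → K := fun v => Infinite.natEmbedding K (T.equivFin v)
  have ha : Function.Injective a :=
    (Infinite.natEmbedding K).injective.comp (Fin.val_injective.comp T.equivFin.injective)
  choose π hπ using fun v : HeightOneSpectrum ↥(S) => v.intValuation_exists_uniformizer
  obtain ⟨z, hz⟩ := IsDedekindDomain.exists_forall_sub_mem_ideal (s := T)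
    (fun v => v.asIdeal) (fun _ => 2) (fun v _ => v.prime)
    (fun v _ w _ h e => h (HeightOneSpectrum.ext e))
    (fun v => algebraMap K[X] ↥(S) (C (a v)) + π v.1)
  have hmem : ∀ (v : T) (n : ℕ) {x : ↥(S)}, x ∈ v.1.asIdeal ^ n ↔
      v.1.intValuation x ≤ WithZero.exp (-(n : ℤ)) := fun v n x =>
    (v.1.intValuation_le_pow_iff_mem x n).symm
  have hval : ∀ v : T, v.1.intValuation (z - algebraMap K[X] ↥(S) (C (a v))) =
      WithZero.exp (-1 : ℤ) := by
    intro v
    have h2 := (hmem v 2).mp (hz v.1 v.2)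
    rw [show z - algebraMap K[X] ↥(S) (C (a v)) =
      (z - (algebraMap K[X] ↥(S) (C (a v)) + π v.1)) + π v.1 by ring]
    rw [Valuation.map_add_eq_of_lt_right _ ?_, hπ]
    rw [hπ]
    exact h2.trans_lt (WithZero.exp_lt_exp.mpr (by norm_num))
  have hin : ∀ v : T, z - algebraMap K[X] ↥(S) (C (a v)) ∈ v.1.asIdeal := fun v => by
    rw [← v.1.intValuation_lt_one_iff_mem, hval v, ← WithZero.exp_zero]
    exact WithZero.exp_lt_exp.mpr (by norm_num)
  have hconst : ∀ (v : T) {r : K}, r ≠ 0 → algebraMap K[X] ↥(S) (C r) ∉ v.1.asIdeal := fun v r hr h =>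
    v.1.isPrime.ne_top (Ideal.eq_top_of_isUnit_mem _ h
      ((isUnit_C.mpr (isUnit_iff_ne_zero.mpr hr)).map _))
  -- `K[z]` surjects modulo every power
  have hsurj : ∀ (v : T) (n : ℕ) (y : ↥(S)), ∃ g : K[X],
      y - aeval z (g.map C) ∈ v.1.asIdeal ^ n := by
    intro v n y
    induction n with
    | zero => exact ⟨0, by simp⟩
    | succ n ih =>
      obtain ⟨g, hg⟩ := ih
      set w := z - algebraMap K[X] ↥(S) (C (a v))
      have hwn : w ^ n ∈ v.1.asIdeal ^ n := Ideal.pow_mem_pow (hin v) n
      have hwn' : w ^ n ∉ v.1.asIdeal ^ (n + 1) := by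
        rw [hmem v (n + 1), map_pow, hval v, ← WithZero.exp_nsmul, not_le, WithZero.exp_lt_exp]
        simp
      obtain ⟨d, e, he, hde⟩ := Ideal.exists_mul_add_mem_pow_succ v.1.ne_bot (w ^ n)
        (y - aeval z (g.map C)) hwn hwn' hg
      obtain ⟨r, hr⟩ := exists_value_closure c v.1 ((hT v.1).mp v.2) d
      refine ⟨g + C r * (X - C (a v)) ^ n, ?_⟩
      have : y - aeval z ((g + C r * (X - C (a v)) ^ n).map C) =
          w ^ n * (d - algebraMap K[X] ↥(S) (C r)) + e := by
        simp only [Polynomial.map_add, Polynomial.map_mul, Polynomial.map_pow, Polynomial.map_sub,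
          map_C, map_X, map_add, map_mul, map_pow, map_sub, aeval_C, aeval_X, w]
        linear_combination -hde
      rw [this, pow_succ]
      exact add_mem (Ideal.mul_mem_mul hwn hr) (pow_succ (v.1.asIdeal) n ▸ he)
  -- orders of `t - c`
  have hex : ∀ v : T, ∃ n : ℕ, v.1.intValuation (τ : ↥(S)) = WithZero.exp (-(n : ℤ)) := fun v =>
    ⟨_, v.1.intValuation_if_neg (tau_ne_zero c)⟩
  choose e he using hex
  have hout : ∀ v : HeightOneSpectrum ↥(S), v ∉ T → v.intValuation (τ : ↥(S)) = 1 := fun v hv =>
    v.intValuation_eq_one_iff.mpr fun h => hv ((hT v).mpr h)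
  have hdvd : ∀ x : ↥(S), (∀ v : T, x ∈ v.1.asIdeal ^ e v) → (τ : ↥(S)) ∣ x := by
    intro x hx
    obtain ⟨y, hy⟩ := HeightOneSpectrum.mem_integers_of_valuation_le_one F
      (algebraMap ↥(S) F x / algebraMap ↥(S) F τ) fun v => by
      rw [map_div₀, v.valuation_of_algebraMap, v.valuation_of_algebraMap]
      refine div_le_one_of_le₀ ?_ zero_le
      by_cases hv : v ∈ T
      · rw [he ⟨v, hv⟩]; exact (hmem ⟨v, hv⟩ _).mp (hx ⟨v, hv⟩)
      · rw [hout v hv]; exact v.intValuation_le_one x
    refine ⟨y, IsFractionRing.injective ↥(S) F ?_⟩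
    rw [map_mul, hy, mul_div_cancel₀ _
      ((map_ne_zero_iff _ (IsFractionRing.injective ↥(S) F)).mpr (tau_ne_zero c))]
  -- generation
  have hgen : ∀ y : ↥(S), ∃ g : K[X][X], (τ : ↥(S)) ∣ y - aeval z g := by
    intro y
    choose g hg using fun v : T => hsurj v (e v) y
    obtain ⟨G, hG⟩ := Ideal.exists_forall_sub_mem_ideal
      (I := fun v : T => Ideal.span {(X - C (a v)) ^ e v}) (fun v w h => by
        show IsCoprime _ _
        rw [Ideal.isCoprime_span_singleton_iff]
        exact (pairwise_coprime_X_sub_C ha h).pow) g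
    refine ⟨G.map C, hdvd _ fun v => ?_⟩
    obtain ⟨q, hq⟩ := Ideal.mem_span_singleton'.mp (hG v)
    have : y - aeval z (G.map C) = (y - aeval z ((g v).map C)) -
        aeval z (q.map C) * (z - algebraMap K[X] ↥(S) (C (a v))) ^ e v := by
      rw [show G = g v + q * (X - C (a v)) ^ e v by rw [hq]; ring]
      simp only [Polynomial.map_add, Polynomial.map_mul, Polynomial.map_pow, Polynomial.map_sub,
        map_C, map_X, map_add, map_mul, map_pow, map_sub, aeval_C, aeval_X]
      ring
    rw [this]
    exact sub_mem (hg v) (Ideal.mul_mem_left _ _ (Ideal.pow_mem_pow (hin v) _))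
  set A := Subalgebra.toSubmodule (Algebra.adjoin K[X] {z})
  obtain ⟨s₀, hs₀, hs₀'⟩ := Submodule.exists_sub_one_mem_and_smul_eq_zero_of_fg_of_le_smul
    (Ideal.span {X - C c}) (⊤ : Submodule K[X] (↥(S) ⧸ A)) Module.Finite.fg_top (fun x _ => by
      obtain ⟨y, rfl⟩ := Submodule.Quotient.mk_surjective A x
      obtain ⟨g, b, hb⟩ := hgen y
      have hy : Submodule.Quotient.mk (p := A) y = (X - C c) • Submodule.Quotient.mk (p := A) b := by
        rw [← Submodule.Quotient.mk_smul, Submodule.Quotient.eq, Algebra.smul_def, ← hb,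
          sub_sub_cancel]
        show _ ∈ Algebra.adjoin K[X] {z}
        rw [Algebra.adjoin_singleton_eq_range_aeval]
        exact ⟨g, rfl⟩
      rw [hy]
      exact Submodule.smul_mem_smul (Ideal.mem_span_singleton_self _) Submodule.mem_top)
  have hs₀c : s₀.eval c = 1 := by
    obtain ⟨q, hq⟩ := Ideal.mem_span_singleton'.mp hs₀
    rw [show s₀ = q * (X - C c) + 1 by rw [hq]; ring]
    simp
  have hgen' : ∀ y : ↥(S), algebraMap K[X] ↥(S) s₀ * y ∈ Algebra.adjoin K[X] {z} := fun y => by
    have := hs₀' (Submodule.Quotient.mk y) Submodule.mem_top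
    rw [← Submodule.Quotient.mk_smul, Submodule.Quotient.mk_eq_zero] at this
    rw [← Algebra.smul_def]
    exact this
  refine ⟨z, fun y => ⟨s₀, by rw [hs₀c]; exact one_ne_zero, hgen' y⟩, ?_⟩
  set P := minpoly K[X] z with hPdef
  have hzi : IsIntegral K[X] z := integralClosure.isIntegral z
  haveI : Module.IsTorsionFree K[X] ↥(S) := by
    haveI : FaithfulSMul K[X] ↥(S) := (faithfulSMul_iff_algebraMap_injective K[X] ↥(S)).mpr
      fun p q h => algebraMap_injective_F (F := F) (congrArg Subtype.val h)
    infer_instance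
  -- the product of `z - a v`
  set g : K[X] := ∏ v : T, (X - C (a v)) ^ e v with hg
  have hgz : ∀ v : T, v.1.intValuation (aeval z (g.map C)) = v.1.intValuation (τ : ↥(S)) := by
    intro v
    rw [he v, hg, Polynomial.map_prod, map_prod, map_prod, Finset.prod_eq_single v]
    · simp only [Polynomial.map_pow, Polynomial.map_sub, map_X, map_C, map_pow, map_sub, aeval_X,
        aeval_C, hval v, ← WithZero.exp_nsmul]
      simp
    · intro w _ hwv
      simp only [Polynomial.map_pow, Polynomial.map_sub, map_X, map_C, map_pow, map_sub, aeval_X,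
        aeval_C]
      rw [v.1.intValuation_eq_one_iff.mpr fun h => ?_, one_pow]
      have hdiff := sub_mem (hin v) h
      rw [sub_sub_sub_cancel_left, ← map_sub, ← C_sub] at hdiff
      exact hconst v (sub_ne_zero.mpr fun e => hwv (ha e)) hdiff
    · simp
  obtain ⟨yg, hyg⟩ : (τ : ↥(S)) ∣ aeval z (g.map C) := hdvd _ fun v =>
    (hmem v _).mpr (by rw [hgz v, he v])
  obtain ⟨H, hH⟩ := Algebra.adjoin_singleton_eq_range_aeval K[X] z ▸ hgen' yg
  change aeval z H = _ at hH
  obtain ⟨Q, hQ⟩ : P ∣ C s₀ * g.map C - C (X - C c) * H := by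
    refine minpoly.isIntegrallyClosed_dvd hzi ?_
    rw [map_sub, map_mul, map_mul, aeval_C, aeval_C, hH, hyg]
    ring
  set Pc : K[X] := P.map (evalRingHom c)
  have hPcg : g = Pc * Q.map (evalRingHom c) := by
    have := congrArg (Polynomial.map (evalRingHom c)) hQ
    rw [Polynomial.map_sub, Polynomial.map_mul, Polynomial.map_mul, Polynomial.map_mul, map_C,
      map_C, coe_evalRingHom, hs₀c, eval_sub, eval_X, eval_C, sub_self, map_zero, zero_mul,
      sub_zero, map_one, one_mul, Polynomial.map_map,
      show (evalRingHom c).comp C = RingHom.id K from RingHom.ext fun r => by simp, map_id] at this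
    exact this
  -- `P = Pc + (X - c) S₀`
  obtain ⟨S₀, hS₀⟩ : C (X - C c) ∣ P - Pc.map C := by
    refine (C_dvd_iff_dvd_coeff _ _).mpr fun i => ?_
    rw [dvd_iff_isRoot]
    simp [Pc]
  have hQz : ∀ v : T, aeval z (coeffD P) ∉ v.1.asIdeal := by
    intro v
    have hcd : aeval z (coeffD P) - aeval z S₀ ∈ v.1.asIdeal := by
      have hPs : P = Pc.map C + C (X - C c) * S₀ := by rw [← hS₀]; ring
      have hD : coeffD P = S₀ + C (X - C c) * coeffD S₀ := by
        rw [hPs, map_add]
        clear_value Pc
        have h1 : ∀ q : K[X], coeffD (q.map C) = 0 := by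
          intro q
          induction q using Polynomial.induction_on' with
          | add p q hp hq => rw [Polynomial.map_add, map_add, hp, hq, add_zero]
          | monomial n r =>
            rw [map_monomial, ← C_mul_X_pow_eq_monomial, coeffD_C_mul_X_pow, derivative_C]
            simp
        rw [h1, zero_add]
        clear hQ hS₀ hPs
        induction S₀ using Polynomial.induction_on' with
        | add p q hp hq => rw [mul_add, map_add, map_add, hp, hq]; ring
        | monomial n r =>
          rw [← C_mul_X_pow_eq_monomial, ← mul_assoc, ← map_mul, coeffD_C_mul_X_pow,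
            coeffD_C_mul_X_pow, derivative_mul]
          simp
          ring
      rw [hD, map_add, map_mul, aeval_C, add_sub_cancel_left]
      exact Ideal.mul_mem_right _ _ ((hT v.1).mp v.2)
    intro hmemv
    have hS0 : aeval z S₀ ∈ v.1.asIdeal := by
      have := sub_mem hmemv hcd
      rwa [sub_sub_cancel] at this
    have h1 : aeval z (Pc.map C) = -(τ * aeval z S₀) := by
      have := congrArg (aeval z) hS₀
      rw [map_sub, map_mul, aeval_C, minpoly.aeval, zero_sub] at this
      rw [← this, neg_neg]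
    have h2 : v.1.intValuation (aeval z (g.map C)) ≤
        v.1.intValuation (τ : ↥(S)) * v.1.intValuation (aeval z S₀) := by
      rw [hPcg, Polynomial.map_mul, map_mul, map_mul, h1, Valuation.map_neg, map_mul]
      exact mul_le_of_le_one_right' (v.1.intValuation_le_one _)
    have h4 : v.1.intValuation (aeval z S₀) < 1 := (v.1.intValuation_lt_one_iff_mem _).mpr hS0
    have h0 : v.1.intValuation (τ : ↥(S)) ≠ 0 := by rw [he v]; exact WithZero.exp_ne_zero
    rw [hgz v] at h2
    exact absurd (h2.trans_lt (mul_lt_of_lt_one_right (zero_lt_iff.mpr h0) h4)) (lt_irrefl _)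
  obtain ⟨v₀, hv₀⟩ : T.Nonempty := by
    by_contra hT0
    obtain ⟨b, hb⟩ : IsUnit (τ : ↥(S)) := by
      by_contra hn
      obtain ⟨M, hM, hmem⟩ := exists_max_ideal_of_mem_nonunits hn
      exact hT0 ⟨⟨M, hM.isPrime, fun h0 => tau_ne_zero c (h0.le hmem)⟩, (hT _).mpr hmem⟩
    obtain ⟨s, hs, hdv⟩ := exists_dvd_poly c ((b⁻¹ : (↥(S))ˣ) : ↥(S))
    rw [← hb, Units.inv_mul, sub_self, zero_dvd_iff] at hdv
    refine hs ?_
    rw [show s = 0 from algebraMap_injective_F (F := F) (by
      have := congrArg Subtype.val hdv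
      simpa using this), eval_zero]
  have hQ0 : (aeval z (coeffD P) : ↥(S)) ≠ 0 := fun h0 =>
    hQz ⟨v₀, hv₀⟩ (h0 ▸ zero_mem _)
  obtain ⟨s, hs, hmems⟩ := exists_poly_mul_mem (F := F) c
    (f := (algebraMap ↥(S) F (aeval z (coeffD P)))⁻¹) fun v hv => by
    rw [map_inv₀, v.valuation_of_algebraMap,
      v.intValuation_eq_one_iff.mpr (hQz ⟨v, (hT v).mpr hv⟩), inv_one]
  refine ⟨⟨_, hmems⟩, s, hs, Subtype.ext ?_⟩
  show (aeval z (coeffD P) : ↥(S)).1 * (algebraMap K[X] F s * (algebraMap ↥(S) F (aeval z (coeffD P)))⁻¹) = _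
  rw [mul_left_comm]
  show algebraMap K[X] F s * (algebraMap ↥(S) F _ * (algebraMap ↥(S) F _)⁻¹) = _
  rw [mul_inv_cancel₀ ((map_ne_zero_iff _ (IsFractionRing.injective ↥(S) F)).mpr hQ0), mul_one]
  rfl

end Local

end Fermat.Agent.MCurve.SpecialDifferential
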