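import Fermat.Agent.MCurve.SpecialDifferential.IntForm
import Mathlib.FieldTheory.PurelyInseparable.PerfectClosure

/-!
The logarithmic differential of a function of the special level field whose divisor is divisible
by `p` is the reduction of a cusp form.
-/

set_option autoImplicit false
set_option maxHeartbeats 1000000
set_option linter.style.haveILetI false

noncomputable section

namespace Fermat.Agent.MCurve.SpecialDifferential

open Polynomial ModularCurve CongruenceSubgroup IntermediateField ModularCurve.IgusaScheme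
open AlgebraicCurve
open scoped MatrixGroups

section General

variable {k : Type*} [Field k] {m : ℕ} [NeZero m] {P : k[X][X]}

theorem aeval_jFullC_injective :
    Function.Injective (Polynomial.aeval (R := k) (jFullC k m)) :=
  (injective_iff_map_eq_zero _).mpr fun a h => by_contra fun ha => aeval_jFullC_ne_zero ha h

theorem jFullC_ne_zero : jFullC k m ≠ 0 := by
  simpa using aeval_jFullC_ne_zero (K := k) (m := m) (D := Polynomial.X) Polynomial.X_ne_zero

theorem GenData.evF_modByMonic (g : GenData k m P) (Q : k[X][X]) :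
    evF k m (Q %ₘ P) = evF k m Q := by
  conv_rhs => rw [← modByMonic_add_div Q P]
  rw [map_add, map_mul, g.evF_root, zero_mul, add_zero]

/-- A function with vanishing traces against the powers of `η` vanishes. -/
theorem GenData.eq_zero_of_trF [IsAlgClosed k] (g : GenData k m P)
    {z : modularFunctionFieldFullC k m}
    (h : ∀ b < P.natDegree, trF k (jFullC k m) (z * etaF k m ^ b) = 0) : z = 0 := by
  have hP0 : evF k m (derivative P) ≠ 0 := fun h0 => g.derivative_ne_zero (by
    rw [← coe_evF, h0]; rfl)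
  obtain ⟨D, Q, hD, hDQ⟩ := g.exists_denom (z * evF k m (derivative P))
  have hlt : (Q %ₘ P).natDegree < P.natDegree := natDegree_modByMonic_lt Q g.monic fun h1 => by
    have := g.natDegree_eq
    rw [h1, natDegree_one] at this
    exact (index_pos (m := m)).ne this
  have hQ : Q %ₘ P = 0 := eq_zero_of_topCoeff g.monic hlt fun b hb => by
    refine aeval_jFullC_injective (k := k) (m := m) ?_
    rw [← g.trF_div, map_mul, g.evF_modByMonic, map_pow, evF_X, ← hDQ, map_zero,
      show Polynomial.aeval (jFullC k m) D * (z * evF k m (derivative P)) * etaF k m ^ b /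
        evF k m (derivative P) = Polynomial.aeval (jFullC k m) D * (z * etaF k m ^ b) by field_simp,
      trF_smul, h b hb, mul_zero]
  have h2 := g.evF_modByMonic Q
  rw [hQ, map_zero, ← hDQ] at h2
  exact ((mul_eq_zero.mp ((mul_eq_zero.mp h2.symm).resolve_left (aeval_jFullC_ne_zero hD))).resolve_right
    hP0)

theorem isDer_thetaL_val :
    IsDer k (modularFunctionFieldFullC k m).val.toRingHom
      (fun y : modularFunctionFieldFullC k m => thetaL (y : LaurentSeries k)) where
  map_add x y := by rw [IntermediateField.coe_add, thetaL_add]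
  leibniz x y := by
    rw [IntermediateField.coe_mul, thetaL_mul]
    show _ = (x : LaurentSeries k) * thetaL (y : LaurentSeries k) +
      (y : LaurentSeries k) * thetaL (x : LaurentSeries k)
    ring
  const a := by
    show thetaL (algebraMap k (LaurentSeries k) a) = 0
    rw [algebraMap_laurentSeries_eq_single]
    exact thetaL_C a

theorem thetaL_jqModC_ne_zero : thetaL (jqModC k) ≠ 0 := fun h => by
  have := congrArg (fun s : LaurentSeries k => s.coeff (-1)) h
  simp [thetaL_coeff, coeff_jqModC_neg_one] at this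

/-- The image of `θ` on the level field is `F · θ j`. -/
theorem GenData.exists_thetaL_eq [IsAlgClosed k] (g : GenData k m P)
    (y : modularFunctionFieldFullC k m) :
    ∃ c : modularFunctionFieldFullC k m,
      (c : LaurentSeries k) * thetaL (jqModC k) = thetaL (y : LaurentSeries k) := by
  have hf := isDer_thetaL_val (k := k) (m := m)
  have hP0 : ev2 k m (derivative P) ≠ 0 := g.derivative_ne_zero
  have hη := hf.eval₂ (jFullC k m) (etaF k m) P
  change thetaL ((evF k m P : modularFunctionFieldFullC k m) : LaurentSeries k) = _ at hη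
  rw [g.evF_root] at hη
  obtain ⟨D, Q, hD, hDQ⟩ := g.exists_denom y
  have hD0 : ev1 k D ≠ 0 := by
    rw [← coe_aeval_jFullC (m := m)]
    exact fun h => aeval_jFullC_ne_zero hD (Subtype.ext h)
  have hQ := hf.eval₂ (jFullC k m) (etaF k m) Q
  change thetaL ((evF k m Q : modularFunctionFieldFullC k m) : LaurentSeries k) =
    ((evF k m (coeffD Q) : modularFunctionFieldFullC k m) : LaurentSeries k) * thetaL (jqModC k) +
    ((evF k m (derivative Q) : modularFunctionFieldFullC k m) : LaurentSeries k) *
      thetaL (etaL k m) at hQ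
  change thetaL ((0 : modularFunctionFieldFullC k m) : LaurentSeries k) =
    ((evF k m (coeffD P) : modularFunctionFieldFullC k m) : LaurentSeries k) * thetaL (jqModC k) +
    ((evF k m (derivative P) : modularFunctionFieldFullC k m) : LaurentSeries k) *
      thetaL (etaL k m) at hη
  have hDy := hf.leibniz (Polynomial.aeval (jFullC k m) D) y
  rw [hDQ] at hDy
  change thetaL ((evF k m Q : modularFunctionFieldFullC k m) : LaurentSeries k) =
    ((Polynomial.aeval (jFullC k m) D : modularFunctionFieldFullC k m) : LaurentSeries k) *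
      thetaL (y : LaurentSeries k) + (y : LaurentSeries k) *
      thetaL ((Polynomial.aeval (jFullC k m) D : modularFunctionFieldFullC k m) : LaurentSeries k) at hDy
  have hDd := hf.aeval (jFullC k m) D
  change thetaL ((Polynomial.aeval (jFullC k m) D : modularFunctionFieldFullC k m) : LaurentSeries k) =
    ((Polynomial.aeval (jFullC k m) (derivative D) : modularFunctionFieldFullC k m) : LaurentSeries k) *
      thetaL (jqModC k) at hDd
  rw [ZeroMemClass.coe_zero, show thetaL (0 : LaurentSeries k) = 0 by ext; simp, coe_evF, coe_evF] at hη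
  rw [hQ, hDd, coe_evF, coe_evF, coe_aeval_jFullC, coe_aeval_jFullC] at hDy
  refine ⟨(evF k m (coeffD Q) + evF k m (derivative Q) *
    (-(evF k m (coeffD P)) / evF k m (derivative P)) -
      y * Polynomial.aeval (jFullC k m) (derivative D)) / Polynomial.aeval (jFullC k m) D, ?_⟩
  simp only [IntermediateField.coe_div, IntermediateField.coe_add, IntermediateField.coe_mul,
    IntermediateField.coe_neg, AddSubgroupClass.coe_sub, coe_evF, coe_aeval_jFullC]
  field_simp
  linear_combination (ev2 k m (derivative P)) * hDy + (ev2 k m (derivative Q)) * hη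

variable {p : ℕ} [Fact p.Prime] [CharP k p]

/-- Over `F` the powers of `j` below `p` are independent over the constants of `θ`. -/
theorem eq_zero_of_eval_jFullC (G : (modularFunctionFieldFullC k m)[X]) (hdeg : G.natDegree < p)
    (hG : ∀ i, thetaL ((G.coeff i : modularFunctionFieldFullC k m) : LaurentSeries k) = 0)
    (h0 : G.eval (jFullC k m) = 0) : G = 0 := by
  induction hd : G.natDegree using Nat.strong_induction_on generalizing G with
  | _ d ih =>
    by_cases hd0 : G.natDegree = 0
    · obtain ⟨c, rfl⟩ := natDegree_eq_zero.mp hd0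
      rw [eval_C] at h0
      rw [h0, map_zero]
    have hf := isDer_thetaL_val (k := k) (m := m)
    have hmul : ∀ (c : modularFunctionFieldFullC k m),
        thetaL (c : LaurentSeries k) = 0 → ∀ n : ℕ,
          thetaL ((c * jFullC k m ^ n : modularFunctionFieldFullC k m) : LaurentSeries k) =
            ((c * ((n : modularFunctionFieldFullC k m) * jFullC k m ^ (n - 1)) :
              modularFunctionFieldFullC k m) : LaurentSeries k) * thetaL (jqModC k) := by
      intro c hc n
      have h1 := hf.leibniz c (jFullC k m ^ n)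
      have h2 := hf.map_pow (jFullC k m) n
      change _ = _ at h1
      beta_reduce at h1 h2
      rw [h1, h2, hc, mul_zero, add_zero]
      show (c : LaurentSeries k) * ((n : LaurentSeries k) * ((jqModC k) ^ (n - 1)) * thetaL (jqModC k)) = _
      simp only [IntermediateField.coe_mul, IntermediateField.coe_pow, SubringClass.coe_natCast]
      show _ = (c : LaurentSeries k) * ((n : LaurentSeries k) * jqModC k ^ (n - 1)) * thetaL (jqModC k)
      ring
    have hder : (derivative G).eval (jFullC k m) = 0 := by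
      have h1 := congrArg (fun y : modularFunctionFieldFullC k m => thetaL (y : LaurentSeries k)) h0
      simp only [eval_eq_sum_range, AddSubmonoidClass.coe_finsetSum, ZeroMemClass.coe_zero] at h1
      let θh : LaurentSeries k →+ LaurentSeries k := AddMonoidHom.mk' thetaL thetaL_add
      change θh _ = θh 0 at h1
      rw [map_sum, map_zero] at h1
      rw [Finset.sum_congr rfl fun i _ => show θh _ = _ from hmul _ (hG i) i, ← Finset.sum_mul,
        mul_eq_zero] at h1
      have h2 := h1.resolve_right thetaL_jqModC_ne_zero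
      refine Subtype.ext ?_
      rw [derivative_eval, sum_over_range (h := fun i => by simp), AddSubmonoidClass.coe_finsetSum,
        ZeroMemClass.coe_zero, ← h2]
      exact Finset.sum_congr rfl fun i _ => by rw [mul_assoc]
    have hd1 : derivative G = 0 := ih (derivative G).natDegree
      (hd ▸ natDegree_derivative_lt hd0) _ (lt_trans (natDegree_derivative_lt hd0) hdeg)
      (fun i => by
        rw [coeff_derivative]
        have h1 := hf.leibniz (G.coeff (i + 1)) ((i : modularFunctionFieldFullC k m) + 1)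
        beta_reduce at h1
        rw [h1, hG, mul_zero, add_zero, show ((i : modularFunctionFieldFullC k m) + 1) =
          algebraMap k _ ((i : k) + 1) by simp]
        exact mul_eq_zero_of_right _ (hf.const _)) hder rfl
    exfalso
    have := congrArg (fun r : (modularFunctionFieldFullC k m)[X] => r.coeff (G.natDegree - 1)) hd1
    simp only [coeff_derivative, coeff_zero] at this
    rw [Nat.sub_add_cancel (Nat.pos_of_ne_zero hd0), ← Nat.cast_add_one,
      Nat.sub_add_cancel (Nat.pos_of_ne_zero hd0), mul_eq_zero, coeff_natDegree,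
      leadingCoeff_eq_zero] at this
    rcases this with h1 | h1
    · exact hd0 (by rw [h1, natDegree_zero])
    · haveI : CharP (modularFunctionFieldFullC k m) p :=
        charP_of_injective_algebraMap (algebraMap k _).injective p
      exact Nat.not_le_of_lt hdeg (Nat.le_of_dvd (Nat.pos_of_ne_zero hd0)
        ((CharP.cast_eq_zero_iff _ p _).mp h1))

/-- The constants of `θ` are the `p`-th powers. -/
theorem GenData.exists_pow_eq [IsAlgClosed k] (g : GenData k m P)
    (h : modularFunctionFieldFullC k m) (hh : thetaL (h : LaurentSeries k) = 0) :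
    ∃ a : modularFunctionFieldFullC k m, a ^ p = h := by
  classical
  have hp := (Fact.out : p.Prime)
  haveI hFp : CharP (modularFunctionFieldFullC k m) p :=
    charP_of_injective_algebraMap (algebraMap k _).injective p
  let φ : (modularFunctionFieldFullC k m) →+* (modularFunctionFieldFullC k m) := frobenius (modularFunctionFieldFullC k m) p
  let S : (modularFunctionFieldFullC k m) → Prop := fun x => ∃ Q : (modularFunctionFieldFullC k m)[X], (Q.map φ).eval (jFullC k m) = x
  have hadd : ∀ {x y}, S x → S y → S (x + y) := fun ⟨Q, hQ⟩ ⟨R, hR⟩ =>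
    ⟨Q + R, by rw [Polynomial.map_add, eval_add, hQ, hR]⟩
  have hmul : ∀ {x y}, S x → S y → S (x * y) := fun ⟨Q, hQ⟩ ⟨R, hR⟩ =>
    ⟨Q * R, by rw [Polynomial.map_mul, eval_mul, hQ, hR]⟩
  have hpow : ∀ x : (modularFunctionFieldFullC k m), S (x ^ p) := fun x => ⟨C x, by rw [Polynomial.map_C, eval_C]; rfl⟩
  have hJS : S (jFullC k m) := ⟨X, by rw [Polynomial.map_X, eval_X]⟩
  have hone : S 1 := ⟨1, by rw [Polynomial.map_one, eval_one]⟩
  have hpw : ∀ {x}, S x → ∀ n : ℕ, S (x ^ n) := fun {x} hx n => by
    induction n with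
    | zero => rw [pow_zero]; exact hone
    | succ n ih => rw [pow_succ]; exact hmul ih hx
  have hconst : ∀ c : k, S (algebraMap k (modularFunctionFieldFullC k m) c) := fun c => by
    obtain ⟨b, rfl⟩ := IsAlgClosed.exists_pow_nat_eq c hp.pos
    rw [map_pow]; exact hpow _
  let T : IntermediateField k (modularFunctionFieldFullC k m) :=
    { carrier := {x | S x}
      mul_mem' := hmul
      one_mem' := hone
      add_mem' := hadd
      zero_mem' := ⟨0, by rw [Polynomial.map_zero, eval_zero]⟩
      algebraMap_mem' := hconst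
      inv_mem' := fun x hx => by
        show S x⁻¹
        rcases eq_or_ne x 0 with rfl | hx0
        · rwa [inv_zero]
        · have h1 := hmul (hpw hx (p - 1)) (hpow x⁻¹)
          rwa [inv_pow, ← div_eq_mul_inv, show x ^ (p - 1) / x ^ p = x⁻¹ by
            rw [div_eq_iff (pow_ne_zero _ hx0), inv_mul_eq_div, eq_div_iff hx0, ← pow_succ,
              Nat.sub_add_cancel hp.pos]] at h1 }
  have hT : ∀ x : (modularFunctionFieldFullC k m), x ∈ T := by
    haveI := g.coord.separable
    haveI : ExpChar k⟮jFullC k m⟯ p := by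
      haveI : CharP k⟮jFullC k m⟯ p := charP_of_injective_algebraMap (algebraMap k _).injective p
      exact ExpChar.prime hp
    have hle : k⟮jFullC k m⟯ ≤ T := adjoin_simple_le_iff.mpr hJS
    have hext := adjoin_simple_eq_adjoin_pow_expChar_pow_of_isSeparable'
      (F := k⟮jFullC k m⟯) (E := modularFunctionFieldFullC k m) (etaF k m) p 1
    rw [g.adjoin_eta, pow_one] at hext
    intro x
    have hx : x ∈ (⊤ : IntermediateField k⟮jFullC k m⟯ (modularFunctionFieldFullC k m)) := IntermediateField.mem_top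
    rw [hext] at hx
    induction hx using IntermediateField.adjoin_induction with
    | mem y hy => obtain rfl : y = etaF k m ^ p := hy; exact hpow _
    | algebraMap a => exact hle a.2
    | add y z _ _ hy hz => exact T.add_mem hy hz
    | inv y _ hy => exact T.inv_mem hy
    | mul y z _ _ hy hz => exact T.mul_mem hy hz
  obtain ⟨Q, hQ⟩ := hT h
  -- reduce modulo `X ^ p - j ^ p`
  set q : (modularFunctionFieldFullC k m)[X] := X ^ p - C (jFullC k m)
  have hq : q.Monic := monic_X_pow_sub_C _ hp.ne_zero
  set R := Q %ₘ q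
  have hqJ : (q.map φ).eval (jFullC k m) = 0 := by
    simp only [q, Polynomial.map_sub, Polynomial.map_pow, Polynomial.map_X, Polynomial.map_C,
      eval_sub, eval_pow, eval_X, eval_C]
    exact sub_self ((jFullC k m) ^ p)
  have hR : (R.map φ).eval (jFullC k m) = h := by
    rw [← hQ]
    conv_rhs => rw [← modByMonic_add_div Q q]
    rw [Polynomial.map_add, Polynomial.map_mul, eval_add, eval_mul, hqJ, zero_mul, add_zero]
  have hRdeg : R.natDegree < p := by
    have h1 := natDegree_modByMonic_lt Q hq fun h1 => by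
      have := congrArg natDegree h1
      rw [natDegree_one, natDegree_X_pow_sub_C] at this
      exact hp.ne_zero this
    rwa [natDegree_X_pow_sub_C] at h1
  haveI : CharP (LaurentSeries k) p :=
    charP_of_injective_algebraMap (algebraMap k (LaurentSeries k)).injective p
  have hθpow : ∀ a : (modularFunctionFieldFullC k m), thetaL ((a ^ p : (modularFunctionFieldFullC k m)) : LaurentSeries k) = 0 := fun a => by
    have h1 := (isDer_thetaL_val (k := k) (m := m)).map_pow a p
    beta_reduce at h1
    rw [h1, CharP.cast_eq_zero, zero_mul, zero_mul]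
  have hzero := eq_zero_of_eval_jFullC (p := p) (k := k) (m := m) (R.map φ - C h) ?_ (fun i => ?_) ?_
  · refine ⟨R.coeff 0, ?_⟩
    have := congrArg (fun r : (modularFunctionFieldFullC k m)[X] => r.coeff 0) hzero
    simp only [coeff_sub, coeff_map, coeff_C_zero, coeff_zero, sub_eq_zero, φ, frobenius_def] at this
    exact this
  · refine lt_of_le_of_lt (natDegree_sub_le _ _) (max_lt ?_ (by rw [natDegree_C]; exact hp.pos))
    exact lt_of_le_of_lt (natDegree_map_le) hRdeg
  · rw [coeff_sub, coeff_map, coeff_C, AddSubgroupClass.coe_sub]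
    have hsub : ∀ a b : LaurentSeries k, thetaL (a - b) = thetaL a - thetaL b := fun a b => by
      rw [eq_sub_iff_add_eq, ← thetaL_add, sub_add_cancel]
    rw [hsub, show φ (R.coeff i) = R.coeff i ^ p from rfl, hθpow]
    split_ifs
    · rw [hh, sub_zero]
    · rw [ZeroMemClass.coe_zero, show thetaL (0 : LaurentSeries k) = 0 by ext; simp, sub_zero]
  · rw [eval_sub, hR, eval_C, sub_self]

/-- Divisibility of the orders at the places gives the valuation form. -/
theorem GenData.hdiv_of_ord [IsAlgClosed k] (g : GenData k m P) {h : modularFunctionFieldFullC k m}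
    (h0 : h ≠ 0) (hord : ∀ v : Place k (modularFunctionFieldFullC k m), (p : ℤ) ∣ v.ord h)
    (V : ValuationSubring (modularFunctionFieldFullC k m))
    (hV : ∀ a : k, algebraMap k (modularFunctionFieldFullC k m) a ∈ V) :
    ∃ y : modularFunctionFieldFullC k m, y ≠ 0 ∧ h * y ^ p ∈ V ∧ (h * y ^ p)⁻¹ ∈ V := by
  by_cases htop : V = ⊤
  · exact ⟨1, one_ne_zero, htop ▸ ValuationSubring.mem_top _, htop ▸ ValuationSubring.mem_top _⟩
  obtain ⟨v, rfl⟩ := exists_place_valuationSubring ⟨g.coord.transcendental, g.coord.finite⟩ hV htop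
  obtain ⟨π, hπ0, hπ⟩ := exists_ord_eq_one v
  obtain ⟨d, hd⟩ := hord v
  refine ⟨π ^ (-d), zpow_ne_zero _ hπ0, ?_⟩
  have hy0 : h * (π ^ (-d)) ^ p ≠ 0 := mul_ne_zero h0 (pow_ne_zero _ (zpow_ne_zero _ hπ0))
  have hval : v.ord (h * (π ^ (-d)) ^ p) = 0 := by
    rw [v.ord_mul h0 (pow_ne_zero _ (zpow_ne_zero _ hπ0)), ord_pow, v.ord_zpow, hπ, hd]
    ring
  exact ⟨(mem_iff_ord_nonneg v hy0).mpr hval.ge,
    (mem_iff_ord_nonneg v (inv_ne_zero hy0)).mpr (by rw [v.ord_inv, hval, neg_zero])⟩

end General

section Comb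

/-- A functional on the finite chart killing the infinite one is a combination of the coordinate
functionals of the lattice. -/
theorem comb_eq {R K E : Type*} [CommRing R] [IsDomain R] [IsPrincipalIdealRing R] [CommRing K] [Field E] [Algebra R E] {t : E}
    {B B' : Subalgebra R E} (ρ : R →+* K) (ht : t ≠ 0) (htB : t ∈ B) (ψ : B → K[X])
    (hadd : ∀ a b, ψ (a + b) = ψ a + ψ b)
    (hsmul : ∀ (a : R[X]) (b : B),
      ψ (⟨Polynomial.aeval t a, aeval_mem_chart htB a⟩ * b) = a.map ρ * ψ b)
    (hdeg : ∀ (b : B) (N : ℕ), t⁻¹ ^ N * (b : E) ∈ B' → ∀ n, N ≤ n + 1 → (ψ b).coeff n = 0)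
    {g : ℕ} (φ : Fin g → B → R[X]) (x : Fin g → E) (nx : Fin g → ℕ)
    (hnx : ∀ i, t ^ (nx i + 1) * x i ∈ B)
    (hdec : ∀ (b : B) (n : ℕ), t⁻¹ ^ (n + 1) * (b : E) - ∑ i, (φ i b).coeff n • x i ∈ chartSum B B')
    (b : B) : ψ b = ∑ i, C ((ψ ⟨_, hnx i⟩).coeff (nx i)) * (φ i b).map ρ := by
  ext n
  obtain ⟨β, hβ, β', hβ', hsum⟩ := Submodule.mem_sup.mp (hdec b n)
  rw [Subalgebra.mem_toSubmodule] at hβ hβ'
  set L := n + 1 + ∑ i, (nx i + 1) with hL
  have hLi : ∀ i, nx i + 1 ≤ L := fun i =>
    le_add_left (Finset.single_le_sum (f := fun i => nx i + 1) (fun _ _ => Nat.zero_le _)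
      (Finset.mem_univ i))
  let c : R[X] → B := fun a => ⟨Polynomial.aeval t a, aeval_mem_chart htB a⟩
  let u : B := c (X ^ (L - (n + 1))) * b -
    ∑ i, c (C ((φ i b).coeff n) * X ^ (L - (nx i + 1))) * ⟨_, hnx i⟩
  let u₁ : B := c (X ^ L) * ⟨β, hβ⟩
  have hu : ((u - u₁ : B) : E) = t ^ L * β' := by
    simp only [u, u₁, c, AddSubgroupClass.coe_sub, Subalgebra.coe_mul,
      AddSubmonoidClass.coe_finsetSum, map_mul, map_pow, aeval_C, aeval_X]
    rw [show β' = (β + β') - β by ring, hsum, mul_sub, mul_sub, Finset.mul_sum]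
    congr 1
    congr 1
    · rw [← mul_assoc, inv_pow, pow_sub₀ _ ht (by omega)]
    · refine Finset.sum_congr rfl fun i _ => ?_
      rw [Algebra.smul_def, show t ^ L = t ^ (L - (nx i + 1)) * t ^ (nx i + 1) by
        rw [← pow_add, Nat.sub_add_cancel (hLi i)]]
      ring
  have h1 : (ψ (u - u₁)).coeff (L - 1) = 0 := hdeg _ L (by
    rw [hu, ← mul_assoc, ← mul_pow, inv_mul_cancel₀ ht, one_pow, one_mul]; exact hβ') _ (by omega)
  let ψh : B →+ K[X] := AddMonoidHom.mk' ψ hadd
  have h2 : ψ (u - u₁) = (ψ (c (X ^ (L - (n + 1))) * b) -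
      ∑ i, ψ (c (C ((φ i b).coeff n) * X ^ (L - (nx i + 1))) * ⟨_, hnx i⟩)) -
      ψ (c (X ^ L) * ⟨β, hβ⟩) := by
    show ψh (u - u₁) = (ψh _ - ∑ i, ψh _) - ψh _
    rw [map_sub, map_sub, map_sum]
  rw [h2] at h1
  simp only [c, hsmul, coeff_sub, finsetSum_coeff, Polynomial.map_mul, Polynomial.map_pow,
    Polynomial.map_X, Polynomial.map_C, mul_assoc, coeff_C_mul] at h1
  rw [coeff_X_pow_mul', if_pos (by omega), show L - 1 - (L - (n + 1)) = n by omega,
    coeff_X_pow_mul', if_neg (by omega), sub_zero, sub_eq_zero] at h1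
  rw [h1, finsetSum_coeff]
  refine Finset.sum_congr rfl fun i _ => ?_
  have := hLi i
  rw [coeff_X_pow_mul', if_pos (by omega), show L - 1 - (L - (nx i + 1)) = nx i by omega,
    coeff_C_mul, coeff_map, mul_comm]

end Comb

section Reduction

variable (p : ℕ) [Fact p.Prime]

set_option quotPrecheck false in
local notation "A" => ↥(GaloisRep.ratLocalizedAt p)

theorem exists_redHom (k : Type*) [Field k] [CharP k p] : Nonempty (A →+* k) := by
  have hden : ∀ q : A, ((q : ℚ).den : k) ≠ 0 := fun q h => by
    have h1 : p ∣ (q : ℚ).den := (CharP.cast_eq_zero_iff k p _).mp h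
    have h2 : (q : ℚ).den.Coprime p := q.2
    exact (Fact.out : p.Prime).not_dvd_one (h2 ▸ Nat.dvd_gcd h1 dvd_rfl : p ∣ 1)
  exact ⟨{
    toFun := fun q => ((q : ℚ) : k)
    map_one' := by simp
    map_zero' := by simp
    map_mul' := fun a b => Rat.cast_mul_of_ne_zero (hden a) (hden b)
    map_add' := fun a b => Rat.cast_add_of_ne_zero (hden a) (hden b) }⟩

variable {m : ℕ} [NeZero m] {k : Type*} [Field k] [CharP k p]

theorem redHom_p (ρ : A →+* k) : ρ (p : A) = 0 := by rw [map_natCast, CharP.cast_eq_zero]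

/-- Reductions of integral series of the level field are in the special field. -/
theorem mem_field_of_series (hind : RedIndependent k m) (ρ : A →+* k)
    (x : modularFunctionFieldFull m) (t : LaurentSeries A)
    (ht : coeffMap (GaloisRep.ratLocalizedAt p).subtype t = (x : LaurentSeries ℚ)) :
    coeffMap ρ t ∈ modularFunctionFieldFullC k m := by
  obtain ⟨D, a, hne, hrel⟩ := exists_relation m x
  have hD : D ≠ 0 := fun h0 => evalAtJ_ne_zero_of_relation m hne hrel (by rw [h0, map_zero])
  obtain ⟨D', a', hD', -, hred⟩ :=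
    exists_primitive_relation m p (redHom_p p ρ) hind _ D a hD hrel t ht
  have hj : ∀ q : k[X], jHom k q ∈ modularFunctionFieldFullC k m := fun q => by
    rw [← evJq_eq_jHom]
    exact genAlg_le_full k m (evJq_mem k m q)
  rw [mul_comm] at hred
  rw [eq_div_of_mul_eq ((map_ne_zero_iff _ jHom_injective).mpr hD') hred]
  refine div_mem (sum_mem fun b _ => mul_mem (hj _) (pow_mem ?_ _)) (hj _)
  exact jqModCd_mem_full k m dvd_rfl

end Reduction

section Main

variable {p : ℕ} [Fact p.Prime] {k : Type*} [Field k] [IsAlgClosed k] [CharP k p] {m : ℕ} [NeZero m]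

set_option quotPrecheck false in
local notation "A" => ↥(GaloisRep.ratLocalizedAt p)
set_option quotPrecheck false in
local notation "F" => ↥(modularFunctionFieldFullC k m)

theorem reflect_identity {K E : Type*} [Field K] [Field E] [Algebra K E] {t : E} (ht : t ≠ 0)
    (hinj : Function.Injective (Polynomial.aeval (R := K) t)) {ψ q : K[X]} {N : ℕ}
    (h : t ^ 2 * Polynomial.aeval t ψ = -(t ^ N * Polynomial.aeval t⁻¹ q)) :
    ∀ n, N ≤ n + 1 → ψ.coeff n = 0 := by
  intro n hn
  by_contra hne
  set e := q.natDegree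
  let R : K[X] := ∑ i ∈ Finset.range (e + 1), C (q.coeff i) * X ^ (e - i)
  have hR : Polynomial.aeval t R = t ^ e * Polynomial.aeval t⁻¹ q := by
    rw [aeval_eq_sum_range' (show q.natDegree < e + 1 by omega) t⁻¹, Finset.mul_sum, map_sum]
    refine Finset.sum_congr rfl fun i hi => ?_
    rw [Finset.mem_range] at hi
    rw [map_mul, map_pow, aeval_C, aeval_X, Algebra.smul_def, mul_left_comm, inv_pow]
    congr 1
    rw [eq_mul_inv_iff_mul_eq₀ (pow_ne_zero _ ht), ← pow_add, Nat.sub_add_cancel (by omega)]
  have hid : X ^ (2 + e) * ψ = -(X ^ N * R) := hinj (by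
    rw [map_neg, map_mul, map_mul, map_pow, map_pow, aeval_X, hR, pow_add]
    linear_combination (t ^ e) * h)
  have hdeg : R.natDegree ≤ e := natDegree_sum_le_of_forall_le _ _ fun i _ =>
    (natDegree_C_mul_X_pow_le _ _).trans (Nat.sub_le _ _)
  have h1 := congrArg (fun r : K[X] => r.coeff (n + (2 + e))) hid
  simp only [coeff_neg] at h1
  rw [coeff_X_pow_mul, coeff_eq_zero_of_natDegree_lt (p := X ^ N * R), neg_zero] at h1
  · exact hne h1
  · refine lt_of_le_of_lt natDegree_mul_le ?_
    rw [natDegree_X_pow]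
    omega

/-- The logarithmic differential of a function with all orders divisible by `p` is the reduction
of a cusp form. -/
theorem exists_dlog_mem_redSpace (hpm : ¬ p ∣ m) (hind : RedIndependent k m) (h : LaurentSeries k)
    (hF : h ∈ modularFunctionFieldFullC k m) (h0 : h ≠ 0)
    (hdiv : ∀ V : ValuationSubring (modularFunctionFieldFullC k m),
      (∀ a : k, algebraMap k (modularFunctionFieldFullC k m) a ∈ V) →
      ∃ y : modularFunctionFieldFullC k m, y ≠ 0 ∧
        (⟨h, hF⟩ : modularFunctionFieldFullC k m) * y ^ p ∈ V ∧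
        ((⟨h, hF⟩ : modularFunctionFieldFullC k m) * y ^ p)⁻¹ ∈ V) :
    ∃ w : PowerSeries k, w ∈ Newform.redSpace m k ∧
      HahnSeries.ofPowerSeries ℤ k w * h = thetaL h := by
  classical
  obtain ⟨ρ⟩ := exists_redHom p k
  obtain ⟨P, hP, hdeg, hroot⟩ := exists_modEquation p m hpm
  have hK : ∀ z : ℤ, (z : k) = 0 → (p : ℤ) ∣ z := fun z hz => (CharP.intCast_eq_zero_iff k p z).mp hz
  have gk := genData hpm hK ρ hind hP hdeg hroot
  have gQ := genData (K := AlgebraicClosure ℚ) hpm
    (fun z hz => by rw [Int.cast_eq_zero.mp hz]; exact dvd_zero _) (toQbar p)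
    (redIndependent_qbar m) hP hdeg hroot
  set J := jFullC k m
  set hh : F := ⟨h, hF⟩
  have hh0 : hh ≠ 0 := fun e => h0 (congrArg Subtype.val e)
  have hder := isDer_thetaL_val (k := k) (m := m)
  obtain ⟨c₀, hc₀⟩ := gk.exists_thetaL_eq hh
  set θh : F := c₀ / hh
  have hθh : (θh : LaurentSeries k) * thetaL (jqModC k) * h = thetaL h := by
    rw [← hc₀, IntermediateField.coe_div]
    show (c₀ : LaurentSeries k) / h * _ * h = _
    field_simp
  -- reductions of the charts
  let T : chartAlgFin m p →+* LaurentSeries A := chartExp hpm (Or.inl rfl)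
  let T' : chartAlgInf m p →+* LaurentSeries A := chartExp hpm (Or.inr rfl)
  have hT : ∀ y : chartAlgFin m p, coeffMap (GaloisRep.ratLocalizedAt p).subtype (T y) =
      valHom m (y : modularFunctionFieldFull m) := coeffMap_chartExp hpm (Or.inl rfl)
  have hT' : ∀ y : chartAlgInf m p, coeffMap (GaloisRep.ratLocalizedAt p).subtype (T' y) =
      valHom m (y : modularFunctionFieldFull m) := coeffMap_chartExp hpm (Or.inr rfl)
  let red : chartAlgFin m p →+* F := ((coeffMap ρ).comp T).codRestrict
    (modularFunctionFieldFullC k m).toSubfield.toSubring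
    fun b => mem_field_of_series p hind ρ b.1 (T b) (hT b)
  let red' : chartAlgInf m p →+* F := ((coeffMap ρ).comp T').codRestrict
    (modularFunctionFieldFullC k m).toSubfield.toSubring
    fun b => mem_field_of_series p hind ρ b.1 (T' b) (hT' b)
  have hTc : ∀ a : A[X], T (cstB p a) = ev1 A a := fun a => coeffMap_sub_injective p (by
    rw [hT, coe_cstB, coeffMap_ev1, ev1_eq_evJq,
      show Polynomial.aeval (jFull m) a =
        Polynomial.aeval (jFull m) (a.map (GaloisRep.ratLocalizedAt p).subtype) from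
        (aeval_map_algebraMap ℚ (jFull m) a).symm]
    show valHom m _ = _
    rw [Polynomial.aeval_def, Polynomial.hom_eval₂]
    refine (congrArg (fun f => eval₂ f _ _) (Subsingleton.elim _ (algebraMap ℚ (LaurentSeries ℚ)))).trans ?_
    rw [← Polynomial.aeval_def]
    rfl)
  have hredc : ∀ a : A[X], red (cstB p a) = Polynomial.aeval J (a.map ρ) := fun a => Subtype.ext (by
    rw [coe_aeval_jFullC, ← coeffMap_ev1, ← hTc]; rfl)
  have hη : etaQ m ∈ chartAlgFin m p := jqN_integral m p hpm
  have hredη : red ⟨etaQ m, hη⟩ = etaF k m := Subtype.ext (by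
    show coeffMap ρ (T ⟨etaQ m, hη⟩) = qExpand k m (jqModC k)
    rw [show T ⟨etaQ m, hη⟩ = etaL A m from coeffMap_sub_injective p (by
      rw [hT, coeffMap_etaL, etaL, jqModC_rat]; rfl), coeffMap_etaL]
    rfl)
  have hint : ∀ b : chartAlgFin m p,
      (Polynomial.aeval (R := k) J).toRingHom.IsIntegralElem (red b) := by
    intro b
    obtain ⟨M, hM, hMb⟩ := isIntegralElem_red (t := jFull m) b.2 (τ := jqModC A) (s := T b)
      (by rw [MCurve.coeffMap_jqModC, jqModC_rat]; rfl) (hT b) ρ
    refine ⟨M, hM, Subtype.val_injective ?_⟩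
    show (modularFunctionFieldFullC k m).val.toRingHom _ = _
    rw [hom_eval₂, MCurve.coeffMap_jqModC] at *
    refine Eq.trans ?_ hMb
    exact congrArg (fun f => eval₂ f _ M) (RingHom.ext fun a => coe_aeval_jFullC a)
  have hji : coeffMap ρ (T' (jInvChartInf m p)) = (jqModC k)⁻¹ := by
    have h1 : T' (jInvChartInf m p) * jqModC A = 1 := coeffMap_sub_injective p (by
      rw [map_mul, map_one, hT', MCurve.coeffMap_jqModC, jqModC_rat, coe_jInvChartInf, map_inv₀]
      exact inv_mul_cancel₀ jq_ne_zero)
    have := congrArg (coeffMap ρ) h1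
    rw [map_mul, map_one, MCurve.coeffMap_jqModC] at this
    exact eq_inv_of_mul_eq_one_left this
  have hint' : ∀ b : chartAlgInf m p,
      (Polynomial.aeval (R := k) J⁻¹).toRingHom.IsIntegralElem (red' b) := by
    intro b
    obtain ⟨M, hM, hMb⟩ := isIntegralElem_red (t := (jFull m)⁻¹) b.2 (hT' (jInvChartInf m p))
      (hT' b) ρ
    refine ⟨M, hM, Subtype.val_injective ?_⟩
    show (modularFunctionFieldFullC k m).val.toRingHom _ = _
    rw [hom_eval₂, hji] at *
    refine Eq.trans ?_ hMb
    refine congrArg (fun f => eval₂ f _ M) (Polynomial.ringHom_ext (fun a => ?_) ?_)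
    · simp only [RingHom.comp_apply, AlgHom.toRingHom_eq_coe, RingHom.coe_coe, aeval_C,
        AlgHom.commutes, coe_eval₂RingHom, eval₂_C, algebraMap_laurentSeries_eq_single]
      rfl
    · simp only [RingHom.comp_apply, AlgHom.toRingHom_eq_coe, RingHom.coe_coe, aeval_X,
        coe_eval₂RingHom, eval₂_X, map_inv₀]
      rfl
  have hJ0 : J ≠ 0 := jFullC_ne_zero
  have hθJ : thetaL ((J : F) : LaurentSeries k) ≠ 0 := thetaL_jqModC_ne_zero
  have htr : ∀ r : F, (Polynomial.aeval (R := k) J).toRingHom.IsIntegralElem r →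
      ∃ q : k[X], trF k J (θh * r) = Polynomial.aeval J q := fun r hr =>
    gk.coord.trF_dlog (p := p) (θ := θh) (h := hh) hder hθJ hh0 hdiv hθh hr
  have hθinv : thetaL ((J⁻¹ : F) : LaurentSeries k) =
      -(thetaL ((J : F) : LaurentSeries k) / (J : LaurentSeries k) ^ 2) := by
    have h1 := hder.leibniz J J⁻¹
    beta_reduce at h1
    rw [mul_inv_cancel₀ hJ0, show (1 : F) = algebraMap k F 1 from (map_one _).symm] at h1
    have h2 := hder.const 1
    beta_reduce at h2
    rw [h2] at h1
    change 0 = (J : LaurentSeries k) * thetaL ((J⁻¹ : F) : LaurentSeries k) +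
      ((J⁻¹ : F) : LaurentSeries k) * thetaL ((J : F) : LaurentSeries k) at h1
    have hJL : (J : LaurentSeries k) ≠ 0 := fun e => hJ0 (Subtype.ext e)
    rw [IntermediateField.coe_inv] at h1 ⊢
    field_simp at h1 ⊢
    linear_combination -h1
  have htr' : ∀ r : F, (Polynomial.aeval (R := k) J⁻¹).toRingHom.IsIntegralElem r →
      ∃ q : k[X], trF k J⁻¹ (-(J ^ 2 * θh) * r) = Polynomial.aeval J⁻¹ q := fun r hr => by
    refine gk.coord.inv.trF_dlog (p := p) (θ := -(J ^ 2 * θh)) (h := hh) hder ?_ hh0 hdiv ?_ hr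
    · show thetaL ((J⁻¹ : F) : LaurentSeries k) ≠ 0
      rw [hθinv]
      exact neg_ne_zero.mpr (div_ne_zero hθJ (pow_ne_zero _ fun e => hJ0 (Subtype.ext e)))
    · show ((-(J ^ 2 * θh) : F) : LaurentSeries k) * thetaL ((J⁻¹ : F) : LaurentSeries k) * h =
        thetaL h
      have hJL : (J : LaurentSeries k) ≠ 0 := fun e => hJ0 (Subtype.ext e)
      rw [hθinv, ← hθh, IntermediateField.coe_neg, IntermediateField.coe_mul,
        IntermediateField.coe_pow]
      field_simp
      rfl
  choose ψ hψ using fun b : chartAlgFin m p => htr (red b) (hint b)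
  have hinj := aeval_jFullC_injective (k := k) (m := m)
  have hψadd : ∀ a b, ψ (a + b) = ψ a + ψ b := fun a b => hinj (by
    rw [← hψ, map_add, map_add, ← hψ, ← hψ, mul_add, trF_add])
  have hψsmul : ∀ (a : A[X]) (b : chartAlgFin m p), ψ (cstB p a * b) = a.map ρ * ψ b :=
    fun a b => hinj (by
      rw [← hψ, map_mul, map_mul, ← hψ, hredc, mul_left_comm, trF_smul])
  have hψdeg : ∀ (b : chartAlgFin m p) (N : ℕ),
      (jFull m)⁻¹ ^ N * (b : modularFunctionFieldFull m) ∈ chartAlgInf m p →
      ∀ n, N ≤ n + 1 → (ψ b).coeff n = 0 := by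
    intro b N hN
    have hb : red b = J ^ N * red' ⟨_, hN⟩ := Subtype.ext (by
      show coeffMap ρ (T b) = _
      rw [IntermediateField.coe_mul, IntermediateField.coe_pow]
      show _ = jqModC k ^ N * coeffMap ρ (T' ⟨_, hN⟩)
      have h1 : T b = jqModC A ^ N * T' ⟨_, hN⟩ := coeffMap_sub_injective p (by
        rw [map_mul, map_pow, hT, hT', MCurve.coeffMap_jqModC, jqModC_rat, map_mul, map_pow,
          map_inv₀, ← mul_assoc, ← mul_pow]
        show _ = (jq * jq⁻¹) ^ N * _
        rw [mul_inv_cancel₀ jq_ne_zero, one_pow, one_mul])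
      rw [h1, map_mul, map_pow, MCurve.coeffMap_jqModC])
    obtain ⟨q, hq⟩ := htr' _ (hint' ⟨_, hN⟩)
    refine reflect_identity hJ0 hinj (q := q) ?_
    rw [← hψ, hb, show θh * (J ^ N * red' ⟨_, hN⟩) =
      Polynomial.aeval J (X ^ N : k[X]) * (θh * red' ⟨_, hN⟩) by
      rw [map_pow, aeval_X]; ring, trF_smul, map_pow, aeval_X]
    rw [trF_inv, show -(J ^ 2 * θh) * red' ⟨_, hN⟩ =
      Polynomial.aeval J (-(X ^ 2) : k[X]) * (θh * red' ⟨_, hN⟩) by
      rw [map_neg, map_pow, aeval_X]; ring, trF_smul, map_neg, map_pow, aeval_X] at hq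
    rw [← hq]
    ring
  -- the lattice
  have htc := twoChart p m hpm
  obtain ⟨g, φ, x, hφadd, hφsmul, hφdeg, hx, hdec⟩ := htc.exists_functionals
  replace hφsmul : ∀ i (a : A[X]) (b : chartAlgFin m p), φ i (cstB p a * b) = a * φ i b :=
    fun i a b => hφsmul i a b
  choose nx hnx using hx
  have hnx1 : ∀ i, jFull m ^ (nx i + 1) * x i ∈ chartAlgFin m p := fun i => by
    rw [pow_succ', mul_assoc]; exact mul_mem htc.mem (hnx i)
  let c : Fin g → k := fun i => (ψ ⟨_, hnx1 i⟩).coeff (nx i)
  have hcomb : ∀ b, ψ b = ∑ i, C (c i) * (φ i b).map ρ :=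
    comb_eq (t := jFull m) (B := chartAlgFin m p) (B' := chartAlgInf m p) ρ (jFull_ne_zero m) htc.mem
      ψ hψadd hψsmul hψdeg φ x nx hnx1 hdec
  -- the forms
  have hd0 : 0 < P.natDegree := hdeg ▸ index_pos
  choose H hHdeg hH using fun i => exists_topCoeff hP hd0 fun b => φ i (⟨etaQ m, hη⟩ ^ b)
  have hforms : ∀ i, ∃ w ∈ Newform.redSpace m k,
      HahnSeries.ofPowerSeries ℤ k w * ev2 k m (derivative (P.map (mapRingHom ρ))) =
        ev2 k m ((H i).map (mapRingHom ρ)) * thetaL (jqModC k) := by
    intro i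
    obtain ⟨f, D, z, hD, hz, hrel⟩ := exists_intForm p gQ hP hdeg hη (φ i) (hφadd i) (hφsmul i)
      (fun b N hN n hn => hφdeg i b N hN n hn) (fun b => hH i b (by rw [hdeg]; exact b.2))
    exact exists_redSpace_of_form p ρ gk hD hz hrel
  choose w hw hwrel using hforms
  refine ⟨∑ i, c i • w i, sum_mem fun i _ => Submodule.smul_mem _ _ (hw i), ?_⟩
  set Pk := P.map (mapRingHom ρ)
  let GH : k[X][X] := ∑ i, C (C (c i)) * (H i).map (mapRingHom ρ)
  have hθeq : θh = evF k m GH / evF k m (derivative Pk) := by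
    refine sub_eq_zero.mp (gk.eq_zero_of_trF fun b hb => ?_)
    rw [hP.natDegree_map] at hb
    rw [show (θh - evF k m GH / evF k m (derivative Pk)) * etaF k m ^ b =
      θh * red (⟨etaQ m, hη⟩ ^ b) + Polynomial.aeval J (-1 : k[X]) *
        (evF k m (GH * X ^ b) / evF k m (derivative Pk)) by
      rw [map_pow, hredη, map_mul, map_pow, evF_X, map_neg, map_one]; ring,
      trF_add, trF_smul, hψ, gk.trF_div, hcomb, map_neg, map_one, neg_one_mul, ← sub_eq_add_neg,
      sub_eq_zero]
    congr 1
    simp only [GH, Finset.sum_mul, mul_assoc]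
    rw [show ∀ (q : k[X][X]) (G : Fin g → k[X][X]), (∑ i, G i) %ₘ q = ∑ i, G i %ₘ q from
      fun q G => map_sum (Polynomial.modByMonicHom q) G _, finsetSum_coeff]
    refine Finset.sum_congr rfl fun i _ => ?_
    rw [← smul_eq_C_mul (C (c i)), smul_modByMonic, coeff_smul, smul_eq_mul,
      hP.natDegree_map, modByMonic_map_mul_X_pow _ hP, hH i b hb]
    rfl
  have hPne : ev2 k m (derivative Pk) ≠ 0 := gk.derivative_ne_zero
  have hθser : (θh : LaurentSeries k) * ev2 k m (derivative Pk) = ev2 k m GH := by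
    rw [hθeq, IntermediateField.coe_div, coe_evF, coe_evF, div_mul_cancel₀ _ hPne]
  refine mul_left_cancel₀ hPne ?_
  rw [← mul_assoc, map_sum, Finset.mul_sum,
    show (∑ i, ev2 k m (derivative Pk) * HahnSeries.ofPowerSeries ℤ k (c i • w i)) =
      ev2 k m GH * thetaL (jqModC k) by
    rw [map_sum, Finset.sum_mul]
    refine Finset.sum_congr rfl fun i _ => ?_
    rw [PowerSeries.smul_eq_C_mul, map_mul, HahnSeries.ofPowerSeries_C, mul_left_comm,
      mul_comm (ev2 k m (derivative Pk)), hwrel i, map_mul, ev2_C, ← mul_assoc]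
    congr 1
    rw [ev1, coe_eval₂RingHom, eval₂_C],
    ← hθser, ← hθh]
  ring

/-- `exists_dlog_mem_redSpace`, with the hypothesis on orders at places. -/
theorem exists_dlog_mem_redSpace_of_ord (hpm : ¬ p ∣ m) (hind : RedIndependent k m)
    (h : LaurentSeries k) (hF : h ∈ modularFunctionFieldFullC k m) (h0 : h ≠ 0)
    (hord : ∀ v : Place k (modularFunctionFieldFullC k m),
      (p : ℤ) ∣ v.ord (⟨h, hF⟩ : modularFunctionFieldFullC k m)) :
    ∃ w : PowerSeries k, w ∈ Newform.redSpace m k ∧
      HahnSeries.ofPowerSeries ℤ k w * h = thetaL h := by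
  obtain ⟨ρ⟩ := exists_redHom p k
  obtain ⟨P, hP, hdeg, hroot⟩ := exists_modEquation p m hpm
  have g := genData hpm (fun z hz => (CharP.intCast_eq_zero_iff k p z).mp hz) ρ hind hP hdeg hroot
  exact exists_dlog_mem_redSpace hpm hind h hF h0
    (g.hdiv_of_ord (fun e => h0 (congrArg Subtype.val e)) hord)

/-- A function with vanishing differential is a `p`-th power. -/
theorem exists_pow_eq_of_thetaL_eq_zero (hpm : ¬ p ∣ m) (hind : RedIndependent k m)
    (h : LaurentSeries k) (hF : h ∈ modularFunctionFieldFullC k m) (hh : thetaL h = 0) :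
    ∃ a ∈ modularFunctionFieldFullC k m, a ^ p = h := by
  obtain ⟨ρ⟩ := exists_redHom p k
  obtain ⟨P, hP, hdeg, hroot⟩ := exists_modEquation p m hpm
  have g := genData hpm (fun z hz => (CharP.intCast_eq_zero_iff k p z).mp hz) ρ hind hP hdeg hroot
  obtain ⟨a, ha⟩ := g.exists_pow_eq (p := p) ⟨h, hF⟩ hh
  exact ⟨a, a.2, congrArg Subtype.val ha⟩

end Main

end Fermat.Agent.MCurve.SpecialDifferential
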