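import Fermat.Agent.MCurve.SpecialDifferential.Monogenic

/-!
Traces of logarithmic differentials in characteristic `p` are polynomials on the integral closure;
conversely an element with polynomial traces is, times `dt`, a sum of `r dx` with `r`, `x` integral.
-/

set_option autoImplicit false
set_option maxHeartbeats 800000
set_option linter.unusedSectionVars false

noncomputable section

namespace Fermat.Agent.MCurve.SpecialDifferential

open Polynomial IsDedekindDomain

universe w

variable {K F : Type*} [Field K] [Field F] [Algebra K F] [IsAlgClosed K]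
variable [Algebra K[X] F] [Algebra (RatFunc K) F] [IsScalarTower K K[X] F]
  [IsScalarTower K[X] (RatFunc K) F] [FiniteDimensional (RatFunc K) F]
  [Algebra.IsSeparable (RatFunc K) F]

local notation "S" => integralClosure K[X] F
local notation "tt" => algebraMap K[X] F Polynomial.X

attribute [local instance] isDedekindDomain_closure isFractionRing_closure finite_closure

theorem aeval_coord (a : K[X]) : aeval (tt : F) a = algebraMap K[X] F a := by
  rw [aeval_algebraMap_apply, aeval_X_left_apply]

theorem eval₂_coord (z : F) (P : K[X][X]) :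
    P.eval₂ (Polynomial.aeval (tt : F) : K[X] →ₐ[K] F).toRingHom z = aeval z P := by
  rw [aeval_def]
  congr 1
  exact RingHom.ext aeval_coord

theorem IsDer.equation {L : Type*} [Field L] {ι : F →+* L} {f : F → L} (hf : IsDer K ι f)
    (z : F) (P : K[X][X]) :
    f (Polynomial.aeval z P) = ι (Polynomial.aeval z (coeffD P)) * f tt + ι (Polynomial.aeval z (derivative P)) * f z := by
  have := hf.eval₂ (tt : F) z P
  rwa [eval₂_coord, eval₂_coord, eval₂_coord] at this

theorem adjoin_eq_top_of_gen {z : ↥(S)}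
    (h : ∀ y : ↥(S), ∃ s : K[X], s ≠ 0 ∧ algebraMap K[X] ↥(S) s * y ∈ Algebra.adjoin K[X] {z}) :
    Algebra.adjoin (RatFunc K) {(z : F)} = ⊤ := by
  set E := Algebra.adjoin (RatFunc K) {(z : F)}
  have hS : ∀ y : ↥(S), (y : F) ∈ E := by
    intro y
    obtain ⟨s, hs, hy⟩ := h y
    rw [Algebra.adjoin_singleton_eq_range_aeval] at hy
    obtain ⟨H, hH⟩ := hy
    change aeval z H = _ at hH
    have hH' : aeval (z : F) H = algebraMap K[X] F s * (y : F) := by
      have := congrArg Subtype.val hH
      rwa [← Subalgebra.aeval_coe] at this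
    have hmem : aeval (z : F) H ∈ E := by
      rw [← aeval_map_algebraMap (RatFunc K) (z : F) H]
      show _ ∈ Algebra.adjoin (RatFunc K) {(z : F)}
      rw [Algebra.adjoin_singleton_eq_range_aeval]
      exact ⟨_, rfl⟩
    have hs0 : algebraMap K[X] F s ≠ 0 :=
      (map_ne_zero_iff _ algebraMap_injective_F).mpr hs
    rw [show (y : F) = (algebraMap K[X] F s)⁻¹ * aeval (z : F) H by
      rw [hH', inv_mul_cancel_left₀ hs0]]
    refine mul_mem ?_ hmem
    rw [IsScalarTower.algebraMap_apply K[X] (RatFunc K) F, ← map_inv₀]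
    exact E.algebraMap_mem _
  refine eq_top_iff.mpr fun y _ => ?_
  obtain ⟨a, b, -, rfl⟩ := IsFractionRing.div_surjective (A := ↥(S)) y
  rw [div_eq_mul_inv]
  refine mul_mem (hS a) (Subalgebra.inv_mem_of_algebraic E (x := ⟨_, hS b⟩) ?_)
  exact Algebra.IsAlgebraic.isAlgebraic _

theorem aeval_derivative_ne_zero (z : ↥(S)) :
    aeval (z : F) (derivative (minpoly K[X] (z : F))) ≠ 0 := by
  have h : IsIntegral K[X] (z : F) := z.2
  have hP : minpoly (RatFunc K) (z : F) =
      (minpoly K[X] (z : F)).map (algebraMap K[X] (RatFunc K)) :=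
    minpoly.isIntegrallyClosed_eq_field_fractions' (RatFunc K) h
  have h2 : aeval (z : F) (derivative (minpoly (RatFunc K) (z : F))) ≠ 0 :=
    (Algebra.IsSeparable.isSeparable (RatFunc K) (z : F)).aeval_derivative_ne_zero
      (minpoly.aeval _ _)
  rwa [hP, derivative_map, aeval_map_algebraMap] at h2

theorem minpoly_coe (z : ↥(S)) : minpoly K[X] (z : F) = minpoly K[X] z :=
  minpoly.algHom_eq (S).val Subtype.val_injective z

/-- Nonzero integral elements with prescribed values at finitely many primes. -/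
theorem exists_same_value (T : Finset (HeightOneSpectrum ↥(S))) (a : T → ↥(S))
    (ha : ∀ v, a v ≠ 0) :
    ∃ w : ↥(S), w ≠ 0 ∧ ∀ v : T, v.1.intValuation w = v.1.intValuation (a v) := by
  classical
  rcases T.eq_empty_or_nonempty with rfl | hne
  · exact ⟨1, one_ne_zero, fun v => absurd v.2 (Finset.notMem_empty _)⟩
  choose n hn using fun v : T =>
    (⟨_, v.1.intValuation_if_neg (ha v)⟩ : ∃ n : ℕ, v.1.intValuation (a v) = WithZero.exp (-(n : ℤ)))
  obtain ⟨w, hw⟩ := IsDedekindDomain.exists_forall_sub_mem_ideal (s := T)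
    (fun v => v.asIdeal) (fun v => if h : v ∈ T then n ⟨v, h⟩ + 1 else 0) (fun v _ => v.prime)
    (fun v _ u _ h e => h (HeightOneSpectrum.ext e)) a
  have hval : ∀ v : T, v.1.intValuation w = v.1.intValuation (a v) := by
    intro v
    have h2 := hw v.1 v.2
    rw [dif_pos v.2, ← v.1.intValuation_le_pow_iff_mem] at h2
    rw [show w = (w - a v) + a v by ring, Valuation.map_add_eq_of_lt_right]
    rw [hn]
    exact h2.trans_lt (WithZero.exp_lt_exp.mpr (by simp only [Subtype.coe_eta]; push_cast; omega))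
  obtain ⟨v₀, hv₀⟩ := hne
  refine ⟨w, fun h0 => ?_, hval⟩
  have := hval ⟨v₀, hv₀⟩
  rw [h0, map_zero, hn] at this
  exact WithZero.exp_ne_zero this.symm

/-- The trace of a logarithmic differential against integral elements is a polynomial. -/
theorem trace_dlog_mem_range {p : ℕ} [Fact p.Prime] [CharP K p] {L : Type*} [Field L] {ι : F →+* L}
    {f : F → L} (hf : IsDer K ι f) (ht : f tt ≠ 0) {h θ : F} (h0 : h ≠ 0)
    (hdiv : ∀ v : HeightOneSpectrum ↥(S), ∃ y : F, v.valuation F (h * y ^ p) = 1)
    (hθ : ι θ * f tt * ι h = f h) (r : ↥(S)) :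
    Algebra.trace (RatFunc K) F (θ * r) ∈ Set.range (algebraMap K[X] (RatFunc K)) := by
  classical
  refine mem_range_of_local fun c => ?_
  obtain ⟨z, hgen, -⟩ := exists_local_generator (F := F) c
  have htop : Algebra.adjoin (RatFunc K) {(z : F)} = ⊤ := adjoin_eq_top_of_gen fun y => by
    obtain ⟨s, hs, hy⟩ := hgen y
    exact ⟨s, fun e => hs (by rw [e, eval_zero]), hy⟩
  let T := (finite_over (F := F) c).toFinset
  choose y hy using hdiv
  have hy0 : ∀ v, y v ≠ 0 := fun v e => by
    have := hy v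
    rw [e, zero_pow (Fact.out : p.Prime).ne_zero, mul_zero, map_zero] at this
    exact zero_ne_one this
  choose a b hb hab using fun v : T => IsFractionRing.div_surjective (A := ↥(S)) (y v.1)
  have hb0 : ∀ v : T, b v ≠ 0 := fun v => nonZeroDivisors.ne_zero (hb v)
  have ha0 : ∀ v : T, a v ≠ 0 := fun v e => hy0 v.1 (by rw [← hab v, e, map_zero, zero_div])
  obtain ⟨w₁, hw₁0, hw₁⟩ := exists_same_value T a ha0
  obtain ⟨w₂, hw₂0, hw₂⟩ := exists_same_value T b hb0
  set g : F := algebraMap ↥(S) F w₁ / algebraMap ↥(S) F w₂ with hg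
  have hg0 : g ≠ 0 := div_ne_zero
    ((map_ne_zero_iff _ (IsFractionRing.injective ↥(S) F)).mpr hw₁0)
    ((map_ne_zero_iff _ (IsFractionRing.injective ↥(S) F)).mpr hw₂0)
  set u := h * g ^ p with hu
  have hu0 : u ≠ 0 := mul_ne_zero h0 (pow_ne_zero _ hg0)
  have hval : ∀ v : HeightOneSpectrum ↥(S), algebraMap K[X] ↥(S) (X - C c) ∈ v.asIdeal →
      v.valuation F u = 1 := by
    intro v hv
    have hvT : v ∈ T := (Set.Finite.mem_toFinset _).mpr hv
    have : v.valuation F g = v.valuation F (y v) := by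
      rw [← hab ⟨v, hvT⟩, hg, map_div₀, map_div₀, v.valuation_of_algebraMap,
        v.valuation_of_algebraMap, v.valuation_of_algebraMap, v.valuation_of_algebraMap,
        hw₁ ⟨v, hvT⟩, hw₂ ⟨v, hvT⟩]
    rw [hu, map_mul, map_pow, this, ← map_pow, ← map_mul, hy v]
  obtain ⟨s₁, hs₁, hU⟩ := exists_poly_mul_mem (F := F) c (f := u) fun v hv => (hval v hv).le
  obtain ⟨s₂, hs₂, hV⟩ := exists_poly_mul_mem (F := F) c (f := u⁻¹) fun v hv => by
    rw [map_inv₀, hval v hv, inv_one]
  obtain ⟨s₃, hs₃, hH⟩ := hgen ⟨_, hU⟩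
  rw [Algebra.adjoin_singleton_eq_range_aeval] at hH
  obtain ⟨H, hH⟩ := hH
  change aeval z H = _ at hH
  set P := minpoly K[X] (z : F)
  set D := aeval (z : F) (derivative P)
  set Q := aeval (z : F) (coeffD P)
  set σ : K[X] := s₃ * s₁
  have hHu : aeval (z : F) H = algebraMap K[X] F σ * u := by
    have := congrArg Subtype.val hH
    rw [← Subalgebra.aeval_coe] at this
    rw [this, map_mul, mul_assoc]
    rfl
  have hzeq : ι Q * f tt + ι D * f z = 0 := by
    rw [← hf.equation, minpoly.aeval]
    exact (congrArg f (map_zero (algebraMap K F)).symm).trans (hf.const 0)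
  have hp : (p : L) = 0 := by
    rw [show (p : L) = ι (algebraMap K F (p : K)) by rw [map_natCast, map_natCast], CharP.cast_eq_zero,
      map_zero, map_zero]
  have hfu : f u = ι θ * ι u * f tt := by
    rw [hu, hf.leibniz, hf.map_pow, hp, zero_mul, zero_mul, mul_zero, zero_add, ← hθ, map_mul]
    ring
  have heq : (algebraMap K[X] F (derivative σ) + algebraMap K[X] F σ * θ) * u * D =
      aeval (z : F) (coeffD H) * D - aeval (z : F) (derivative H) * Q := by
    apply ι.injective
    refine mul_right_cancel₀ ht ?_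
    have h1 := hf.equation (z : F) H
    rw [hHu, hf.leibniz, hfu, ← aeval_coord σ, hf.aeval, aeval_coord, aeval_coord] at h1
    simp only [map_mul, map_add, map_sub]
    linear_combination (ι D) * h1 + ι (aeval (z : F) (derivative H)) * hzeq
  have hS : ∀ G : K[X][X], aeval (z : F) G ∈ S := fun G => by
    rw [Subalgebra.aeval_coe]; exact (aeval z G).2
  have hpoly : ∀ s : K[X], algebraMap K[X] F s ∈ S := fun s => (S).algebraMap_mem s
  have hR : θ * D * algebraMap K[X] F (σ * s₂) ∈ S := by
    have : θ * D * algebraMap K[X] F (σ * s₂) =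
        (aeval (z : F) (coeffD H) * D - aeval (z : F) (derivative H) * Q) *
          (algebraMap K[X] F s₂ * u⁻¹) - algebraMap K[X] F (derivative σ) * algebraMap K[X] F s₂ * D := by
      rw [← heq, map_mul]
      field_simp
      ring
    rw [this]
    exact sub_mem (mul_mem (sub_mem (mul_mem (hS _) (hS _)) (mul_mem (hS _) (hS _))) hV)
      (mul_mem (mul_mem (hpoly _) (hpoly _)) (hS _))
  obtain ⟨s₄, hs₄, hB⟩ := hgen (⟨_, hR⟩ * r)
  rw [Algebra.adjoin_singleton_eq_range_aeval] at hB
  obtain ⟨B, hB⟩ := hB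
  change aeval z B = _ at hB
  refine ⟨σ * s₂ * s₄, (B %ₘ P).coeff (P.natDegree - 1), by simp [σ, hs₁, hs₂, hs₃, hs₄], ?_⟩
  rw [← trace_aeval_div z.2 htop B, ← smul_eq_mul, ← map_smul, Algebra.smul_def,
    ← IsScalarTower.algebraMap_apply]
  congr 1
  have hB' := congrArg Subtype.val hB
  rw [← Subalgebra.aeval_coe] at hB'
  rw [eq_div_iff (aeval_derivative_ne_zero z), hB']
  show _ = algebraMap K[X] F s₄ * (θ * D * algebraMap K[X] F (σ * s₂) * (r : F))
  rw [map_mul]
  ring

/-- An element with polynomial traces against integral elements is, times `dt`, a sum of `r dx`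
with `r` and `x` integral. -/
theorem exists_sum_of_trace {θ : F}
    (hθ : ∀ r : ↥(S), Algebra.trace (RatFunc K) F (θ * r) ∈ Set.range (algebraMap K[X] (RatFunc K))) :
    ∃ (n : ℕ) (r x : Fin n → ↥(S)), ∀ (L : Type w) [Field L] (ι : F →+* L) (f : F → L),
      IsDer K ι f → ι θ * f tt = ∑ i, ι (r i) * f (x i) := by
  classical
  let Good : K[X] → Prop := fun s => ∃ (n : ℕ) (r x : Fin n → ↥(S)),
    ∀ (L : Type w) [Field L] (ι : F →+* L) (f : F → L),
      IsDer K ι f → ι (algebraMap K[X] F s * θ) * f tt = ∑ i, ι (r i) * f (x i)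
  let I : Ideal K[X] :=
    { carrier := {s | Good s}
      add_mem' := by
        rintro s s' ⟨n, r, x, h⟩ ⟨n', r', x', h'⟩
        refine ⟨n + n', Fin.append r r', Fin.append x x', fun L _ ι f hf => ?_⟩
        rw [Fin.sum_univ_add, map_add, add_mul, map_add, add_mul, h L ι f hf, h' L ι f hf]
        simp [Fin.append_left, Fin.append_right]
      zero_mem' := ⟨0, Fin.elim0, Fin.elim0, fun L _ ι f _ => by simp⟩
      smul_mem' := by
        rintro q s ⟨n, r, x, h⟩
        refine ⟨n, fun i => algebraMap K[X] ↥(S) q * r i, x, fun L _ ι f hf => ?_⟩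
        have hsum : ∀ i, ι ((algebraMap K[X] ↥(S) q * r i : ↥(S)) : F) * f (x i) =
            ι (algebraMap K[X] F q) * (ι (r i) * f (x i)) := fun i => by
          rw [MulMemClass.coe_mul, map_mul, mul_assoc]
          rfl
        simp only [hsum, ← Finset.mul_sum, ← h L ι f hf, smul_eq_mul, map_mul]
        ring }
  suffices h1 : (1 : K[X]) ∈ I by
    obtain ⟨n, r, x, h⟩ := h1
    exact ⟨n, r, x, fun L _ ι f hf => by simpa using h L ι f hf⟩
  rw [← Ideal.eq_top_iff_one]
  by_contra hne
  obtain ⟨M, hM, hle⟩ := Ideal.exists_le_maximal I hne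
  obtain ⟨g, hg⟩ := (IsPrincipalIdealRing.principal M).principal
  have hg' : ¬ IsUnit g := fun hu => hM.ne_top (by
    rw [hg, Ideal.submodule_span_eq, Ideal.span_singleton_eq_top]
    exact hu)
  obtain ⟨c, hc⟩ : ∃ c, g.IsRoot c := by
    rcases eq_or_ne g 0 with rfl | hg0
    · exact ⟨0, by simp⟩
    · exact IsAlgClosed.exists_root g fun h0 => hg' (Polynomial.isUnit_iff_degree_eq_zero.mpr h0)
  obtain ⟨z, hgen, y, s, hs, hys⟩ := exists_local_generator (F := F) c
  have htop : Algebra.adjoin (RatFunc K) {(z : F)} = ⊤ := adjoin_eq_top_of_gen fun y' => by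
    obtain ⟨s', hs', hy'⟩ := hgen y'
    exact ⟨s', fun e => hs' (by rw [e, eval_zero]), hy'⟩
  set D := aeval (z : F) (derivative (minpoly K[X] (z : F))) with hD
  have hdual : θ ∈ (Algebra.traceForm (RatFunc K) F).dualSubmodule
      (Subalgebra.toSubmodule (Algebra.adjoin K[X] {(z : F)})) := by
    intro a ha
    rw [Submodule.mem_one]
    exact hθ ⟨a, (Algebra.adjoin_le (Set.singleton_subset_iff.mpr z.2)) ha⟩
  rw [traceForm_dualSubmodule_adjoin K[X] (RatFunc K) htop z.2] at hdual
  obtain ⟨G, hG, hGθ⟩ := hdual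
  have hP : minpoly (RatFunc K) (z : F) =
      (minpoly K[X] (z : F)).map (algebraMap K[X] (RatFunc K)) :=
    minpoly.isIntegrallyClosed_eq_field_fractions' (RatFunc K) z.2
  change (aeval (z : F) (derivative (minpoly (RatFunc K) (z : F))))⁻¹ * G = θ at hGθ
  rw [hP, derivative_map, aeval_map_algebraMap, ← hD] at hGθ
  have hGS : G ∈ S := Algebra.adjoin_le (Set.singleton_subset_iff.mpr z.2) hG
  have hmem : s ∈ I := by
    refine ⟨1, fun _ => -(⟨G, hGS⟩ * y), fun _ => z, fun L _ ι f hf => ?_⟩
    rw [Fin.sum_univ_one]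
    have h1 := hf.equation (z : F) (minpoly K[X] (z : F))
    rw [minpoly.aeval, (congrArg f (map_zero (algebraMap K F)).symm).trans (hf.const 0),
      ← hD, minpoly_coe, Subalgebra.aeval_coe] at h1
    have h2 : ((aeval z (coeffD (minpoly K[X] z)) : ↥(S)) : F) * (y : F) = algebraMap K[X] F s := by
      rw [← MulMemClass.coe_mul, hys]; rfl
    have hD0 : D ≠ 0 := aeval_derivative_ne_zero z
    have hθD : θ * D = G := by rw [← hGθ]; field_simp
    show ι (algebraMap K[X] F s * θ) * f tt = ι (-(G * (y : F))) * f (z : F)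
    rw [← h2, ← hθD]
    simp only [map_mul, map_neg]
    linear_combination (-(ι (y : F) * ι θ)) * h1
  have := hle hmem
  rw [hg, Ideal.submodule_span_eq, Ideal.mem_span_singleton] at this
  obtain ⟨q, rfl⟩ := this
  exact hs (by rw [eval_mul, hc.eq_zero, zero_mul])

end Fermat.Agent.MCurve.SpecialDifferential
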