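import Fermat.Agent.MCurve.SpecialDifferential.Trace
import Fermat.Agent.MCurve.FuncField
import Mathlib.FieldTheory.IntermediateField.Adjoin.Basic

/-!
The trace theorems for an arbitrary transcendental element `t` with the trace taken over the
subfield `K⟮t⟯`.
-/

set_option autoImplicit false
set_option maxHeartbeats 800000

noncomputable section

namespace Fermat.Agent.MCurve.SpecialDifferential

open Polynomial IsDedekindDomain IntermediateField

universe w

variable {K F : Type*} [Field K] [Field F] [Algebra K F]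

variable (K) in
/-- The trace over `K⟮t⟯`, as an element of `F`. -/
def trF (t y : F) : F := (Algebra.trace K⟮t⟯ F y : K⟮t⟯)

theorem adjoin_inv (t : F) : K⟮t⁻¹⟯ = K⟮t⟯ :=
  le_antisymm (adjoin_simple_le_iff.mpr (inv_mem (mem_adjoin_simple_self K t)))
    (adjoin_simple_le_iff.mpr (by simpa using inv_mem (mem_adjoin_simple_self K t⁻¹)))

theorem trF_inv (t y : F) : trF K t⁻¹ y = trF K t y :=
  congrArg (fun E : IntermediateField K F => ((Algebra.trace E F y : E) : F)) (adjoin_inv t)

theorem trF_smul (t : F) (a : K[X]) (y : F) :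
    trF K t (aeval t a * y) = aeval t a * trF K t y := by
  have hmem : aeval t a ∈ K⟮t⟯ :=
    algebra_adjoin_le_adjoin K {t} (by rw [Algebra.adjoin_singleton_eq_range_aeval]; exact ⟨a, rfl⟩)
  have h := map_smul (Algebra.trace K⟮t⟯ F) (⟨_, hmem⟩ : K⟮t⟯) y
  exact congrArg Subtype.val h

theorem trF_add (t x y : F) : trF K t (x + y) = trF K t x + trF K t y := by
  rw [trF, trF, trF, map_add]; rfl

theorem trF_sum {α : Type*} (t : F) (s : Finset α) (g : α → F) :
    trF K t (∑ i ∈ s, g i) = ∑ i ∈ s, trF K t (g i) := by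
  rw [trF, map_sum]
  exact map_sum (algebraMap K⟮t⟯ F) _ s

/-- The hypotheses making `t` a coordinate. -/
structure Coord (K : Type*) {F : Type*} [Field K] [Field F] [Algebra K F] (t : F) : Prop where
  transcendental : Transcendental K t
  finite : FiniteDimensional K⟮t⟯ F
  separable : Algebra.IsSeparable K⟮t⟯ F

theorem Coord.inv {t : F} (h : Coord K t) : Coord K t⁻¹ :=
  ⟨fun ha => h.transcendental (by simpa using ha.inv),
    (adjoin_inv (K := K) t).symm ▸ h.finite, (adjoin_inv (K := K) t).symm ▸ h.separable⟩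

variable (K) in
/-- `K(X) → K⟮t⟯`. -/
def coordEquiv {t : F} (ht : Transcendental K t) : RatFunc K ≃+* K⟮t⟯ :=
  ((AlgEquiv.ofInjectiveField (ratFuncHom K ht)).trans
    (IntermediateField.equivOfEq (fieldRange_ratFuncHom ht))).toRingEquiv

theorem coe_coordEquiv_algebraMap {t : F} (ht : Transcendental K t) (a : K[X]) :
    (coordEquiv K ht (algebraMap K[X] (RatFunc K) a) : F) = aeval t a :=
  ratFuncHom_algebraMap ht a

/-- The structures used by the trace theorems, for the coordinate `t`. -/
theorem Coord.run {t : F} (h : Coord K t) (Pr : Prop)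
    (H : ∀ [Algebra K[X] F] [Algebra (RatFunc K) F] [IsScalarTower K K[X] F]
      [IsScalarTower K[X] (RatFunc K) F] [FiniteDimensional (RatFunc K) F]
      [Algebra.IsSeparable (RatFunc K) F],
      algebraMap K[X] F = (Polynomial.aeval t).toRingHom →
      (∀ y, (trF K t y : F) = algebraMap (RatFunc K) F (Algebra.trace (RatFunc K) F y)) → Pr) :
    Pr := by
  let e := coordEquiv K h.transcendental
  letI : Algebra K[X] F := (Polynomial.aeval t).toRingHom.toAlgebra
  letI : Algebra (RatFunc K) F := ((algebraMap K⟮t⟯ F).comp e.toRingHom).toAlgebra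
  haveI : IsScalarTower K K[X] F :=
    IsScalarTower.of_algebraMap_eq fun a => ((Polynomial.aeval t).commutes a).symm
  haveI : IsScalarTower K[X] (RatFunc K) F :=
    IsScalarTower.of_algebraMap_eq fun a => (coe_coordEquiv_algebraMap h.transcendental a).symm
  have he : (algebraMap (RatFunc K) F).comp (e.symm : K⟮t⟯ →+* RatFunc K) =
      algebraMap K⟮t⟯ F := RingHom.ext fun y => by
    show algebraMap K⟮t⟯ F (e (e.symm y)) = _
    rw [e.apply_symm_apply]
  haveI := h.finite
  haveI := h.separable
  haveI : FiniteDimensional (RatFunc K) F :=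
    Module.Finite.of_equiv_equiv e.symm (RingEquiv.refl F) (by exact he)
  haveI : Algebra.IsSeparable (RatFunc K) F :=
    Algebra.IsSeparable.of_equiv_equiv e.symm (RingEquiv.refl F) (by exact he)
  refine H rfl fun y => ?_
  have h1 := Algebra.trace_eq_of_equiv_equiv e.symm (RingEquiv.refl F) (by exact he) y
  rw [RingEquiv.refl_apply, RingEquiv.symm_symm] at h1
  rw [trF, h1]
  rfl

variable [IsAlgClosed K]

/-- `trace_dlog_mem_range`, over `K⟮t⟯`. -/
theorem Coord.trF_dlog {t : F} (hc : Coord K t) {p : ℕ} [Fact p.Prime] [CharP K p] {L : Type*}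
    [Field L] {ι : F →+* L} {f : F → L} (hf : IsDer K ι f) (ht : f t ≠ 0) {h θ : F} (h0 : h ≠ 0)
    (hdiv : ∀ V : ValuationSubring F, (∀ a : K, algebraMap K F a ∈ V) →
      ∃ y : F, y ≠ 0 ∧ h * y ^ p ∈ V ∧ (h * y ^ p)⁻¹ ∈ V)
    (hθ : ι θ * f t * ι h = f h) {r : F} (hr : (Polynomial.aeval (R := K) t).toRingHom.IsIntegralElem r) :
    ∃ b : K[X], trF K t (θ * r) = aeval t b := by
  refine hc.run _ ?_
  intro i1 i2 i3 i4 i5 i6 halg htr
  letI := isFractionRing_closure (K := K) (F := F)
  letI := isDedekindDomain_closure (K := K) (F := F)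
  have hX : algebraMap K[X] F X = t := by rw [halg]; simp
  obtain ⟨b, hb⟩ := trace_dlog_mem_range (p := p) hf (by rwa [hX]) h0 (fun v => by
    obtain ⟨y, hy0, hy1, hy2⟩ := hdiv (v.valuation F).valuationSubring fun a => by
      rw [Valuation.mem_valuationSubring_iff, IsScalarTower.algebraMap_apply K K[X] F]
      exact v.valuation_le_one (algebraMap K[X] ↥(integralClosure K[X] F) (algebraMap K K[X] a))
    rw [Valuation.mem_valuationSubring_iff] at hy1 hy2
    refine ⟨y, le_antisymm hy1 ?_⟩
    rw [map_inv₀] at hy2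
    exact (inv_le_one₀ (zero_lt_iff.mpr ((Valuation.ne_zero_iff _).mpr
      (mul_ne_zero h0 (pow_ne_zero _ hy0))))).mp hy2) (by rw [hX]; exact hθ)
    ⟨r, by rw [← halg] at hr; exact hr⟩
  refine ⟨b, ?_⟩
  rw [htr, ← hb, ← IsScalarTower.algebraMap_apply, halg]
  rfl

/-- `exists_sum_of_trace`, over `K⟮t⟯`. -/
theorem Coord.exists_sum {t : F} (hc : Coord K t) {θ : F}
    (hθ : ∀ r : F, (Polynomial.aeval (R := K) t).toRingHom.IsIntegralElem r →
      ∃ b : K[X], trF K t (θ * r) = aeval t b) :
    ∃ (n : ℕ) (r x : Fin n → F),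
      (∀ i, (Polynomial.aeval (R := K) t).toRingHom.IsIntegralElem (r i) ∧
        (Polynomial.aeval (R := K) t).toRingHom.IsIntegralElem (x i)) ∧
      ∀ (L : Type w) [Field L] (ι : F →+* L) (f : F → L),
        IsDer K ι f → ι θ * f t = ∑ i, ι (r i) * f (x i) := by
  refine hc.run _ ?_
  intro i1 i2 i3 i4 i5 i6 halg htr
  obtain ⟨n, r, x, h⟩ := exists_sum_of_trace.{w} (K := K) (F := F) (θ := θ) fun r => by
    obtain ⟨b, hb⟩ := hθ r (by rw [← halg]; exact r.2)
    refine ⟨b, (algebraMap (RatFunc K) F).injective ?_⟩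
    rw [← htr, hb, ← IsScalarTower.algebraMap_apply, halg]
    rfl
  refine ⟨n, fun i => r i, fun i => x i, fun i => ⟨?_, ?_⟩, fun L _ ι f hf => ?_⟩
  · rw [← halg]; exact (r i).2
  · rw [← halg]; exact (x i).2
  · rw [← h L ι f hf, halg]
    simp

/-- The trace of `H(η) / P'(η)`. -/
theorem Coord.trF_div {t : F} (hc : Coord K t) {η : F} {P : K[X][X]} (hP : P.Monic)
    (hroot : P.eval₂ (Polynomial.aeval (R := K) t).toRingHom η = 0)
    (hmin : ∀ Q : K[X][X], Q.Monic → Q.eval₂ (Polynomial.aeval (R := K) t).toRingHom η = 0 →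
      P.natDegree ≤ Q.natDegree)
    (hgen : IntermediateField.adjoin K⟮t⟯ ({η} : Set F) = ⊤) (H : K[X][X]) :
    trF K t (H.eval₂ (Polynomial.aeval (R := K) t).toRingHom η /
      (derivative P).eval₂ (Polynomial.aeval (R := K) t).toRingHom η) =
      aeval t ((H %ₘ P).coeff (P.natDegree - 1)) := by
  refine hc.run _ ?_
  intro i1 i2 i3 i4 i5 i6 halg htr
  rw [← halg] at hroot hmin ⊢
  have hint : IsIntegral K[X] η := ⟨P, hP, hroot⟩
  haveI : Module.IsTorsionFree K[X] F :=
    haveI : FaithfulSMul K[X] F := (faithfulSMul_iff_algebraMap_injective K[X] F).mpr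
      algebraMap_injective_F
    inferInstance
  have hPmin : P = minpoly K[X] η := by
    have hdvd : minpoly K[X] η ∣ P := minpoly.isIntegrallyClosed_dvd hint hroot
    refine (eq_of_monic_of_dvd_of_natDegree_le (minpoly.monic hint) hP hdvd
      (hmin _ (minpoly.monic hint) (minpoly.aeval _ _))).symm ▸ rfl
  have htop : Algebra.adjoin (RatFunc K) {η} = ⊤ := by
    refine eq_top_iff.mpr fun y hyt => ?_
    clear hyt
    have hy : y ∈ IntermediateField.adjoin K⟮t⟯ ({η} : Set F) := hgen ▸ IntermediateField.mem_top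
    have hK : ∀ a : K⟮t⟯, (a : F) ∈ Algebra.adjoin (RatFunc K) {η} := fun a => by
      obtain ⟨p, q, hpq⟩ := (mem_adjoin_simple_iff _ _).mp a.2
      have : (a : F) = algebraMap (RatFunc K) F
          (algebraMap K[X] (RatFunc K) p / algebraMap K[X] (RatFunc K) q) := by
        rw [map_div₀, ← IsScalarTower.algebraMap_apply, ← IsScalarTower.algebraMap_apply, halg]
        exact hpq
      rw [this]
      exact Subalgebra.algebraMap_mem _ _
    induction hy using IntermediateField.adjoin_induction with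
    | mem x hx => exact Algebra.subset_adjoin hx
    | algebraMap a => exact hK a
    | add x z _ _ hx hz => exact add_mem hx hz
    | inv x _ hx => exact Subalgebra.inv_mem_of_algebraic _ (x := ⟨x, hx⟩) (Algebra.IsAlgebraic.isAlgebraic _)
    | mul x z _ _ hx hz => exact mul_mem hx hz
  rw [htr, hPmin, ← aeval_def, ← aeval_def, trace_aeval_div hint htop H,
    ← IsScalarTower.algebraMap_apply, halg]
  rfl

end Fermat.Agent.MCurve.SpecialDifferential
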